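import Fermat.Agent.Gromov.Growth
import Mathlib.Tactic.Group

/-!
# Nilpotent groups have polynomial growth

Wolf's theorem. In a product, all occurrences of one element `a` are moved to the right; a conjugate
of `x` by `a ^ m` is a product of at most `(m + 1) ^ c` iterated commutators of `x` with `a`, which
lie deeper in the lower central series.
-/

set_option autoImplicit false

noncomputable section

open Finset
open scoped Pointwise Classical commutatorElement

namespace FA.Gromov

variable {G : Type*} [Group G]

/-- Every product of `n` elements of a finite set takes polynomially many values. -/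
def PolyBall (T : Finset G) : Prop := ∃ C d : ℕ, ∀ n : ℕ, (T ^ n).card ≤ C * (n + 1) ^ d

theorem PolyBall.mono {T T' : Finset G} (h : PolyBall T') (hT : T ⊆ T') : PolyBall T := by
  obtain ⟨C, d, hC⟩ := h
  exact ⟨C, d, fun n => (card_le_card (Finset.pow_subset_pow_left hT)).trans (hC n)⟩

/-- The level of the lower central series. -/
abbrev lev (i : ℕ) : Subgroup G := (⊤ : Subgroup G).lowerCentralSeries i

theorem comm_iterate_mem {a x : G} {i : ℕ} (hx : x ∈ lev i) :
    ∀ l, (fun y => ⁅a, y⁆)^[l] x ∈ lev (i + l)
  | 0 => hx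
  | l + 1 => by
    rw [Function.iterate_succ_apply', ← add_assoc, lev, Subgroup.lowerCentralSeries_succ,
      Subgroup.commutator_comm]
    exact Subgroup.commutator_mem_commutator trivial (comm_iterate_mem hx l)

/-- Conjugates as short products of iterated commutators. -/
theorem conj_pow_mem {a x : G} {U : Finset G} {c m : ℕ} (h1 : (1 : G) ∈ U)
    (hU : ∀ l ≤ c, (fun y => ⁅a, y⁆)^[l] x ∈ U) (hc : (fun y => ⁅a, y⁆)^[c + 1] x = 1) :
    a ^ m * x * (a ^ m)⁻¹ ∈ U ^ (m + 1) ^ c := by
  suffices h : ∀ m k l, l + k = c → a ^ m * (fun y => ⁅a, y⁆)^[l] x * (a ^ m)⁻¹ ∈ U ^ (m + 1) ^ k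
    from h m c 0 (zero_add c)
  intro m
  induction m with
  | zero => intro k l hlk; simpa using hU l (by omega)
  | succ m ih =>
    intro k l hlk
    set y := (fun y => ⁅a, y⁆)^[l] x with hy
    have he : a ^ (m + 1) * y * (a ^ (m + 1))⁻¹ =
        (a ^ m * ⁅a, y⁆ * (a ^ m)⁻¹) * (a ^ m * y * (a ^ m)⁻¹) := by
      rw [pow_succ, commutatorElement_def]
      group
    rw [he]
    rcases k with _ | k
    · have h0 : ⁅a, y⁆ = 1 := by
        obtain rfl : l = c := by omega
        rwa [Function.iterate_succ_apply'] at hc
      simpa [h0] using ih 0 l hlk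
    · have h2 := ih k (l + 1) (by omega)
      rw [Function.iterate_succ_apply'] at h2
      have h3 : (m + 1) ^ k + (m + 1) ^ (k + 1) ≤ (m + 1 + 1) ^ (k + 1) :=
        calc (m + 1) ^ k + (m + 1) ^ (k + 1) = (m + 1 + 1) * (m + 1) ^ k := by ring
          _ ≤ (m + 1 + 1) * (m + 1 + 1) ^ k := by gcongr; omega
          _ = _ := by ring
      refine Finset.pow_subset_pow_right h1 h3 ?_
      rw [pow_add]
      exact Finset.mul_mem_mul h2 (ih (k + 1) l hlk)

/-- **Wolf's theorem.** -/
theorem polyBall_of_isNilpotent [hG : Group.IsNilpotent G] (T : Finset G) : PolyBall T := by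
  obtain ⟨c, hc⟩ := Subgroup.nilpotent_iff_lowerCentralSeries.1 hG
  suffices h : ∀ k i : ℕ, i + k = c → ∀ T : Finset G, (∀ x ∈ T, x ∈ lev i) → PolyBall T from
    h c 0 (zero_add c) T fun _ _ => trivial
  intro k
  induction k with
  | zero =>
    intro i hik T hT
    refine ⟨1, 0, fun n => ?_⟩
    have h1 : T ⊆ {1} := fun x hx => by
      have := hT x hx
      rw [show i = c by omega, lev, hc, Subgroup.mem_bot] at this
      exact mem_singleton.2 this
    refine (card_le_card (Finset.pow_subset_pow_left (n := n) h1)).trans ?_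
    simp
  | succ k ih =>
    intro i hik T hT
    generalize hN : (T.filter fun x => x ∉ lev (i + 1)).card = N
    induction N using Nat.strong_induction_on generalizing T with
    | _ N ihN =>
      rcases (T.filter fun x => x ∉ lev (i + 1)).eq_empty_or_nonempty with he | ⟨a, ha⟩
      · exact ih (i + 1) (by omega) T fun x hx => by
          by_contra hx'
          exact (Finset.eq_empty_iff_forall_notMem.1 he) x (mem_filter.2 ⟨hx, hx'⟩)
      obtain ⟨haT, hai⟩ := mem_filter.1 ha
      set U : Finset G := insert 1 ((T.erase a).biUnion fun x =>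
        (range (c + 1)).image fun l => (fun y => ⁅a, y⁆)^[l] x) with hU
      have h1U : (1 : G) ∈ U := mem_insert_self _ _
      have hUlev : ∀ x ∈ U, x ∈ lev i := fun x hx => by
        rcases mem_insert.1 hx with rfl | hx
        · exact one_mem _
        obtain ⟨y, hy, hx⟩ := mem_biUnion.1 hx
        obtain ⟨l, -, rfl⟩ := mem_image.1 hx
        exact Subgroup.lowerCentralSeries_antitone _ (Nat.le_add_right i l)
          (comm_iterate_mem (hT y (erase_subset _ _ hy)) l)
      have hsub : U.filter (fun x => x ∉ lev (i + 1)) ⊆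
          (T.filter fun x => x ∉ lev (i + 1)).erase a := fun x hx => by
        obtain ⟨hx, hx'⟩ := mem_filter.1 hx
        rcases mem_insert.1 hx with rfl | hx
        · exact absurd (one_mem _) hx'
        obtain ⟨y, hy, hx⟩ := mem_biUnion.1 hx
        obtain ⟨l, -, rfl⟩ := mem_image.1 hx
        rcases l with _ | l
        · exact mem_erase.2 ⟨(mem_erase.1 hy).1, mem_filter.2 ⟨erase_subset _ _ hy, hx'⟩⟩
        · exact absurd (Subgroup.lowerCentralSeries_antitone _ (by omega)
            (comm_iterate_mem (hT y (erase_subset _ _ hy)) (l + 1))) hx'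
      have hlt : (U.filter fun x => x ∉ lev (i + 1)).card < N := by
        have := card_le_card hsub
        rw [card_erase_of_mem ha, hN] at this
        have := card_pos.2 ⟨a, ha⟩
        omega
      obtain ⟨C, d, hC⟩ := ihN _ hlt U hUlev rfl
      have hword : ∀ n, T ^ n ⊆ ((range (n + 1)).biUnion fun m =>
          (U ^ (n * (n + 1) ^ c)).image fun u => u * a ^ m) := by
        intro n
        induction n with
        | zero =>
          intro z hz
          rw [pow_zero, Finset.mem_one] at hz
          subst hz
          exact mem_biUnion.2 ⟨0, by simp, mem_image.2 ⟨1, by simp, by simp⟩⟩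
        | succ n ihn =>
          intro z hz
          rw [pow_succ] at hz
          obtain ⟨w, hw, x, hx, rfl⟩ := Finset.mem_mul.1 hz
          obtain ⟨m, hm, hw⟩ := mem_biUnion.1 (ihn hw)
          obtain ⟨u, hu, rfl⟩ := mem_image.1 hw
          rw [mem_range] at hm
          have hmono : n * (n + 1) ^ c + (m + 1) ^ c ≤ (n + 1) * (n + 1 + 1) ^ c := by
            have h1 : (n + 1) ^ c ≤ (n + 1 + 1) ^ c := Nat.pow_le_pow_left (by omega) c
            have h2 : (m + 1) ^ c ≤ (n + 1 + 1) ^ c := Nat.pow_le_pow_left (by omega) c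
            nlinarith
          rcases eq_or_ne x a with rfl | hxa
          · refine mem_biUnion.2 ⟨m + 1, mem_range.2 (by omega), mem_image.2 ⟨u, ?_, ?_⟩⟩
            · exact Finset.pow_subset_pow_right h1U (le_trans (Nat.le_add_right _ _) hmono) hu
            · rw [pow_succ, mul_assoc]
          · refine mem_biUnion.2 ⟨m, mem_range.2 (by omega),
              mem_image.2 ⟨u * (a ^ m * x * (a ^ m)⁻¹), ?_, by group⟩⟩
            refine Finset.pow_subset_pow_right h1U hmono (pow_add U _ _ ▸ Finset.mul_mem_mul hu ?_)
            refine conj_pow_mem h1U (fun l hl => mem_insert_of_mem (mem_biUnion.2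
              ⟨x, mem_erase.2 ⟨hxa, hx⟩, mem_image.2 ⟨l, mem_range.2 (by omega), rfl⟩⟩)) ?_
            have := Subgroup.lowerCentralSeries_antitone _
              (show c ≤ i + (c + 1) by omega) (comm_iterate_mem (a := a) (hT x hx) (c + 1))
            rwa [hc, Subgroup.mem_bot] at this
      refine ⟨C * 2 ^ d, (c + 1) * d + 1, fun n => ?_⟩
      calc (T ^ n).card ≤ _ := card_le_card (hword n)
        _ ≤ ∑ m ∈ range (n + 1), ((U ^ (n * (n + 1) ^ c)).image fun u => u * a ^ m).card :=
            card_biUnion_le
        _ ≤ ∑ _m ∈ range (n + 1), C * (2 * (n + 1) ^ (c + 1)) ^ d := by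
            refine sum_le_sum fun m _ => (card_image_le.trans (hC _)).trans ?_
            refine Nat.mul_le_mul_left _ (Nat.pow_le_pow_left ?_ d)
            have : 1 ≤ (n + 1) ^ c := Nat.one_le_pow _ _ (by omega)
            rw [pow_succ]
            nlinarith
        _ = _ := by
            rw [sum_const, card_range, smul_eq_mul, mul_pow, ← pow_mul]
            ring

end FA.Gromov
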