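import Mathlib.GroupTheory.Nilpotent
import Mathlib.GroupTheory.Commutator.Basic
import Mathlib.GroupTheory.QuotientGroup.Basic

/-!
# A criterion for nilpotence

Hall's criterion for a group generated by a nilpotent normal subgroup and one element that acts
unipotently on the abelianisation of the subgroup.
-/

set_option autoImplicit false

noncomputable section

open scoped commutatorElement

namespace FA.Gromov

variable {G : Type*} [Group G]

/-- Repeated commutators with the whole group. -/
def drop (X : Subgroup G) : ℕ → Subgroup G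
  | 0 => X
  | m + 1 => ⁅drop X m, (⊤ : Subgroup G)⁆

theorem drop_succ' (X : Subgroup G) :
    ∀ m, drop X (m + 1) = drop ⁅X, (⊤ : Subgroup G)⁆ m
  | 0 => rfl
  | m + 1 => congrArg (fun Y => ⁅Y, (⊤ : Subgroup G)⁆) (drop_succ' X m)

theorem drop_normal {X : Subgroup G} (hX : X.Normal) : ∀ m, (drop X m).Normal
  | 0 => hX
  | m + 1 => by
    have := drop_normal hX m
    exact Subgroup.commutator_normal _ _

theorem drop_mono {X Y : Subgroup G} (h : X ≤ Y) : ∀ m, drop X m ≤ drop Y m
  | 0 => h
  | m + 1 => Subgroup.commutator_mono (drop_mono h m) le_rfl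

theorem drop_le {X : Subgroup G} (hX : X.Normal) : ∀ m, drop X m ≤ X
  | 0 => le_rfl
  | m + 1 => (Subgroup.commutator_mono (drop_le hX m) le_rfl).trans
      (Subgroup.commutator_le_left _ _)

theorem drop_add (X : Subgroup G) (a : ℕ) : ∀ b, drop X (a + b) = drop (drop X a) b
  | 0 => rfl
  | b + 1 => congrArg (fun Y => ⁅Y, (⊤ : Subgroup G)⁆) (drop_add X a b)

/-- The three subgroups lemma relative to a normal subgroup. -/
theorem commutator_le_of_rotate {X Y W Z : Subgroup G} [Z.Normal] (h1 : ⁅⁅Y, W⁆, X⁆ ≤ Z)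
    (h2 : ⁅⁅W, X⁆, Y⁆ ≤ Z) : ⁅⁅X, Y⁆, W⁆ ≤ Z := by
  rw [← QuotientGroup.ker_mk' Z, ← Subgroup.map_eq_bot_iff, Subgroup.map_commutator,
    Subgroup.map_commutator] at h1 h2 ⊢
  exact Subgroup.commutator_commutator_eq_bot_of_rotate h1 h2

theorem sup_commutator_le {U V : Subgroup G} (hU : U.Normal) (hV : V.Normal) :
    ⁅U ⊔ V, (⊤ : Subgroup G)⁆ ≤ ⁅U, (⊤ : Subgroup G)⁆ ⊔ ⁅V, (⊤ : Subgroup G)⁆ := by
  set Z := ⁅U, (⊤ : Subgroup G)⁆ ⊔ ⁅V, (⊤ : Subgroup G)⁆ with hZ
  have : Z.Normal := by
    have := hU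
    have := hV
    infer_instance
  have hU' : ⁅U, (⊤ : Subgroup G)⁆ ≤ Z := le_sup_left
  have hV' : ⁅V, (⊤ : Subgroup G)⁆ ≤ Z := le_sup_right
  rw [← QuotientGroup.ker_mk' Z, ← Subgroup.map_eq_bot_iff, Subgroup.map_commutator,
    Subgroup.commutator_eq_bot_iff_le_centralizer] at hU' hV' ⊢
  rw [Subgroup.map_sup]
  exact sup_le hU' hV'

theorem drop_sup_le {U V : Subgroup G} (hU : U.Normal) (hV : V.Normal) :
    ∀ m, drop (U ⊔ V) m ≤ drop U m ⊔ drop V m
  | 0 => le_rfl
  | m + 1 => (Subgroup.commutator_mono (drop_sup_le hU hV m) le_rfl).trans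
      (sup_commutator_le (drop_normal hU m) (drop_normal hV m))

theorem drop_commutator_le {Z : Subgroup G} [Z.Normal] : ∀ (n a b : ℕ) (X Y : Subgroup G),
    a + b = n → X.Normal → Y.Normal → ⁅drop X a, Y⁆ ≤ Z → ⁅X, drop Y b⁆ ≤ Z →
      drop ⁅X, Y⁆ n ≤ Z := by
  intro n
  induction n with
  | zero =>
    intro a b X Y h hX hY ha hb
    obtain rfl : a = 0 := by omega
    exact ha
  | succ n ih =>
    intro a b X Y h hX hY ha hb
    have := hX
    have := hY
    rcases a with _ | a
    · exact (drop_le (Subgroup.commutator_normal _ _) _).trans ha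
    rcases b with _ | b
    · exact (drop_le (Subgroup.commutator_normal _ _) _).trans hb
    have hXn : (⁅X, (⊤ : Subgroup G)⁆).Normal := Subgroup.commutator_normal _ _
    have hYn : (⁅Y, (⊤ : Subgroup G)⁆).Normal := Subgroup.commutator_normal _ _
    have h3 : ⁅⁅X, Y⁆, (⊤ : Subgroup G)⁆ ≤
        ⁅⁅X, (⊤ : Subgroup G)⁆, Y⁆ ⊔ ⁅X, ⁅Y, (⊤ : Subgroup G)⁆⁆ := by
      refine commutator_le_of_rotate ?_ ?_
      · rw [Subgroup.commutator_comm]
        exact le_sup_right
      · rw [Subgroup.commutator_comm (⊤ : Subgroup G) X]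
        exact le_sup_left
    rw [drop_succ']
    refine (drop_mono h3 n).trans ((drop_sup_le (Subgroup.commutator_normal _ _)
      (Subgroup.commutator_normal _ _) n).trans (sup_le ?_ ?_))
    · refine ih a (b + 1) _ _ (by omega) hXn hY ?_ ?_
      · rwa [← drop_succ']
      · exact (Subgroup.commutator_mono (Subgroup.commutator_le_left _ _) le_rfl).trans hb
    · refine ih (a + 1) b _ _ (by omega) hX hYn ?_ ?_
      · exact (Subgroup.commutator_mono le_rfl (Subgroup.commutator_le_left _ _)).trans ha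
      · rwa [← drop_succ']

theorem lowerCentral_normal {N : Subgroup G} (hN : N.Normal) :
    ∀ i, (N.lowerCentralSeries i).Normal
  | 0 => hN
  | i + 1 => by
    have := lowerCentral_normal hN i
    have := hN
    exact Subgroup.commutator_normal _ _

theorem top_lowerCentralSeries_eq (m : ℕ) :
    (⊤ : Subgroup G).lowerCentralSeries m = drop ⊤ m := by
  induction m with
  | zero => rfl
  | succ m ih => exact congrArg (fun Y => ⁅Y, (⊤ : Subgroup G)⁆) ih

/-- **Hall's criterion.** -/
theorem isNilpotent_of_drop {N : Subgroup G} [N.Normal] (hN : Group.IsNilpotent N) {k m : ℕ}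
    (hk : drop (⊤ : Subgroup G) k ≤ N) (hm : drop N m ≤ ⁅N, N⁆) : Group.IsNilpotent G := by
  have hA := lowerCentral_normal (inferInstance : N.Normal)
  have hstep : ∀ i, ∃ j, drop (N.lowerCentralSeries i) j ≤ N.lowerCentralSeries (i + 1) := by
    intro i
    induction i with
    | zero => exact ⟨m, hm⟩
    | succ i ih =>
      obtain ⟨j, hj⟩ := ih
      have := hA i
      have := hA (i + 1)
      have := hA (i + 1 + 1)
      refine ⟨j + m, drop_commutator_le (j + m) j m _ _ rfl (hA i) inferInstance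
        (Subgroup.commutator_mono hj le_rfl) ?_⟩
      refine (Subgroup.commutator_mono le_rfl hm).trans ?_
      rw [Subgroup.commutator_comm]
      refine commutator_le_of_rotate ?_ ?_
      · rw [Subgroup.commutator_comm N (N.lowerCentralSeries i)]
        exact le_rfl
      · exact le_rfl
  choose j hj using hstep
  have hall : ∀ i, ∃ M, drop (⊤ : Subgroup G) M ≤ N.lowerCentralSeries i := fun i => by
    induction i with
    | zero => exact ⟨k, hk⟩
    | succ i ih =>
      obtain ⟨M, hM⟩ := ih
      exact ⟨M + j i, by rw [drop_add]; exact (drop_mono hM _).trans (hj i)⟩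
  obtain ⟨c, hc⟩ := (Subgroup.isNilpotent_iff_lowerCentralSeries N).1 hN
  obtain ⟨M, hM⟩ := hall c
  exact Subgroup.nilpotent_iff_lowerCentralSeries.2
    ⟨M, le_bot_iff.1 (by rw [top_lowerCentralSeries_eq, ← hc]; exact hM)⟩

/-- A normal abelian subgroup and one element: the drops are powers of the difference map. -/
theorem drop_abelian_le {A : Subgroup G} [A.Normal] (hA : ∀ x ∈ A, ∀ y ∈ A, x * y = y * x) {s : G}
    (hgen : A ⊔ Subgroup.zpowers s = ⊤) {δ : G → G} (hδ : ∀ x ∈ A, δ x = s * x * s⁻¹ * x⁻¹) :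
    ∀ m, ∀ x ∈ drop A m, ∃ y ∈ A, δ^[m] y = x := by
  have hmaps : ∀ x ∈ A, δ x ∈ A := fun x hx => by
    rw [hδ x hx]
    exact A.mul_mem (Subgroup.Normal.conj_mem inferInstance x hx s) (A.inv_mem hx)
  have hiter : ∀ m : ℕ, ∀ x ∈ A, δ^[m] x ∈ A := by
    intro m
    induction m with
    | zero => exact fun x hx => hx
    | succ m ih =>
      intro x hx
      rw [Function.iterate_succ_apply']
      exact hmaps _ (ih x hx)
  have hmul : ∀ m : ℕ, ∀ x ∈ A, ∀ y ∈ A, δ^[m] (x * y) = δ^[m] x * δ^[m] y := by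
    intro m
    induction m with
    | zero => exact fun x _ y _ => rfl
    | succ m ih =>
      intro x hx y hy
      simp only [Function.iterate_succ_apply', ih x hx y hy]
      rw [hδ _ (A.mul_mem (hiter m x hx) (hiter m y hy)), hδ _ (hiter m x hx), hδ _ (hiter m y hy)]
      set a := δ^[m] x
      set b := δ^[m] y
      have ha : s * a * s⁻¹ ∈ A := Subgroup.Normal.conj_mem inferInstance a (hiter m x hx) s
      have hb : s * b * s⁻¹ ∈ A := Subgroup.Normal.conj_mem inferInstance b (hiter m y hy) s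
      have hai := A.inv_mem (hiter m x hx)
      calc s * (a * b) * s⁻¹ * (a * b)⁻¹
          = s * a * s⁻¹ * ((s * b * s⁻¹ * b⁻¹) * a⁻¹) := by group
        _ = s * a * s⁻¹ * (a⁻¹ * (s * b * s⁻¹ * b⁻¹)) := by
            rw [hA _ (A.mul_mem hb (A.inv_mem (hiter m y hy))) _ hai]
        _ = _ := by group
  have hcomm : ∀ m : ℕ, ∀ x ∈ A, ∀ i : ℤ,
      s ^ i * δ^[m] x * (s ^ i)⁻¹ = δ^[m] (s ^ i * x * (s ^ i)⁻¹) := by
    intro m
    induction m with
    | zero => exact fun x _ i => rfl
    | succ m ih =>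
      intro x hx i
      have hx' : s ^ i * x * (s ^ i)⁻¹ ∈ A := Subgroup.Normal.conj_mem inferInstance x hx _
      simp only [Function.iterate_succ_apply']
      rw [← ih x hx i, hδ _ (hiter m x hx),
        hδ _ (Subgroup.Normal.conj_mem inferInstance _ (hiter m x hx) _)]
      group
  let W : ℕ → Subgroup G := fun m =>
    { carrier := {x | ∃ y ∈ A, δ^[m] y = x}
      one_mem' := ⟨1, A.one_mem, by
        have := hmul m 1 A.one_mem 1 A.one_mem
        rwa [mul_one, left_eq_mul] at this⟩
      mul_mem' := by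
        rintro _ _ ⟨y, hy, rfl⟩ ⟨z, hz, rfl⟩
        exact ⟨y * z, A.mul_mem hy hz, hmul m y hy z hz⟩
      inv_mem' := by
        rintro _ ⟨y, hy, rfl⟩
        refine ⟨y⁻¹, A.inv_mem hy, eq_inv_of_mul_eq_one_left ?_⟩
        rw [← hmul m _ (A.inv_mem hy) y hy, inv_mul_cancel]
        have := hmul m 1 A.one_mem 1 A.one_mem
        rwa [mul_one, left_eq_mul] at this }
  have hWA : ∀ m, W m ≤ A := fun m => by
    rintro _ ⟨y, hy, rfl⟩
    exact hiter m y hy
  have hWn : ∀ m, (W m).Normal := fun m => by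
    rw [← Subgroup.normalizer_eq_top_iff, ← top_le_iff, ← hgen, sup_le_iff]
    refine ⟨fun a ha => Subgroup.mem_normalizer_iff.2 fun x => ⟨fun hx => ?_, fun hx => ?_⟩, ?_⟩
    · rwa [hA a ha x (hWA m hx), mul_inv_cancel_right]
    · have h1 : x = a⁻¹ * (a * x * a⁻¹) * a := by group
      rw [h1, hA _ (A.inv_mem ha) _ (hWA m hx), inv_mul_cancel_right]
      exact hx
    · rw [Subgroup.zpowers_le]
      refine Subgroup.mem_normalizer_iff.2 fun x => ⟨?_, ?_⟩
      · rintro ⟨y, hy, rfl⟩
        refine ⟨s * y * s⁻¹, Subgroup.Normal.conj_mem inferInstance y hy s, ?_⟩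
        simpa using (hcomm m y hy 1).symm
      · rintro ⟨y, hy, hxy⟩
        refine ⟨s⁻¹ * y * s, ?_, ?_⟩
        · simpa using Subgroup.Normal.conj_mem inferInstance y hy s⁻¹
        · have h1 := (hcomm m y hy (-1)).symm
          simp only [zpow_neg_one, inv_inv] at h1
          rw [h1, hxy]
          group
  intro m
  induction m with
  | zero => exact fun x hx => ⟨x, hx, rfl⟩
  | succ m ih =>
    intro x hx
    have hstep : drop A (m + 1) ≤ W (m + 1) := by
      refine Subgroup.commutator_le.2 fun u hu g _ => ?_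
      obtain ⟨y, hy, rfl⟩ := ih u hu
      have := hWn (m + 1)
      let C : Subgroup G := (Subgroup.centralizer
        {QuotientGroup.mk' (W (m + 1)) (δ^[m] y)}).comap (QuotientGroup.mk' (W (m + 1)))
      have hgC : g ∈ C := by
        have htop : (⊤ : Subgroup G) ≤ C := by
          rw [← hgen, sup_le_iff, Subgroup.zpowers_le]
          constructor
          · intro a ha
            simp only [C, Subgroup.mem_comap, Subgroup.mem_centralizer_singleton_iff, ← map_mul]
            rw [hA _ (hiter m y hy) a ha]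
          · simp only [C, Subgroup.mem_comap, Subgroup.mem_centralizer_singleton_iff, ← map_mul]
            rw [QuotientGroup.mk'_eq_mk']
            refine ⟨(s * δ^[m] y)⁻¹ * (δ^[m] y * s), ?_, by group⟩
            have hW : δ^[m + 1] y ∈ W (m + 1) := ⟨y, hy, rfl⟩
            have := (hWn (m + 1)).conj_mem _ ((W (m + 1)).inv_mem hW) (s * δ^[m] y)⁻¹
            rw [Function.iterate_succ_apply', hδ _ (hiter m y hy)] at this
            convert this using 1
            group
        exact htop trivial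
      simp only [C, Subgroup.mem_comap, Subgroup.mem_centralizer_singleton_iff] at hgC
      rw [← QuotientGroup.ker_mk' (W (m + 1)), MonoidHom.mem_ker, map_commutatorElement,
        commutatorElement_eq_one_iff_mul_comm]
      first | exact hgC | exact hgC.symm
    exact hstep hx

end FA.Gromov
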