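import Mathlib.GroupTheory.Finiteness
import Mathlib.GroupTheory.Nilpotent
import Mathlib.GroupTheory.Schreier
import Mathlib.Algebra.Group.Pointwise.Finset.Basic
import Mathlib.Data.Real.Basic
import Mathlib.Tactic.Linarith
import Mathlib.Tactic.Positivity
import Mathlib.Tactic.Ring

/-!
# Balls and polynomial growth

Symmetric generating sets, their balls, the word length, and a notion of polynomial growth of a
given degree that does not mention generators.
-/

set_option autoImplicit false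

noncomputable section

open Finset
open scoped Pointwise Classical

namespace FA.Gromov

/-- All finite sets have balls that grow at most like the power `d` of the radius. -/
def GrowthLE (G : Type*) [Group G] (d : ℕ) : Prop :=
  ∀ T : Finset G, ∃ C : ℕ, ∀ n : ℕ, (T ^ n).card ≤ C * (n + 1) ^ d

/-- Weak polynomial growth: every finite set has, at arbitrarily large radii, balls at most a
constant times the power `d` of the radius. -/
def WeakLE (G : Type*) [Group G] (d : ℕ) : Prop :=
  ∀ T : Finset G, ∃ C : ℕ, ∀ n₀ : ℕ, ∃ n, n₀ ≤ n ∧ (T ^ n).card ≤ C * (n + 1) ^ d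

/-- A finite symmetric generating set with the identity. -/
structure Gen (G : Type*) [Group G] where
  /-- The set. -/
  set : Finset G
  one_mem : (1 : G) ∈ set
  inv_mem : ∀ s ∈ set, s⁻¹ ∈ set
  closure_eq : Submonoid.closure (↑set : Set G) = ⊤

variable {G : Type*} [Group G]

theorem exists_gen (h : Group.FG G) : Nonempty (Gen G) := by
  obtain ⟨T, hT⟩ := h.out
  refine ⟨⟨insert 1 (T ∪ T⁻¹), mem_insert_self _ _, fun s hs => ?_, ?_⟩⟩
  · simp only [mem_insert, mem_union, Finset.mem_inv'] at hs ⊢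
    rcases hs with rfl | hs | hs
    · exact Or.inl inv_one
    · exact Or.inr (Or.inr (by rwa [inv_inv]))
    · exact Or.inr (Or.inl hs)
  · refine top_unique ?_
    rw [← Subgroup.top_toSubmonoid, ← hT, Subgroup.closure_toSubmonoid]
    refine Submonoid.closure_mono fun x hx => ?_
    simp only [coe_insert, coe_union, Finset.coe_inv, Set.mem_insert_iff, Set.mem_union] at hx ⊢
    exact Or.inr hx

namespace Gen

variable (S : Gen G)

/-- The ball of radius `n` about the identity. -/
def ball (n : ℕ) : Finset G := S.set ^ n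

theorem ball_zero : S.ball 0 = {1} := by
  rw [ball, pow_zero]
  rfl

theorem one_mem_ball (n : ℕ) : (1 : G) ∈ S.ball n := Finset.one_mem_pow S.one_mem

theorem ball_mono {m n : ℕ} (h : m ≤ n) : S.ball m ⊆ S.ball n :=
  Finset.pow_subset_pow_right S.one_mem h

theorem card_ball_pos (n : ℕ) : 0 < (S.ball n).card := card_pos.2 ⟨1, S.one_mem_ball n⟩

theorem mul_mem_ball {m n : ℕ} {x y : G} (hx : x ∈ S.ball m) (hy : y ∈ S.ball n) :
    x * y ∈ S.ball (m + n) := by
  rw [ball, pow_add]
  exact Finset.mul_mem_mul hx hy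

theorem mem_ball_one {s : G} (hs : s ∈ S.set) : s ∈ S.ball 1 := by simpa [ball] using hs

theorem inv_mem_ball : ∀ {n : ℕ} {x : G}, x ∈ S.ball n → x⁻¹ ∈ S.ball n
  | 0, x, hx => by
    rw [ball_zero, mem_singleton] at hx ⊢
    rw [hx, inv_one]
  | n + 1, x, hx => by
    rw [ball, pow_succ] at hx
    obtain ⟨a, ha, b, hb, rfl⟩ := Finset.mem_mul.1 hx
    rw [mul_inv_rev, add_comm n]
    exact S.mul_mem_ball (S.mem_ball_one (S.inv_mem b hb)) (inv_mem_ball ha)

theorem exists_mem_ball (x : G) : ∃ n, x ∈ S.ball n := by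
  have hx : x ∈ Submonoid.closure (↑S.set : Set G) := by rw [S.closure_eq]; trivial
  induction hx using Submonoid.closure_induction with
  | mem y hy => exact ⟨1, S.mem_ball_one hy⟩
  | one => exact ⟨0, S.one_mem_ball 0⟩
  | mul a b _ _ iha ihb =>
    obtain ⟨m, hm⟩ := iha
    obtain ⟨n, hn⟩ := ihb
    exact ⟨m + n, S.mul_mem_ball hm hn⟩

theorem exists_subset_ball (T : Finset G) : ∃ n, T ⊆ S.ball n := by
  choose f hf using S.exists_mem_ball
  exact ⟨T.sup f, fun x hx => S.ball_mono (Finset.le_sup hx) (hf x)⟩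

/-- The word length. -/
def len (x : G) : ℕ := Nat.find (S.exists_mem_ball x)

theorem mem_ball_iff {n : ℕ} {x : G} : x ∈ S.ball n ↔ S.len x ≤ n :=
  ⟨fun h => Nat.find_min' _ h, fun h => S.ball_mono h (Nat.find_spec (S.exists_mem_ball x))⟩

theorem len_mul_le {x s : G} (hs : s ∈ S.set) : S.len (x * s) ≤ S.len x + 1 :=
  S.mem_ball_iff.1 (S.mul_mem_ball (S.mem_ball_iff.2 le_rfl) (S.mem_ball_one hs))

theorem abs_len_sub_le {x s : G} (hs : s ∈ S.set) :
    |(S.len (x * s) : ℝ) - S.len x| ≤ 1 := by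
  have h1 : (S.len (x * s) : ℝ) ≤ S.len x + 1 := by exact_mod_cast S.len_mul_le hs
  have h2 : (S.len x : ℝ) ≤ S.len (x * s) + 1 := by
    have := S.len_mul_le (x := x * s) (S.inv_mem s hs)
    rw [mul_inv_cancel_right] at this
    exact_mod_cast this
  rw [abs_le]
  constructor <;> linarith

/-- Polynomial growth of one generating set is polynomial growth. -/
theorem growthLE {C d : ℕ} (h : ∀ n, (S.ball n).card ≤ C * (n + 1) ^ d) : GrowthLE G d := by
  intro T
  obtain ⟨L, hL⟩ := S.exists_subset_ball T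
  refine ⟨C * (L + 1) ^ d, fun n => ?_⟩
  calc (T ^ n).card ≤ ((S.ball L) ^ n).card := card_le_card (Finset.pow_subset_pow_left hL)
    _ = (S.ball (L * n)).card := by rw [ball, ball, ← pow_mul]
    _ ≤ C * (L * n + 1) ^ d := h _
    _ ≤ C * ((L + 1) * (n + 1)) ^ d := by gcongr; nlinarith
    _ = _ := by rw [mul_pow, mul_assoc]

/-- Weak polynomial growth of one generating set is weak polynomial growth. -/
theorem weakLE {C d : ℕ} (h : ∀ n₀, ∃ n, n₀ ≤ n ∧ (S.ball n).card ≤ C * (n + 1) ^ d) :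
    WeakLE G d := by
  intro T
  obtain ⟨L, hL⟩ := S.exists_subset_ball T
  refine ⟨C * (L + 1) ^ d, fun n₀ => ?_⟩
  obtain ⟨N, hN, hC⟩ := h ((L + 1) * (n₀ + 1))
  have hdm := Nat.div_add_mod N (L + 1)
  have hmod : N % (L + 1) < L + 1 := Nat.mod_lt N (Nat.succ_pos L)
  have hle : L * (N / (L + 1)) ≤ N :=
    le_trans (Nat.mul_le_mul_right _ (Nat.le_succ L))
      ((Nat.le_add_right _ _).trans hdm.le)
  refine ⟨N / (L + 1), (Nat.le_div_iff_mul_le (Nat.succ_pos L)).2 (by nlinarith), ?_⟩
  calc (T ^ (N / (L + 1))).card ≤ ((S.ball L) ^ (N / (L + 1))).card :=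
        card_le_card (Finset.pow_subset_pow_left hL)
    _ = (S.ball (L * (N / (L + 1)))).card := by rw [ball, ball, ← pow_mul]
    _ ≤ (S.ball N).card := card_le_card (S.ball_mono hle)
    _ ≤ C * (N + 1) ^ d := hC
    _ ≤ C * ((L + 1) * (N / (L + 1) + 1)) ^ d := by gcongr; nlinarith
    _ = _ := by rw [mul_pow, mul_assoc]

end Gen

theorem GrowthLE.weak {d : ℕ} (h : GrowthLE G d) : WeakLE G d := fun T => by
  obtain ⟨C, hC⟩ := h T
  exact ⟨C, fun n₀ => ⟨n₀, le_rfl, hC n₀⟩⟩

theorem WeakLE.mono {d d' : ℕ} (h : WeakLE G d) (hd : d ≤ d') : WeakLE G d' := fun T => by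
  obtain ⟨C, hC⟩ := h T
  refine ⟨C, fun n₀ => ?_⟩
  obtain ⟨n, hn, hn'⟩ := hC n₀
  exact ⟨n, hn, hn'.trans (Nat.mul_le_mul_left _ (Nat.pow_le_pow_right (by omega) hd))⟩

theorem WeakLE.of_injective {H : Type*} [Group H] {d : ℕ} (h : WeakLE G d) (f : H →* G)
    (hf : Function.Injective f) : WeakLE H d := fun T => by
  obtain ⟨C, hC⟩ := h (T.image f)
  refine ⟨C, fun n₀ => ?_⟩
  obtain ⟨n, hn, hn'⟩ := hC n₀
  exact ⟨n, hn, by rw [← card_image_of_injective _ hf, Finset.image_pow]; exact hn'⟩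

theorem WeakLE.of_surjective {H : Type*} [Group H] {d : ℕ} (h : WeakLE G d) (f : G →* H)
    (hf : Function.Surjective f) : WeakLE H d := fun T => by
  obtain ⟨T', hT'⟩ : ∃ T' : Finset G, T'.image f = T :=
    ⟨T.image (Function.surjInv hf), by
      simp [Finset.image_image, Function.comp_def, Function.surjInv_eq hf]⟩
  obtain ⟨C, hC⟩ := h T'
  refine ⟨C, fun n₀ => ?_⟩
  obtain ⟨n, hn, hn'⟩ := hC n₀
  exact ⟨n, hn, by rw [← hT', ← Finset.image_pow]; exact card_image_le.trans hn'⟩

theorem GrowthLE.mono {d d' : ℕ} (h : GrowthLE G d) (hd : d ≤ d') : GrowthLE G d' := fun T => by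
  obtain ⟨C, hC⟩ := h T
  exact ⟨C, fun n => (hC n).trans (Nat.mul_le_mul_left _ (Nat.pow_le_pow_right (by omega) hd))⟩

theorem GrowthLE.of_injective {H : Type*} [Group H] {d : ℕ} (h : GrowthLE G d) (f : H →* G)
    (hf : Function.Injective f) : GrowthLE H d := fun T => by
  obtain ⟨C, hC⟩ := h (T.image f)
  exact ⟨C, fun n => by rw [← card_image_of_injective _ hf, Finset.image_pow]; exact hC n⟩

theorem GrowthLE.of_surjective {H : Type*} [Group H] {d : ℕ} (h : GrowthLE G d) (f : G →* H)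
    (hf : Function.Surjective f) : GrowthLE H d := fun T => by
  obtain ⟨T', hT'⟩ : ∃ T' : Finset G, T'.image f = T :=
    ⟨T.image (Function.surjInv hf), by
      simp [Finset.image_image, Function.comp_def, Function.surjInv_eq hf]⟩
  obtain ⟨C, hC⟩ := h T'
  exact ⟨C, fun n => by rw [← hT', ← Finset.image_pow]; exact card_image_le.trans (hC n)⟩

/-- Bounded balls make a finitely generated group finite. -/
theorem finite_of_weakLE_zero (hG : Group.FG G) (h : WeakLE G 0) : Finite G := by
  obtain ⟨S⟩ := exists_gen hG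
  obtain ⟨C, hC⟩ := h S.set
  simp only [pow_zero, mul_one] at hC
  by_contra hinf
  have := not_finite_iff_infinite.1 hinf
  obtain ⟨T, hT⟩ := Finset.exists_card_eq (α := G) (C + 1)
  obtain ⟨n, hn⟩ := S.exists_subset_ball T
  obtain ⟨m, hm, hm'⟩ := hC n
  have := (card_le_card (hn.trans (S.ball_mono hm))).trans hm'
  omega

end FA.Gromov
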