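import Fermat.Agent.Gromov.Growth
import Mathlib.Algebra.Group.Subgroup.ZPowers.Basic
import Mathlib.Analysis.SpecificLimits.Normed
import Mathlib.GroupTheory.Index

/-!
# The kernel of a map onto `ℤ`

If a finitely generated group of polynomial growth of degree `d + 1` maps onto `ℤ`, the kernel is
finitely generated and grows with degree `d` (Milnor, Gromov).
-/

set_option autoImplicit false

noncomputable section

open Finset Filter
open scoped Pointwise Classical Topology

namespace FA.Gromov

variable {H : Type*} [Group H]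

/-- A conjugate of `e` by a power of `t`. -/
def shiftConj (t e : H) (i : ℕ) : H := t ^ i * e * (t ^ i)⁻¹

/-- The span of the first conjugates. -/
def firstConj (t e : H) (m : ℕ) : Subgroup H :=
  Subgroup.closure ((fun i => shiftConj t e i) '' Set.Iio m)

/-- Products of chosen conjugates, times a power of `t`. -/
def choiceProd (t e : H) : ∀ {m : ℕ}, (Fin m → Bool) → H
  | 0, _ => 1
  | _ + 1, ε => choiceProd t e (fun i => ε i.castSucc) * ((if ε (Fin.last _) then e else 1) * t)

theorem choiceProd_mem (t e : H) : ∀ {m : ℕ} (ε : Fin m → Bool),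
    choiceProd t e ε ∈ ({t, e * t} : Finset H) ^ m
  | 0, _ => by simp [choiceProd]
  | m + 1, ε => by
    rw [choiceProd, pow_succ]
    refine Finset.mul_mem_mul (choiceProd_mem t e _) ?_
    split_ifs <;> simp

theorem choiceProd_mem_firstConj (t e : H) : ∀ {m : ℕ} (ε : Fin m → Bool),
    choiceProd t e ε * (t ^ m)⁻¹ ∈ firstConj t e m
  | 0, _ => by simp [choiceProd]
  | m + 1, ε => by
    set δ : H := if ε (Fin.last m) then e else 1
    have h1 : choiceProd t e ε * (t ^ (m + 1))⁻¹ =
        (choiceProd t e (fun i => ε i.castSucc) * (t ^ m)⁻¹) * (t ^ m * δ * (t ^ m)⁻¹) := by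
      rw [choiceProd, pow_succ]
      simp only [δ]
      group
    rw [h1]
    refine mul_mem (Subgroup.closure_mono (Set.image_mono fun i hi => Nat.lt_succ_of_lt hi)
      (choiceProd_mem_firstConj t e _)) ?_
    by_cases hδ : ε (Fin.last m) = true
    · simp only [δ, hδ, if_true]
      exact Subgroup.subset_closure ⟨m, Nat.lt_succ_self m, rfl⟩
    · simp [δ, hδ]

theorem choiceProd_injective {t e : H} (h : ∀ m, shiftConj t e m ∉ firstConj t e m) :
    ∀ {m : ℕ}, Function.Injective (fun ε : Fin m → Bool => choiceProd t e ε)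
  | 0 => fun _ _ _ => funext fun i => i.elim0
  | m + 1 => fun ε ε' heq => by
    simp only [choiceProd] at heq
    rw [← mul_assoc, ← mul_assoc, mul_right_cancel_iff] at heq
    set a := choiceProd t e fun i => ε i.castSucc
    set a' := choiceProd t e fun i => ε' i.castSucc
    have hlast : ε (Fin.last m) = ε' (Fin.last m) := by
      by_contra hne
      apply h m
      have hm := mul_mem (inv_mem (choiceProd_mem_firstConj t e fun i => ε' i.castSucc))
        (choiceProd_mem_firstConj t e fun i => ε i.castSucc)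
      have hm' := inv_mem hm
      cases h1 : ε (Fin.last m) <;> cases h2 : ε' (Fin.last m) <;>
        simp only [h1, h2, if_true, Bool.false_eq_true, if_false, mul_one] at heq hne
      · exact absurd trivial hne
      · have : shiftConj t e m = (a' * (t ^ m)⁻¹)⁻¹ * (a * (t ^ m)⁻¹) := by
          rw [shiftConj, heq]
          group
        rw [this]
        exact hm
      · have : shiftConj t e m = ((a' * (t ^ m)⁻¹)⁻¹ * (a * (t ^ m)⁻¹))⁻¹ := by
          rw [shiftConj, ← heq]
          group
        rw [this]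
        exact hm'
      · exact absurd trivial hne
    rw [hlast, mul_right_cancel_iff] at heq
    funext i
    induction i using Fin.lastCases with
    | last => exact hlast
    | cast i => exact congrFun (choiceProd_injective h heq) i

/-- Polynomial growth makes some conjugate depend on the earlier ones. -/
theorem exists_dependent {d : ℕ} (hd : WeakLE H d) (t e : H) :
    ∃ m, shiftConj t e m ∈ firstConj t e m := by
  by_contra hno
  simp only [not_exists] at hno
  obtain ⟨C, hC⟩ := hd {t, e * t}
  have h2 : ∀ m₀, ∃ m, m₀ ≤ m ∧ 2 ^ m ≤ C * (m + 1) ^ d := fun m₀ => by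
    obtain ⟨m, hm, hm'⟩ := hC m₀
    refine ⟨m, hm, le_trans ?_ hm'⟩
    have h := Finset.card_le_card_of_injOn (s := (univ : Finset (Fin m → Bool)))
      (fun ε => choiceProd t e ε) (t := ({t, e * t} : Finset H) ^ m)
      (fun ε _ => choiceProd_mem t e ε) (choiceProd_injective hno).injOn
    simpa using h
  have hz : Tendsto (fun m : ℕ => (C : ℝ) * ((((m + 1 : ℕ) : ℝ)) ^ d * (1 / 2) ^ (m + 1)) * 2) atTop
      (𝓝 0) := by
    have h1 := ((tendsto_pow_const_mul_const_pow_of_abs_lt_one d
      (by norm_num : |(1 / 2 : ℝ)| < 1)).comp (tendsto_add_atTop_nat 1))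
    simpa using (h1.const_mul (C : ℝ)).mul_const 2
  obtain ⟨m₀, hm₀⟩ := eventually_atTop.1 (hz.eventually (gt_mem_nhds one_pos))
  obtain ⟨m, hmm, hm'⟩ := h2 m₀
  have hm := hm₀ m hmm
  have h3 : (2 : ℝ) ^ m ≤ (C : ℝ) * (((m + 1 : ℕ) : ℝ)) ^ d := by exact_mod_cast hm' 
  rw [div_pow, one_pow, pow_succ] at hm
  have h4 : (0 : ℝ) < 2 ^ m := by positivity
  have h5 : (C : ℝ) * (((m + 1 : ℕ) : ℝ)) ^ d / 2 ^ m < 1 := by
    refine lt_of_eq_of_lt ?_ hm
    push_cast
    field_simp
  rw [div_lt_one h4] at h5
  linarith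

/-- All later conjugates depend on the first ones. -/
theorem shiftConj_mem {t e : H} {m : ℕ} (h : shiftConj t e m ∈ firstConj t e m) :
    ∀ i, shiftConj t e i ∈ firstConj t e m := by
  have hstep : (firstConj t e m).map (MulAut.conj t).toMonoidHom ≤ firstConj t e m := by
    rw [firstConj, MonoidHom.map_closure, Subgroup.closure_le]
    rintro _ ⟨_, ⟨i, hi, rfl⟩, rfl⟩
    have e1 : (MulAut.conj t).toMonoidHom (shiftConj t e i) = shiftConj t e (i + 1) := by
      simp only [MulEquiv.coe_toMonoidHom, MulAut.conj_apply, shiftConj, pow_succ']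
      group
    rw [e1]
    rcases Nat.lt_or_ge (i + 1) m with h1 | h1
    · exact Subgroup.subset_closure ⟨i + 1, h1, rfl⟩
    · have : i + 1 = m := le_antisymm hi h1
      rw [this]
      exact h
  intro i
  induction i with
  | zero =>
    rcases Nat.eq_zero_or_pos m with rfl | hm
    · exact h
    · exact Subgroup.subset_closure ⟨0, hm, rfl⟩
  | succ i ih =>
    have := hstep (Subgroup.mem_map_of_mem _ ih)
    simp only [MulEquiv.coe_toMonoidHom, MulAut.conj_apply, shiftConj, pow_succ'] at this ⊢
    convert this using 1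
    group

variable {χ : H →* Multiplicative ℤ} {t : H}

/-- The part in the kernel. -/
def kerPart (χ : H →* Multiplicative ℤ) (t x : H) : H := x * (t ^ Multiplicative.toAdd (χ x))⁻¹

theorem chi_zpow (ht : χ t = Multiplicative.ofAdd 1) (i : ℤ) :
    χ (t ^ i) = Multiplicative.ofAdd i := by
  rw [map_zpow, ht, ← ofAdd_zsmul, smul_eq_mul, mul_one]

theorem kerPart_mem (ht : χ t = Multiplicative.ofAdd 1) (x : H) : kerPart χ t x ∈ χ.ker := by
  rw [MonoidHom.mem_ker, kerPart, map_mul, map_inv, chi_zpow ht, ofAdd_toAdd, mul_inv_cancel]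

theorem kerPart_eq_self {x : H} (hx : x ∈ χ.ker) : kerPart χ t x = x := by
  rw [MonoidHom.mem_ker] at hx
  simp [kerPart, hx]

theorem kerPart_mul (x y : H) : kerPart χ t (x * y) =
    kerPart χ t x * (t ^ Multiplicative.toAdd (χ x) * kerPart χ t y *
      (t ^ Multiplicative.toAdd (χ x))⁻¹) := by
  simp only [kerPart, map_mul, toAdd_mul, zpow_add]
  group

/-- **The kernel is finitely generated.** -/
theorem fg_ker (hH : Group.FG H) {d : ℕ} (hd : WeakLE H d)
    (ht : χ t = Multiplicative.ofAdd 1) : Group.FG χ.ker := by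
  obtain ⟨S⟩ := exists_gen hH
  set E := S.set.image (kerPart χ t) with hE
  choose mp hmp using fun e : H => exists_dependent hd t e
  choose mn hmn using fun e : H => exists_dependent hd t⁻¹ e
  set X : Finset H := E.biUnion fun e =>
    ((range (mp e)).image fun i => shiftConj t e i) ∪
      ((range (mn e)).image fun i => shiftConj t⁻¹ e i) with hX
  set P := Subgroup.closure (↑X : Set H) with hP
  have hconj : ∀ e ∈ E, ∀ i : ℤ, t ^ i * e * (t ^ i)⁻¹ ∈ P := by
    intro e he i
    have hp : firstConj t e (mp e) ≤ P := Subgroup.closure_mono (by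
      rintro _ ⟨j, hj, rfl⟩
      exact Finset.mem_biUnion.2 ⟨e, he, Finset.mem_union_left _
        (Finset.mem_image_of_mem _ (Finset.mem_range.2 hj))⟩)
    have hn : firstConj t⁻¹ e (mn e) ≤ P := Subgroup.closure_mono (by
      rintro _ ⟨j, hj, rfl⟩
      exact Finset.mem_biUnion.2 ⟨e, he, Finset.mem_union_right _
        (Finset.mem_image_of_mem _ (Finset.mem_range.2 hj))⟩)
    obtain ⟨j, rfl | rfl⟩ := Int.eq_nat_or_neg i
    · rw [zpow_natCast]
      exact hp (shiftConj_mem (hmp e) j)
    · rw [zpow_neg, zpow_natCast, ← inv_pow]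
      exact hn (shiftConj_mem (hmn e) j)
  have hstable : ∀ (i : ℤ) (x : H), x ∈ P → t ^ i * x * (t ^ i)⁻¹ ∈ P := by
    intro i x hx
    induction hx using Subgroup.closure_induction with
    | mem y hy =>
      obtain ⟨e, he, hy⟩ := Finset.mem_biUnion.1 hy
      rcases Finset.mem_union.1 hy with hy | hy <;> obtain ⟨j, -, rfl⟩ := Finset.mem_image.1 hy
      · have := hconj e he (i + j)
        rw [zpow_add, zpow_natCast] at this
        simpa [shiftConj, mul_assoc] using this
      · have := hconj e he (i + -(j : ℤ))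
        rw [zpow_add, zpow_neg, zpow_natCast, ← inv_pow] at this
        simpa [shiftConj, mul_assoc] using this
    | one => simp
    | mul a b _ _ iha ihb =>
      convert P.mul_mem iha ihb using 1
      group
    | inv a _ iha =>
      convert P.inv_mem iha using 1
      group
  have hall : ∀ x : H, kerPart χ t x ∈ P := by
    intro x
    have hx : x ∈ Submonoid.closure (↑S.set : Set H) := by rw [S.closure_eq]; trivial
    induction hx using Submonoid.closure_induction with
    | mem y hy => simpa using hconj _ (Finset.mem_image_of_mem _ hy) 0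
    | one => simp [kerPart]
    | mul a b _ _ iha ihb =>
      rw [kerPart_mul]
      exact P.mul_mem iha (hstable _ _ ihb)
  have hPeq : P = χ.ker := by
    refine le_antisymm ((Subgroup.closure_le _).2 fun y hy => ?_) fun x hx => ?_
    · obtain ⟨e, he, hy⟩ := Finset.mem_biUnion.1 hy
      obtain ⟨s, -, rfl⟩ := Finset.mem_image.1 he
      have hk := kerPart_mem ht s
      rw [MonoidHom.mem_ker] at hk
      rcases Finset.mem_union.1 hy with hy | hy <;> obtain ⟨j, -, rfl⟩ := Finset.mem_image.1 hy <;>
        simp [shiftConj, hk]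
    · exact kerPart_eq_self (t := t) hx ▸ hall x
  exact (Group.fg_iff_subgroup_fg _).2 ⟨X, hPeq⟩

/-- Balls of the kernel times an interval sit in the balls of twice the radius. -/
theorem card_mul_le (ht : χ t = Multiplicative.ofAdd 1) (T : Finset χ.ker) (n : ℕ) :
    (T ^ n).card * (n + 1) ≤
      ((insert 1 (insert t (T.image (fun x : χ.ker => (x : H))))) ^ (2 * n)).card := by
  set U : Finset H := insert 1 (insert t (T.image (fun x : χ.ker => (x : H)))) with hU
  have hmem : ∀ x ∈ T ^ n, (x : H) ∈ U ^ n := fun x hx => by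
    have h1 : ((T ^ n).image χ.ker.subtype) ⊆ U ^ n := by
      rw [Finset.image_pow]
      refine Finset.pow_subset_pow_left fun y hy => ?_
      exact Finset.mem_insert_of_mem (Finset.mem_insert_of_mem hy)
    exact h1 (Finset.mem_image_of_mem _ hx)
  have hf := Finset.card_le_card_of_injOn (s := (T ^ n) ×ˢ range (n + 1))
    (fun p => (p.1 : H) * t ^ p.2) (t := U ^ (2 * n)) (fun p hp => ?_) (fun p _ q _ hpq => ?_)
  · rwa [Finset.card_product, Finset.card_range] at hf
  · simp only [mem_coe, Finset.mem_product, Finset.mem_range] at hp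
    rw [two_mul, pow_add]
    refine Finset.mul_mem_mul (hmem _ hp.1) ?_
    exact Finset.pow_subset_pow_right (Finset.mem_insert_self _ _) (Nat.lt_succ_iff.1 hp.2)
      (Finset.pow_mem_pow (Finset.mem_insert_of_mem (Finset.mem_insert_self _ _)))
  · have h3 := congrArg χ hpq
    simp only [map_mul, MonoidHom.mem_ker.1 p.1.2, MonoidHom.mem_ker.1 q.1.2, one_mul, map_pow,
      ht, ← ofAdd_nsmul] at h3
    have h4 := congrArg Multiplicative.toAdd h3
    simp at h4
    simp only [h4, mul_right_cancel_iff] at hpq
    exact Prod.ext (Subtype.ext hpq) h4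

/-- **The degree drops.** -/
theorem weakLE_ker {d : ℕ} (hd : WeakLE H (d + 1)) (ht : χ t = Multiplicative.ofAdd 1) :
    WeakLE χ.ker d := by
  intro T
  set U : Finset H := insert 1 (insert t (T.image (fun x : χ.ker => (x : H)))) with hU
  obtain ⟨C, hC⟩ := hd U
  refine ⟨C * 2 ^ (d + 1), fun n₀ => ?_⟩
  obtain ⟨N, hN, hN'⟩ := hC (2 * n₀)
  refine ⟨N / 2, by omega, ?_⟩
  have h5 : (T ^ (N / 2)).card * (N / 2 + 1) ≤
      C * 2 ^ (d + 1) * (N / 2 + 1) ^ d * (N / 2 + 1) := by
    refine ((card_mul_le ht T (N / 2)).trans (le_trans (card_le_card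
      (Finset.pow_subset_pow_right (Finset.mem_insert_self _ _) (by omega))) hN')).trans ?_
    calc C * (N + 1) ^ (d + 1) ≤ C * (2 * (N / 2 + 1)) ^ (d + 1) := by gcongr; omega
      _ = C * 2 ^ (d + 1) * (N / 2 + 1) ^ d * (N / 2 + 1) := by rw [mul_pow]; ring
  convert Nat.le_of_mul_le_mul_right h5 (Nat.succ_pos _)
  all_goals rfl

end FA.Gromov
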