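import Fermat.Agent.Gromov.Poincare
import Mathlib.Analysis.Matrix.PosDef
import Mathlib.Analysis.Matrix.Spectrum
import Mathlib.LinearAlgebra.FiniteDimensional.Lemmas

/-!
# Kleiner's theorem

On a group of polynomial growth the Lipschitz harmonic functions form a finite-dimensional space:
the determinants of the Gram matrices on balls would grow too fast otherwise.
-/

set_option autoImplicit false

noncomputable section

open Finset Matrix
open scoped Pointwise Classical

namespace FA.Gromov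

/-- An orthogonal diagonalisation. -/
theorem exists_diag {ι : Type*} [Fintype ι] [DecidableEq ι] {A : Matrix ι ι ℝ}
    (hA : A.IsHermitian) :
    ∃ V : Matrix ι ι ℝ, Vᵀ * V = 1 ∧ Vᵀ * A * V = Matrix.diagonal hA.eigenvalues := by
  set V : Matrix ι ι ℝ := (hA.eigenvectorUnitary : Matrix ι ι ℝ) with hV
  have hst : star V = Vᵀ := by
    rw [Matrix.star_eq_conjTranspose, Matrix.conjTranspose_eq_transpose_of_trivial]
  refine ⟨V, by rw [← hst, hV, Unitary.coe_star_mul_self], ?_⟩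
  have h := hA.conjStarAlgAut_star_eigenvectorUnitary
  rw [Unitary.conjStarAlgAut_star_apply] at h
  rw [← hst, hV, h]
  rfl

/-- Two forms diagonalised together. -/
theorem exists_simultaneous {ι : Type*} [Fintype ι] [DecidableEq ι] {A B : Matrix ι ι ℝ}
    (hA : A.IsHermitian) (hB : B.PosDef) :
    ∃ (M : Matrix ι ι ℝ) (w : ι → ℝ), Mᵀ * B * M = 1 ∧ Mᵀ * A * M = Matrix.diagonal w := by
  obtain ⟨V, -, hV2⟩ := exists_diag hB.isHermitian
  set D : Matrix ι ι ℝ :=
    Matrix.diagonal fun i => (Real.sqrt (hB.isHermitian.eigenvalues i))⁻¹ with hD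
  have h1 : (V * D)ᵀ * B * (V * D) = 1 := by
    rw [Matrix.transpose_mul, hD, Matrix.diagonal_transpose]
    simp only [Matrix.mul_assoc]
    rw [← Matrix.mul_assoc Vᵀ, ← Matrix.mul_assoc (Vᵀ * B), hV2, Matrix.diagonal_mul_diagonal,
      Matrix.diagonal_mul_diagonal, ← Matrix.diagonal_one]
    congr 1
    funext i
    have h := hB.eigenvalues_pos i
    have hs := Real.sqrt_pos.2 h
    field_simp
    exact (Real.sq_sqrt h.le).symm
  have hA' : ((V * D)ᵀ * A * (V * D)).IsHermitian := by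
    rw [← Matrix.conjTranspose_eq_transpose_of_trivial]
    exact Matrix.isHermitian_conjTranspose_mul_mul _ hA
  obtain ⟨U, hU1, hU2⟩ := exists_diag hA'
  refine ⟨V * D * U, hA'.eigenvalues, ?_, ?_⟩
  · calc (V * D * U)ᵀ * B * (V * D * U) = Uᵀ * ((V * D)ᵀ * B * (V * D)) * U := by
          rw [Matrix.transpose_mul (V * D) U]; simp only [Matrix.mul_assoc]
      _ = 1 := by rw [h1, Matrix.mul_one, hU1]
  · calc (V * D * U)ᵀ * A * (V * D * U) = Uᵀ * ((V * D)ᵀ * A * (V * D)) * U := by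
          rw [Matrix.transpose_mul (V * D) U]; simp only [Matrix.mul_assoc]
      _ = _ := hU2

/-- A form small on a subspace of small codimension has a small determinant. -/
theorem det_drop {ι X : Type*} [Fintype ι] [DecidableEq ι] [Fintype X] {A B : Matrix ι ι ℝ}
    (hA : A.PosSemidef) (hB : B.PosDef) (hAB : ∀ x, x ⬝ᵥ (A *ᵥ x) ≤ x ⬝ᵥ (B *ᵥ x))
    (Φ : (ι → ℝ) →ₗ[ℝ] (X → ℝ)) {η : ℝ} (hη0 : 0 ≤ η) (hη1 : η ≤ 1)
    (hΦ : ∀ x, Φ x = 0 → x ⬝ᵥ (A *ᵥ x) ≤ η * (x ⬝ᵥ (B *ᵥ x))) {N : ℕ}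
    (hN : Fintype.card X ≤ N) :
    A.det ≤ η ^ (Fintype.card ι - N) * B.det := by
  obtain ⟨M, w, hMB, hMA⟩ := exists_simultaneous hA.isHermitian hB
  have qA : ∀ z, (M *ᵥ z) ⬝ᵥ (A *ᵥ (M *ᵥ z)) = ∑ i, w i * z i ^ 2 := fun z => by
    rw [Matrix.mulVec_mulVec, Matrix.dotProduct_mulVec, ← Matrix.vecMul_transpose,
      Matrix.vecMul_vecMul, ← Matrix.mul_assoc, hMA, ← Matrix.dotProduct_mulVec]
    simp [dotProduct, Matrix.mulVec_diagonal, pow_two, mul_left_comm]
  have qB : ∀ z, (M *ᵥ z) ⬝ᵥ (B *ᵥ (M *ᵥ z)) = ∑ i, z i ^ 2 := fun z => by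
    rw [Matrix.mulVec_mulVec, Matrix.dotProduct_mulVec, ← Matrix.vecMul_transpose,
      Matrix.vecMul_vecMul, ← Matrix.mul_assoc, hMB, Matrix.vecMul_one]
    simp [dotProduct, pow_two]
  have e1 : ∀ i, ∑ j, w j * (Pi.single i (1 : ℝ) : ι → ℝ) j ^ 2 = w i := fun i => by
    simp [Pi.single_apply]
  have hw1 : ∀ i, w i ≤ 1 := fun i => by
    have h := hAB (M *ᵥ Pi.single i 1)
    rw [qA, qB, e1] at h
    simpa [Pi.single_apply] using h
  have hw0 : ∀ i, 0 ≤ w i := fun i => by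
    have h := hA.dotProduct_mulVec_nonneg (M *ᵥ Pi.single i 1)
    rw [star_trivial, qA, e1] at h
    exact h
  set I : Finset ι := univ.filter fun i => η < w i with hI
  set E : (↥I → ℝ) →ₗ[ℝ] (ι → ℝ) :=
    { toFun := fun z i => if h : i ∈ I then z ⟨i, h⟩ else 0
      map_add' := fun z z' => funext fun i => by by_cases h : i ∈ I <;> simp [h]
      map_smul' := fun c z => funext fun i => by by_cases h : i ∈ I <;> simp [h] } with hE
  have hcard : I.card ≤ N := by
    refine le_trans ?_ hN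
    have hinj : Function.Injective ((Φ ∘ₗ M.mulVecLin) ∘ₗ E) := by
      rw [injective_iff_map_eq_zero]
      intro z hz
      by_contra hne
      have h := hΦ (M *ᵥ E z) hz
      rw [qA, qB, mul_sum] at h
      obtain ⟨⟨i, hi⟩, hzi⟩ := Function.ne_iff.1 hne
      refine absurd h (not_le.2 (Finset.sum_lt_sum (fun j _ => ?_) ⟨i, mem_univ _, ?_⟩))
      · by_cases hj : j ∈ I
        · exact mul_le_mul_of_nonneg_right (mem_filter.1 hj).2.le (sq_nonneg _)
        · simp [hE, hj]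
      · refine mul_lt_mul_of_pos_right (mem_filter.1 hi).2 ?_
        simp only [hE, LinearMap.coe_mk, AddHom.coe_mk, dif_pos hi]
        exact sq_pos_of_ne_zero hzi
    simpa using LinearMap.finrank_le_finrank_of_injective hinj
  have hdetA : A.det = (∏ i, w i) * B.det := by
    have h1 := congrArg Matrix.det hMA
    have h2 := congrArg Matrix.det hMB
    rw [Matrix.det_mul, Matrix.det_mul, Matrix.det_transpose, Matrix.det_diagonal] at h1
    rw [Matrix.det_mul, Matrix.det_mul, Matrix.det_transpose, Matrix.det_one] at h2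
    rw [← h1]
    linear_combination -A.det * h2
  rw [hdetA]
  refine mul_le_mul_of_nonneg_right ?_ hB.det_pos.le
  rw [← Finset.prod_mul_prod_compl I]
  refine (mul_le_of_le_one_left (prod_nonneg fun i _ => hw0 i)
    (prod_le_one (fun i _ => hw0 i) fun i _ => hw1 i)).trans ?_
  refine le_trans (prod_le_prod (fun i _ => hw0 i) fun i hi => ?_)
    (le_trans (le_of_eq (prod_const _)) (pow_le_pow_of_le_one hη0 hη1 ?_))
  · simpa [hI] using hi
  · rw [card_compl]
    omega

/-- The determinant of a nonnegative form is at most a power of its trace. -/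
theorem det_le_trace_pow {ι : Type*} [Fintype ι] [DecidableEq ι] {A : Matrix ι ι ℝ}
    (hA : A.PosSemidef) : A.det ≤ A.trace ^ Fintype.card ι := by
  rw [hA.isHermitian.det_eq_prod_eigenvalues, hA.isHermitian.trace_eq_sum_eigenvalues]
  simp only [RCLike.ofReal_real_eq_id, id_eq]
  refine (prod_le_prod (fun i _ => hA.eigenvalues_nonneg i) fun i _ =>
    single_le_sum (fun j _ => hA.eigenvalues_nonneg j) (mem_univ i)).trans (le_of_eq ?_)
  rw [prod_const, card_univ]

/-- Few jumps in a slowly growing sequence. -/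
theorem jumps_le {a : ℕ → ℕ} (hpos : ∀ i, 0 < a i) (hmono : Monotone a) {b c : ℕ} (hb : 2 ≤ b)
    {q : ℕ} (hq : 0 < q) (J : ℕ) (ha : a (J + q) ≤ b ^ (c + (J + q))) :
    4 * ((range J).filter fun i => b ^ (4 * q) * a i < a (i + q)).card ≤ c + J + q := by
  set T := (range J).filter fun i => b ^ (4 * q) * a i < a (i + q) with hT
  have h1 : (b ^ (4 * q)) ^ T.card * ∏ i ∈ range J, a i ≤ ∏ i ∈ range J, a (i + q) := by
    rw [← prod_const, ← prod_sdiff (filter_subset _ (range J) : T ⊆ range J),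
      ← prod_sdiff (filter_subset _ (range J) : T ⊆ range J), mul_left_comm, ← prod_mul_distrib]
    exact Nat.mul_le_mul (prod_le_prod' fun i _ => hmono (by omega))
      (prod_le_prod' fun i hi => (mem_filter.1 hi).2.le)
  have h2 : (∏ i ∈ range J, a (i + q)) * ∏ i ∈ range q, a i =
      (∏ i ∈ range J, a i) * ∏ i ∈ range q, a (J + i) := by
    have e1 := Finset.prod_range_add a q J
    have e2 := Finset.prod_range_add a J q
    rw [Nat.add_comm q J, e2] at e1
    rw [e1, mul_comm]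
    congr 1
    exact prod_congr rfl fun i _ => by rw [Nat.add_comm i q]
  have h3 : (b ^ (4 * q)) ^ T.card ≤ (b ^ (c + (J + q))) ^ q := by
    have hP : 0 < ∏ i ∈ range J, a i := prod_pos fun i _ => hpos i
    refine Nat.le_of_mul_le_mul_right ?_ hP
    calc _ ≤ ∏ i ∈ range J, a (i + q) := h1
      _ ≤ (∏ i ∈ range J, a (i + q)) * ∏ i ∈ range q, a i :=
          Nat.le_mul_of_pos_right _ (prod_pos fun i _ => hpos i)
      _ = _ := h2
      _ ≤ (∏ i ∈ range J, a i) * (b ^ (c + (J + q))) ^ q := by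
          refine Nat.mul_le_mul_left _ ?_
          refine (prod_le_prod' fun i hi => ?_).trans (le_of_eq (by rw [prod_const, card_range]))
          have := mem_range.1 hi
          exact (hmono (by omega)).trans ha
      _ = _ := by ring
  rw [← pow_mul, ← pow_mul, Nat.pow_le_pow_iff_right (by omega)] at h3
  have : q * (4 * T.card) ≤ q * (c + J + q) := by nlinarith
  exact Nat.le_of_mul_le_mul_left this hq

namespace Gen

variable {G : Type*} [Group G] (S : Gen G)

/-- The Gram matrix of a family on a ball. -/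
def gram {ι : Type*} (f : ι → G → ℝ) (R : ℕ) : Matrix ι ι ℝ :=
  Matrix.of fun i j => ∑ y ∈ S.ball R, f i y * f j y

theorem gram_form {ι : Type*} [Fintype ι] (f : ι → G → ℝ) (R : ℕ) (x : ι → ℝ) :
    x ⬝ᵥ (S.gram f R *ᵥ x) = S.sqAt (fun y => ∑ i, x i * f i y) 1 R := by
  simp only [dotProduct, Matrix.mulVec, gram, Matrix.of_apply, sqAt, one_mul, sum_mul, mul_sum,
    pow_two]
  conv_lhs => enter [2, i]; rw [sum_comm]
  rw [sum_comm]
  exact sum_congr rfl fun y _ => sum_congr rfl fun i _ => sum_congr rfl fun j _ => by ring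

theorem gram_posSemidef {ι : Type*} [Fintype ι] (f : ι → G → ℝ) (R : ℕ) :
    (S.gram f R).PosSemidef := by
  refine Matrix.PosSemidef.of_dotProduct_mulVec_nonneg ?_ fun x => ?_
  · ext i j
    simp [gram, mul_comm]
  · rw [star_trivial, S.gram_form]
    exact S.sqAt_nonneg _ _ _

/-- The Gram matrices of independent functions become positive definite. -/
theorem exists_gram_posDef {D : ℕ} {f : Fin D → G → ℝ} (hli : LinearIndependent ℝ f) :
    ∃ R₀, ∀ R, R₀ ≤ R → (S.gram f R).PosDef := by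
  let ev : ∀ R : ℕ, (Fin D → ℝ) →ₗ[ℝ] ({y // y ∈ S.ball R} → ℝ) := fun R =>
    LinearMap.pi fun y => ∑ i, f i (y : G) • LinearMap.proj i
  have hev : ∀ R x, x ∈ LinearMap.ker (ev R) ↔ ∀ y ∈ S.ball R, ∑ i, x i * f i y = 0 := by
    intro R x
    simp [ev, LinearMap.mem_ker, funext_iff, LinearMap.sum_apply, mul_comm]
  obtain ⟨R₀, hmin⟩ : ∃ R₀, ∀ R, Module.finrank ℝ (LinearMap.ker (ev R₀)) ≤
      Module.finrank ℝ (LinearMap.ker (ev R)) :=
    ⟨Function.argmin (fun R => Module.finrank ℝ (LinearMap.ker (ev R))), fun R =>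
      Function.argmin_le (fun R => Module.finrank ℝ (LinearMap.ker (ev R))) R⟩
  refine ⟨R₀, fun R hR => Matrix.PosDef.of_dotProduct_mulVec_pos
    (S.gram_posSemidef f R).isHermitian fun x hx => ?_⟩
  rw [star_trivial, S.gram_form]
  refine lt_of_le_of_ne (S.sqAt_nonneg _ _ _) fun h0 => hx ?_
  have hx0 : ∀ y ∈ S.ball R₀, ∑ i, x i * f i y = 0 := fun y hy => by
    have := (sum_eq_zero_iff_of_nonneg fun z _ => sq_nonneg _).1 h0.symm y (S.ball_mono hR hy)
    simpa using this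
  have hall : ∀ y : G, ∑ i, x i * f i y = 0 := fun y => by
    obtain ⟨n, hn⟩ := S.exists_mem_ball y
    have hsub : LinearMap.ker (ev (max R₀ n)) ≤ LinearMap.ker (ev R₀) := fun z hz =>
      (hev _ _).2 fun w hw => (hev _ _).1 hz w (S.ball_mono (le_max_left _ _) hw)
    have he := Submodule.eq_of_le_of_finrank_le hsub (hmin _)
    exact (hev _ _).1 (he ▸ (hev R₀ x).2 hx0) y (S.ball_mono (le_max_right _ _) hn)
  funext i
  exact Fintype.linearIndependent_iff.1 hli x (funext fun y => by simpa using hall y) i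

/-- The determinant drops at a good scale. -/
theorem gram_step {D : ℕ} {f : Fin D → G → ℝ} (hharm : ∀ i, S.Harmonic (f i)) {r R : ℕ}
    (hr : 0 < r) (hrR : 7 * r ≤ R) (hpd : (S.gram f (8 * R)).PosDef) {K₀ N : ℕ}
    (hK : (S.ball (7 * r)).card ≤ K₀ * (S.ball r).card)
    (hN : (S.ball (R + r)).card ≤ N * (S.ball r).card) {η : ℝ}
    (hη : 2 * (K₀ : ℝ) ^ 2 * S.set.card * ((r : ℝ) / R) ^ 2 ≤ η) (hη1 : η ≤ 1) :
    (S.gram f R).det ≤ η ^ (D - N) * (S.gram f (8 * R)).det := by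
  obtain ⟨X, hX, hkey⟩ := S.kleiner_step hr hrR hK hN
  let Φ : (Fin D → ℝ) →ₗ[ℝ] ({x // x ∈ X} → ℝ) :=
    LinearMap.pi fun x => ∑ j, (∑ y ∈ S.ball (2 * r), f j ((x : G) * y)) • LinearMap.proj j
  have hle : ∀ x : Fin D → ℝ,
      x ⬝ᵥ (S.gram f R *ᵥ x) ≤ x ⬝ᵥ (S.gram f (8 * R) *ᵥ x) := fun x => by
    rw [S.gram_form, S.gram_form]
    exact S.sqAt_mono _ _ (by omega)
  have h := det_drop (S.gram_posSemidef f R) hpd hle Φ (le_trans (by positivity) hη) hη1
    (N := N) (fun z hz => ?_) (by simpa using hX)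
  · simpa using h
  · rw [S.gram_form, S.gram_form]
    have hh : S.Harmonic fun y => ∑ j, z j * f j y := fun y => by
      simp only [← sum_sub_distrib, ← mul_sub]
      rw [sum_comm]
      exact sum_eq_zero fun j _ => by rw [← mul_sum, hharm j y, mul_zero]
    refine (hkey _ hh fun x hx => ?_).trans
      (mul_le_mul_of_nonneg_right hη (S.sqAt_nonneg _ _ _))
    have := congrFun hz ⟨x, hx⟩
    simp only [Φ, LinearMap.pi_apply, LinearMap.sum_apply, LinearMap.smul_apply,
      LinearMap.proj_apply, smul_eq_mul, Pi.zero_apply, sum_mul] at this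
    rw [sum_comm, ← this]
    exact sum_congr rfl fun j _ => sum_congr rfl fun y _ => mul_comm _ _

/-- The determinants grow at most polynomially. -/
theorem exists_gram_upper (C d : ℕ) {D : ℕ}
    {f : Fin D → G → ℝ} (hlip : ∀ i, ∃ L, S.LipWith (f i) L) :
    ∃ A : ℝ, ∀ R : ℕ, 1 ≤ R → (S.set ^ R).card ≤ C * (R + 1) ^ d →
      (S.gram f R).det ≤ (A * (R : ℝ) ^ (d + 2)) ^ D := by
  choose L hL using hlip
  set M : ℝ := ∑ i, (|f i 1| + |L i|) with hM
  refine ⟨(D : ℝ) * ((C : ℝ) * 2 ^ d * M ^ 2), fun R hR hC => ?_⟩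
  have h := det_le_trace_pow (S.gram_posSemidef f R)
  rw [Fintype.card_fin] at h
  refine h.trans (pow_le_pow_left₀ (S.gram_posSemidef f R).trace_nonneg ?_ D)
  have hR1 : (1 : ℝ) ≤ R := by exact_mod_cast hR
  have hball : ((S.ball R).card : ℝ) ≤ (C : ℝ) * 2 ^ d * (R : ℝ) ^ d := by
    have : ((S.ball R).card : ℝ) ≤ (C : ℝ) * ((R : ℝ) + 1) ^ d := by exact_mod_cast hC
    refine this.trans ?_
    rw [mul_assoc, ← mul_pow]
    gcongr
    linarith
  have hval : ∀ i, ∀ y ∈ S.ball R, |f i y| ≤ M * R := fun i y hy => by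
    have h1 := S.abs_sub_le_len (hL i) 1 y
    rw [one_mul] at h1
    have h2 : (S.len y : ℝ) ≤ R := by exact_mod_cast S.mem_ball_iff.1 hy
    have h3 : |f i 1| + |L i| ≤ M := single_le_sum (f := fun i => |f i 1| + |L i|)
      (fun j _ => by positivity) (mem_univ i)
    have h4 : L i * S.len y ≤ |L i| * R :=
      mul_le_mul (le_abs_self _) h2 (Nat.cast_nonneg _) (abs_nonneg _)
    calc |f i y| ≤ |f i 1| + |f i y - f i 1| := by
          linarith [abs_sub_abs_le_abs_sub (f i y) (f i 1)]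
      _ ≤ |f i 1| * R + |L i| * R := by
          linarith [le_mul_of_one_le_right (abs_nonneg (f i 1)) hR1]
      _ ≤ M * R := by rw [← add_mul]; exact mul_le_mul_of_nonneg_right h3 (by linarith)
  calc Matrix.trace (S.gram f R) = ∑ i, ∑ y ∈ S.ball R, f i y * f i y := by
        simp [Matrix.trace, gram]
    _ ≤ ∑ _i : Fin D, ∑ _y ∈ S.ball R, (M * R) ^ 2 :=
        sum_le_sum fun i _ => sum_le_sum fun y hy => by
          rw [← pow_two, ← sq_abs]
          exact pow_le_pow_left₀ (abs_nonneg _) (hval i y hy) 2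
    _ ≤ _ := by
        simp only [sum_const, card_univ, Fintype.card_fin, nsmul_eq_mul]
        refine le_trans (mul_le_mul_of_nonneg_left (mul_le_mul_of_nonneg_right hball
          (sq_nonneg _)) (Nat.cast_nonneg D)) (le_of_eq ?_)
        ring

/-- **Kleiner's theorem.** -/
theorem exists_dimension_bound {d : ℕ} (hd : WeakLE G d) : ∃ K : ℕ, ∀ (D : ℕ)
    (f : Fin D → G → ℝ), LinearIndependent ℝ f → (∀ i, S.Harmonic (f i)) →
      (∀ i, ∃ L, S.LipWith (f i) L) → D ≤ K := by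
  obtain ⟨C, hC⟩ := hd S.set
  obtain ⟨b, hb⟩ : ∃ b, b = 8 ^ (d + 1) := ⟨_, rfl⟩
  have hb2 : 2 ≤ b := hb ▸ le_trans (by norm_num) (Nat.le_self_pow (by omega : d + 1 ≠ 0) 8)
  obtain ⟨m, hm⟩ : ∃ m, m = 8 * (d + 3) := ⟨_, rfl⟩
  obtain ⟨p, hp⟩ : ∃ p, p = 2 * (b ^ (4 * 1)) ^ 2 * S.set.card * 8 ^ m + 1 := ⟨_, rfl⟩
  refine ⟨2 * b ^ (4 * (p + 1)), fun D f hli hharm hlip => ?_⟩
  by_contra hD
  rw [not_le] at hD
  obtain ⟨N, hN⟩ : ∃ N, N = b ^ (4 * (p + 1)) := ⟨_, rfl⟩
  obtain ⟨K₀, hK₀⟩ : ∃ K₀, K₀ = b ^ (4 * 1) := ⟨_, rfl⟩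
  rw [← hN] at hD
  rw [← hK₀] at hp
  set η : ℝ := 2 * (K₀ : ℝ) ^ 2 * S.set.card / 64 ^ p with hη
  have hη0 : 0 ≤ η := by positivity
  have hηm : η * 8 ^ m ≤ 1 := by
    rw [hη, div_mul_eq_mul_div, div_le_one (by positivity)]
    have h1 : p ≤ 64 ^ p := (Nat.lt_pow_self (by norm_num)).le
    have h2 : 2 * K₀ ^ 2 * S.set.card * 8 ^ m ≤ 64 ^ p := le_trans (by omega) h1
    exact_mod_cast h2
  have hη1 : η ≤ 1 := (le_mul_of_one_le_right hη0 (one_le_pow₀ (by norm_num))).trans hηm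
  obtain ⟨R₀, hpd⟩ := S.exists_gram_posDef hli
  obtain ⟨C', hC'⟩ : ∃ C', C' = C * 64 ^ d := ⟨_, rfl⟩
  obtain ⟨A, hA⟩ := S.exists_gram_upper C' d hlip
  set a : ℕ → ℕ := fun i => (S.ball (8 ^ (R₀ + i))).card with ha
  obtain ⟨c, hc⟩ : ∃ c, c = C' + ((d + 1) * R₀ + d) := ⟨_, rfl⟩
  have hab : ∀ i, (S.set ^ (8 ^ (R₀ + i))).card ≤ C' * (8 ^ (R₀ + i) + 1) ^ d →
      a i ≤ b ^ (c + i) := fun i hi => by
    refine hi.trans ?_
    have h1 : C' ≤ b ^ C' := (Nat.lt_pow_self (by omega)).le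
    have h2 : (8 ^ (R₀ + i) + 1) ^ d ≤ b ^ ((d + 1) * R₀ + d + i) := by
      have : 8 ^ (R₀ + i) + 1 ≤ 8 ^ (R₀ + i + 1) := by
        rw [pow_succ]
        have := Nat.one_le_pow (R₀ + i) 8 (by norm_num)
        omega
      refine (Nat.pow_le_pow_left this d).trans ?_
      rw [hb, ← pow_mul, ← pow_mul]
      refine Nat.pow_le_pow_right (by norm_num) ?_
      calc (R₀ + i + 1) * d = d * 1 * R₀ + d * i + d * 1 := by ring
        _ ≤ (d + 1) * (d + 1) * R₀ + (d + 1) * i + (d + 1) * d := by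
            refine Nat.add_le_add (Nat.add_le_add ?_ ?_) ?_
            · exact Nat.mul_le_mul_right _ (Nat.mul_le_mul (Nat.le_succ d) (by omega))
            · exact Nat.mul_le_mul_right _ (Nat.le_succ d)
            · rw [mul_one]
              exact Nat.le_mul_of_pos_left d (Nat.succ_pos d)
        _ = _ := by ring
    refine (Nat.mul_le_mul h1 h2).trans (le_of_eq ?_)
    rw [← pow_add, hc]
    congr 1
    ring
  set e : ℕ → ℝ := fun i => (S.gram f (8 ^ (R₀ + p + i))).det with he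
  have hbig : ∀ i, R₀ ≤ 8 ^ (R₀ + p + i) := fun i =>
    le_trans (by omega) (Nat.lt_pow_self (by norm_num : 1 < 8)).le
  have hR' : ∀ i, 8 ^ (R₀ + p + (i + 1)) = 8 * 8 ^ (R₀ + p + i) := fun i => by
    rw [← Nat.add_assoc, pow_succ, Nat.mul_comm]
  have hmonoStep : ∀ i, e i ≤ e (i + 1) := fun i => by
    have h := det_drop (S.gram_posSemidef f (8 ^ (R₀ + p + i)))
      (hpd (8 * 8 ^ (R₀ + p + i)) (le_trans (hbig i) (by omega)))
      (fun x => by rw [S.gram_form, S.gram_form]; exact S.sqAt_mono _ _ (by omega))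
      (0 : (Fin D → ℝ) →ₗ[ℝ] (Fin 0 → ℝ)) zero_le_one le_rfl
      (fun x _ => by
        rw [S.gram_form, S.gram_form, one_mul]
        exact S.sqAt_mono _ _ (by omega)) le_rfl
    simp only [he, hR']
    simpa using h
  have hgoodStep : ∀ i, a (i + 1) ≤ K₀ * a i → a (i + (p + 1)) ≤ N * a i →
      e i ≤ η ^ (D - N) * e (i + 1) := fun i h1 h2 => by
    simp only [he, hR']
    have hsplit : 8 ^ (R₀ + p + i) = 8 ^ (R₀ + i) * 8 ^ p := by
      rw [← pow_add]
      congr 1
      ring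
    have hp8 : 8 ≤ 8 ^ p := Nat.le_self_pow (by omega) 8
    refine S.gram_step hharm (r := 8 ^ (R₀ + i)) (pow_pos (by norm_num) _) ?_
      (hpd _ (le_trans (hbig i) (by omega))) (le_trans (card_le_card (S.ball_mono ?_)) h1)
      (le_trans (card_le_card (S.ball_mono ?_)) h2) (le_of_eq ?_) hη1
    · rw [hsplit, Nat.mul_comm 7]
      exact Nat.mul_le_mul_left _ (by omega)
    · rw [← Nat.add_assoc, pow_succ]
      omega
    · rw [show R₀ + (i + (p + 1)) = R₀ + p + i + 1 by ring, pow_succ, hsplit]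
      have := Nat.le_mul_of_pos_right (8 ^ (R₀ + i)) (show 0 < 8 ^ p by omega)
      omega
    · rw [hη, hsplit]
      push_cast
      have h8 : (8 : ℝ) ^ (R₀ + i) ≠ 0 := by positivity
      rw [show (64 : ℝ) ^ p = (8 ^ p) ^ 2 by rw [← pow_mul, mul_comm, pow_mul]; norm_num,
        div_pow, mul_pow]
      field_simp
  set good : ℕ → Finset ℕ := fun J =>
    (range J).filter fun i => a (i + 1) ≤ K₀ * a i ∧ a (i + (p + 1)) ≤ N * a i with hgood
  have hiter : ∀ J, e 0 * (8 : ℝ) ^ (m * (D - N) * (good J).card) ≤ e J := by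
    intro J
    induction J with
    | zero => simp [hgood]
    | succ J ih =>
      have hsplit : good (J + 1) = if a (J + 1) ≤ K₀ * a J ∧ a (J + (p + 1)) ≤ N * a J then
          insert J (good J) else good J := by
        simp only [hgood, range_add_one, filter_insert]
      rw [hsplit]
      split_ifs with hg
      · rw [card_insert_of_notMem (by simp [hgood]), mul_add, mul_one, pow_add, ← mul_assoc]
        refine (mul_le_mul_of_nonneg_right (ih.trans (hgoodStep J hg.1 hg.2))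
          (by positivity)).trans ?_
        rw [mul_right_comm, pow_mul, ← mul_pow]
        exact mul_le_of_le_one_left (hpd _ (hbig _)).det_pos.le
          (pow_le_one₀ (by positivity) hηm)
      · exact ih.trans (hmonoStep J)
  have he0 : 0 < e 0 := (hpd _ (hbig 0)).det_pos
  obtain ⟨J₁, hJ₁⟩ := pow_unbounded_of_one_lt
    ((A * ((8 : ℝ) ^ (R₀ + p)) ^ (d + 2)) ^ D / e 0) (by norm_num : (1 : ℝ) < 8)
  obtain ⟨n, hn, hn'⟩ := hC (8 ^ (R₀ + p + 1 + (J₁ + 4 * (c + p + 1))))
  have hn1 : 8 ^ Nat.log 8 n ≤ n := Nat.pow_log_le_self 8 (by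
    have := Nat.one_le_pow (R₀ + p + 1 + (J₁ + 4 * (c + p + 1))) 8 (by norm_num)
    omega)
  have hn2 : n < 8 ^ (Nat.log 8 n + 1) := Nat.lt_pow_succ_log_self (by norm_num) n
  obtain ⟨J, hJ'⟩ : ∃ J, R₀ + p + 1 + J = Nat.log 8 n := by
    refine ⟨Nat.log 8 n - (R₀ + p + 1), Nat.add_sub_of_le ?_⟩
    exact le_trans (by omega) (Nat.le_log_of_pow_le (by norm_num) hn)
  have hJ : J₁ + 4 * (c + p + 1) ≤ J := by
    have := Nat.le_log_of_pow_le (by norm_num) hn
    omega
  have hbd : ∀ i, R₀ + p + J ≤ i + R₀ →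
      8 ^ (i + R₀) ≤ n → (S.set ^ (8 ^ (R₀ + i))).card ≤ C' * (8 ^ (R₀ + i) + 1) ^ d :=
    fun i h1 h3 => by
    rw [Nat.add_comm R₀ i]
    refine ((card_le_card (Finset.pow_subset_pow_right S.one_mem h3)).trans hn').trans ?_
    rw [hC', mul_assoc, ← mul_pow]
    refine Nat.mul_le_mul_left _ (Nat.pow_le_pow_left ?_ d)
    calc n + 1 ≤ 8 ^ (Nat.log 8 n + 1) := hn2
      _ ≤ 8 ^ (i + R₀ + 2) := Nat.pow_le_pow_right (by norm_num) (by omega)
      _ ≤ _ := by rw [pow_add]; omega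
  have hmono : Monotone a := fun i j hij =>
    card_le_card (S.ball_mono (Nat.pow_le_pow_right (by norm_num) (by omega)))
  have htop : a (J + (p + 1)) ≤ b ^ (c + (J + (p + 1))) := hab _ (hbd _ (by omega)
    (le_trans (Nat.pow_le_pow_right (by norm_num) (by omega)) hn1))
  have hJA := jumps_le (c := c + p) (fun i => S.card_ball_pos _) hmono hb2 one_pos J
    ((hmono (by omega : J + 1 ≤ J + (p + 1))).trans
      (htop.trans (Nat.pow_le_pow_right (by omega) (by omega))))
  have hJB := jumps_le (fun i => S.card_ball_pos _) hmono hb2 (Nat.succ_pos p) J htop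
  have hcover : J ≤ (good J).card +
      ((range J).filter fun i => b ^ (4 * 1) * a i < a (i + 1)).card +
      ((range J).filter fun i => b ^ (4 * (p + 1)) * a i < a (i + (p + 1))).card := by
    refine le_trans ?_ ((Nat.add_le_add_right (card_union_le _ _) _).trans' (card_union_le _ _))
    conv_lhs => rw [← card_range J]
    refine card_le_card fun i hi => ?_
    simp only [hgood, mem_union, mem_filter, hi, true_and, ← hK₀, ← hN]
    omega
  have hg3 : 3 * J ≤ 8 * (good J).card := by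
    simp only [ha, ← hK₀, ← hN, Nat.succ_eq_add_one] at hJA hJB hcover
    omega
  have hexp : D * ((d + 2) * J) + J ≤ m * (D - N) * (good J).card := by
    have h1 : D ≤ 2 * (D - N) := by omega
    have h2 : m * (D * (3 * J)) ≤ m * ((2 * (D - N)) * (8 * (good J).card)) :=
      Nat.mul_le_mul_left _ (Nat.mul_le_mul h1 hg3)
    have hD1 : 1 * J ≤ D * J := Nat.mul_le_mul_right _ (by omega)
    rw [hm] at h2 ⊢
    nlinarith
  have hfin := ((mul_le_mul_of_nonneg_left (pow_le_pow_right₀ (by norm_num : (1 : ℝ) ≤ 8) hexp)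
    he0.le).trans (hiter J)).trans (hA _ (Nat.one_le_pow _ _ (by norm_num)) (by
      rw [show R₀ + p + J = R₀ + (p + J) by ring]
      exact hbd _ (by omega)
        (le_trans (Nat.pow_le_pow_right (by norm_num) (by omega)) hn1)))
  have hsp : (A * (((8 ^ (R₀ + p + J) : ℕ) : ℝ)) ^ (d + 2)) ^ D =
      (8 : ℝ) ^ (D * ((d + 2) * J)) * (A * ((8 : ℝ) ^ (R₀ + p)) ^ (d + 2)) ^ D := by
    push_cast
    rw [pow_add (8 : ℝ) (R₀ + p) J, show D * ((d + 2) * J) = J * (d + 2) * D by ring,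
      pow_mul (8 : ℝ) (J * (d + 2)) D, pow_mul (8 : ℝ) J (d + 2), ← mul_pow]
    ring
  rw [hsp, pow_add, mul_left_comm] at hfin
  have h5 := le_of_mul_le_mul_left hfin (by positivity)
  rw [div_lt_iff₀ he0] at hJ₁
  have h6 : (8 : ℝ) ^ J₁ ≤ 8 ^ J := pow_le_pow_right₀ (by norm_num) (by omega)
  have h7 := mul_le_mul_of_nonneg_right h6 he0.le
  linarith

end Gen

end FA.Gromov
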