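import Fermat.Agent.Gromov.Unipotent

/-!
# Gromov's theorem

A finitely generated group of weak polynomial growth is virtually nilpotent. Induction on the
degree: a subgroup of finite index maps onto `ℤ` with a kernel of smaller degree, and the semidirect
step lifts virtual nilpotence from the kernel.
-/

set_option autoImplicit false

noncomputable section

open scoped Pointwise Classical commutatorElement

namespace FA.Gromov

universe u

variable {H : Type*} [Group H]

/-- A normal subgroup of the whole group inside a subgroup of finite index of a normal one. -/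
theorem exists_core_le (N : Subgroup H) [N.Normal] (hNfg : Group.FG N) (M : Subgroup N)
    [M.FiniteIndex] :
    ∃ K : Subgroup H, K.Normal ∧ K ≤ M.map N.subtype ∧ (K.subgroupOf N).FiniteIndex := by
  obtain ⟨T, hT⟩ := hNfg.out
  have hfin : Finite (N →* Equiv.Perm (N ⧸ M)) :=
    Finite.of_injective (fun f (x : T) => f x) fun f g h =>
      MonoidHom.eq_of_eqOn_dense hT fun x hx => congrFun h ⟨x, hx⟩
  set L : Subgroup N := ⨅ f : N →* Equiv.Perm (N ⧸ M), f.ker with hL
  have hLi : L.FiniteIndex := Subgroup.finiteIndex_iInf fun f => inferInstance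
  have hLM : L ≤ M :=
    (iInf_le _ (MulAction.toPermHom N (N ⧸ M))).trans
      ((Subgroup.normalCore_eq_ker M).ge.trans M.normalCore_le)
  have hinv : ∀ (φ : MulAut N) (x : N), x ∈ L → φ x ∈ L := fun φ x hx => by
    simp only [hL, Subgroup.mem_iInf, MonoidHom.mem_ker] at hx ⊢
    exact fun f => hx (f.comp φ.toMonoidHom)
  refine ⟨L.map N.subtype, ⟨?_⟩, Subgroup.map_mono hLM, ?_⟩
  · rintro _ ⟨x, hx, rfl⟩ g
    exact ⟨MulAut.conjNormal g x, hinv _ x hx, MulAut.conjNormal_apply g x⟩
  · rw [Subgroup.subgroupOf, Subgroup.comap_map_eq_self_of_injective Subtype.val_injective]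
    exact hLi

/-- A normal subgroup of the whole group inside a virtually nilpotent normal subgroup. -/
theorem exists_core (N : Subgroup H) [N.Normal] (hNfg : Group.FG N)
    (hN : Group.IsVirtuallyNilpotent N) :
    ∃ K : Subgroup H, K.Normal ∧ K ≤ N ∧ Group.IsNilpotent K ∧ Group.FG K ∧
      (K.subgroupOf N).FiniteIndex := by
  obtain ⟨M, hM, hMi⟩ := hN
  have := hM
  have := hMi
  have := hNfg
  obtain ⟨K, hKn, hKM, hKi⟩ := exists_core_le N hNfg M
  have hKN : K ≤ N := hKM.trans (Subgroup.map_subtype_le M)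
  have hnil : Group.IsNilpotent (M.map N.subtype) := Group.nilpotent_of_surjective
    (N.subtype.subgroupMap M) (N.subtype.subgroupMap_surjective M)
  have : Group.IsNilpotent (K.subgroupOf (M.map N.subtype)) := inferInstance
  have : Group.FG (K.subgroupOf N) := Subgroup.fg_of_index_ne_zero _
  exact ⟨K, hKn, hKN, Group.nilpotent_of_mulEquiv (Subgroup.subgroupOfEquivOfLe hKM),
    Group.fg_of_surjective (f := (Subgroup.subgroupOfEquivOfLe hKN).toMonoidHom)
      (Subgroup.subgroupOfEquivOfLe hKN).surjective, hKi⟩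

/-- **Nilpotence of the extension by a unipotent element.** -/
theorem isNilpotent_sup_zpowers (K : Subgroup H) [K.Normal] (hK : Group.IsNilpotent K) (s : H)
    {c : ℕ} (hu : (conjAb K s - 1) ^ c = 0) :
    Group.IsNilpotent ↥(K ⊔ Subgroup.zpowers s) := by
  set G1 := K ⊔ Subgroup.zpowers s with hG1
  set j : K →* G1 := Subgroup.inclusion le_sup_left with hj
  set s' : G1 := ⟨s, Subgroup.mem_sup_right (Subgroup.mem_zpowers s)⟩ with hs'
  have hconj : ∀ (g : G1) (x : K), g * j x * g⁻¹ = j (MulAut.conjNormal (g : H) x) :=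
    fun g x => Subtype.ext (by simp [hj])
  have hKn : j.range.Normal := ⟨by rintro _ ⟨x, rfl⟩ g; exact ⟨_, (hconj g x).symm⟩⟩
  have hgen : j.range ⊔ Subgroup.zpowers s' = ⊤ := by
    refine eq_top_iff.2 fun g _ => ?_
    obtain ⟨x, hx, _, ⟨i, rfl⟩, hg⟩ := Subgroup.mem_sup_of_normal_left.1 g.2
    refine Subgroup.mem_sup_of_normal_left.2
      ⟨j ⟨x, hx⟩, ⟨_, rfl⟩, s' ^ i, ⟨i, rfl⟩, Subtype.ext ?_⟩
    simpa [hj, hs'] using hg
  have hnil : Group.IsNilpotent j.range :=
    Group.nilpotent_of_surjective j.rangeRestrict j.rangeRestrict_surjective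
  refine isNilpotent_of_drop hnil (k := 1) (m := c) ?_ ?_
  · refine Subgroup.commutator_le.2 fun a _ b _ => ?_
    rw [← QuotientGroup.eq_one_iff, ← QuotientGroup.mk'_apply j.range, map_commutatorElement,
      commutatorElement_eq_one_iff_mul_comm]
    have hrep : ∀ g : G1, ∃ i : ℤ, QuotientGroup.mk' j.range g = QuotientGroup.mk' j.range s' ^ i :=
      fun g => by
        obtain ⟨y, hy, _, ⟨i, rfl⟩, rfl⟩ :=
          Subgroup.mem_sup_of_normal_left.1 (hgen ▸ Subgroup.mem_top g)
        refine ⟨i, ?_⟩
        rw [map_mul, ← map_zpow, show QuotientGroup.mk' j.range y = 1 from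
          (QuotientGroup.eq_one_iff y).2 hy, one_mul]
    obtain ⟨i, hi⟩ := hrep a
    obtain ⟨l, hl⟩ := hrep b
    rw [hi, hl, ← zpow_add, ← zpow_add, add_comm]
  · set Z : Subgroup G1 := ⁅j.range, j.range⁆ with hZ
    have : Z.Normal := Subgroup.commutator_normal _ _
    set q := QuotientGroup.mk' Z with hq
    have hqs : Function.Surjective q := QuotientGroup.mk'_surjective Z
    have hab : ∀ x ∈ j.range.map q, ∀ y ∈ j.range.map q, x * y = y * x := by
      rintro _ ⟨a, ha, rfl⟩ _ ⟨b, hb, rfl⟩
      rw [← commutatorElement_eq_one_iff_mul_comm, ← map_commutatorElement]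
      exact (QuotientGroup.eq_one_iff _).2 (Subgroup.commutator_mem_commutator ha hb)
    have : (j.range.map q).Normal := Subgroup.Normal.map hKn q hqs
    have hgen' : j.range.map q ⊔ Subgroup.zpowers (q s') = ⊤ := by
      rw [← MonoidHom.map_zpowers, ← Subgroup.map_sup, hgen, Subgroup.map_top_of_surjective q hqs]
    have hmap : ∀ m, (drop j.range m).map q = drop (j.range.map q) m := fun m => by
      induction m with
      | zero => rfl
      | succ m ih =>
        simp only [drop, Subgroup.map_commutator, ih, Subgroup.map_top_of_surjective q hqs]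
    set δ := fun z => q s' * z * (q s')⁻¹ * z⁻¹ with hδ
    have hiter : ∀ (m : ℕ) (y : K), δ^[m] (q (j y)) = q (j ((comMap K s)^[m] y)) := fun m y => by
      induction m with
      | zero => rfl
      | succ m ih =>
        rw [Function.iterate_succ_apply', Function.iterate_succ_apply', ih]
        simp only [hδ, ← map_inv, ← map_mul]
        congr 1
    intro x hx
    have hxm : q x ∈ drop (j.range.map q) c := by
      rw [← hmap]
      exact Subgroup.mem_map_of_mem q hx
    obtain ⟨_, ⟨_, ⟨y, rfl⟩, rfl⟩, hy⟩ :=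
      drop_abelian_le hab hgen' (δ := δ) (fun _ _ => rfl) c _ hxm
    have hzero : (comMap K s)^[c] y ∈ commutator K := by
      have h1 := cls_comMap K s c y
      rw [hu] at h1
      exact (QuotientGroup.eq_one_iff _).1 (congrArg Additive.toMul h1)
    have hj' : j ((comMap K s)^[c] y) ∈ Z := by
      have h1 : (commutator K).map j = Z := by
        rw [commutator_def, Subgroup.map_commutator, ← MonoidHom.range_eq_map]
      exact h1 ▸ Subgroup.mem_map_of_mem j hzero
    rw [← QuotientGroup.eq_one_iff, ← QuotientGroup.mk'_apply, ← hy, hiter]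
    exact (QuotientGroup.eq_one_iff _).2 hj'

variable {χ : H →* Multiplicative ℤ} {t : H}

theorem finiteIndex_sup_zpowers (K : Subgroup H) [K.Normal] (hKi : (K.subgroupOf χ.ker).FiniteIndex)
    (ht : χ t = Multiplicative.ofAdd 1) {e : ℕ} (he : 0 < e) :
    (K ⊔ Subgroup.zpowers (t ^ e)).FiniteIndex := by
  have := hKi
  have : Finite (χ.ker ⧸ K.subgroupOf χ.ker) := Subgroup.finite_quotient_of_finiteIndex
  set G1 := K ⊔ Subgroup.zpowers (t ^ e) with hG1
  have hs : Function.Surjective fun p : (χ.ker ⧸ K.subgroupOf χ.ker) × Fin e =>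
      (QuotientGroup.mk ((p.1.out : H) * t ^ (p.2 : ℕ)) : H ⧸ G1) := by
    intro y
    obtain ⟨g, rfl⟩ := QuotientGroup.mk_surjective y
    set i := Multiplicative.toAdd (χ g) with hi
    set n : χ.ker := ⟨kerPart χ t g, kerPart_mem ht g⟩ with hn
    obtain ⟨⟨x, hx⟩, hxe⟩ := QuotientGroup.mk_out_eq_mul (K.subgroupOf χ.ker) n
    have he' : (0 : ℤ) < e := by exact_mod_cast he
    have h0 : 0 ≤ i % e := Int.emod_nonneg _ he'.ne'
    refine ⟨(QuotientGroup.mk n, ⟨(i % e).toNat, by have := Int.emod_lt_of_pos i he'; omega⟩), ?_⟩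
    simp only [hxe, Subgroup.coe_mul]
    rw [QuotientGroup.eq, ← zpow_natCast, Int.toNat_of_nonneg h0]
    have hg : g = kerPart χ t g * t ^ i := by simp [kerPart, hi]
    have hdiv : t ^ i = t ^ (i % e) * (t ^ e) ^ (i / e) := by
      rw [← zpow_natCast t e, ← zpow_mul, ← zpow_add, Int.emod_add_mul_ediv]
    have key : ((n : H) * (x : H) * t ^ (i % e))⁻¹ * g =
        (t ^ (i % e))⁻¹ * (x : H)⁻¹ * t ^ (i % e) * (t ^ e) ^ (i / e) := by
      conv_lhs => rw [hg, hdiv]
      simp only [hn]
      group
    rw [key]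
    refine mul_mem (Subgroup.mem_sup_left ?_)
      (Subgroup.mem_sup_right (Subgroup.zpow_mem_zpowers _ _))
    simpa using (inferInstance : K.Normal).conj_mem _ (K.inv_mem hx) (t ^ (i % e))⁻¹
  have := Finite.of_surjective _ hs
  exact Subgroup.finiteIndex_of_finite_quotient

/-- Virtual nilpotence passes up through finite index. -/
theorem isVirtuallyNilpotent_of_finiteIndex {K : Subgroup H} [K.FiniteIndex]
    (hK : Group.IsVirtuallyNilpotent K) : Group.IsVirtuallyNilpotent H := by
  obtain ⟨M, hM, hMi⟩ := hK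
  have := hM
  refine ⟨M.map K.subtype, Group.nilpotent_of_surjective (K.subtype.subgroupMap M)
    (K.subtype.subgroupMap_surjective M), ⟨?_⟩⟩
  rw [Subgroup.index_map_subtype]
  exact mul_ne_zero hMi.index_ne_zero Subgroup.FiniteIndex.index_ne_zero

/-- **The semidirect step.** -/
theorem isVirtuallyNilpotent_of_ker {d : ℕ} (hd : WeakLE H d)
    (ht : χ t = Multiplicative.ofAdd 1) (hNfg : Group.FG χ.ker)
    (hN : Group.IsVirtuallyNilpotent χ.ker) : Group.IsVirtuallyNilpotent H := by
  obtain ⟨K, hKn, hKN, hK, hKfg, hKi⟩ := exists_core χ.ker hNfg hN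
  have := hKn
  obtain ⟨e, he, c, hc⟩ := exists_unipotent_power K hKfg hKN ht hd
  exact ⟨_, isNilpotent_sup_zpowers K hK _ hc, finiteIndex_sup_zpowers K hKi ht he⟩

/-- **Gromov's theorem.** -/
theorem isVirtuallyNilpotent_of_weakLE : ∀ (d : ℕ) (G : Type u) [Group G],
    Group.FG G → WeakLE G d → Group.IsVirtuallyNilpotent G := by
  intro d
  induction d with
  | zero =>
    intro G _ hG hd
    have := finite_of_weakLE_zero hG hd
    exact ⟨⊥, inferInstance, inferInstance⟩
  | succ d ih =>
    intro G _ hG hd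
    rcases finite_or_infinite G with hfin | hinf
    · exact ⟨⊥, inferInstance, inferInstance⟩
    · obtain ⟨H, hHi, χ, hχ⟩ := exists_hom_int hG hd
      have := hHi
      have := hG
      obtain ⟨t, ht⟩ := hχ (Multiplicative.ofAdd 1)
      have hH : Group.FG H := Subgroup.fg_of_index_ne_zero H
      have hdH : WeakLE H (d + 1) := hd.of_injective H.subtype Subtype.val_injective
      have hNfg := fg_ker hH hdH ht
      exact isVirtuallyNilpotent_of_finiteIndex
        (isVirtuallyNilpotent_of_ker hdH ht hNfg (ih χ.ker hNfg (weakLE_ker hdH ht)))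

end FA.Gromov
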