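import Fermat.Agent.Gromov.Walk
import Mathlib.Algebra.BigOperators.Field
import Mathlib.Algebra.Order.BigOperators.Group.Finset

/-!
# Poincaré and Caccioppoli inequalities on a group

The two inequalities of Kleiner's argument, and the step that follows from them: a harmonic
function with zero mean on a net of small balls is small on a large ball against a larger one.
-/

set_option autoImplicit false

noncomputable section

open Finset
open scoped Pointwise Classical

namespace FA.Gromov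

variable {G : Type*} [Group G]

namespace Gen

variable (S : Gen G)

/-- The square sum over a ball. -/
def sqAt (f : G → ℝ) (x : G) (R : ℕ) : ℝ := ∑ y ∈ S.ball R, f (x * y) ^ 2

/-- The gradient square sum over a ball. -/
def gradAt (f : G → ℝ) (x : G) (R : ℕ) : ℝ :=
  ∑ y ∈ S.ball R, ∑ s ∈ S.set, (f (x * y * s) - f (x * y)) ^ 2

theorem sqAt_nonneg (f : G → ℝ) (x : G) (R : ℕ) : 0 ≤ S.sqAt f x R :=
  sum_nonneg fun _ _ => sq_nonneg _

theorem gradAt_nonneg (f : G → ℝ) (x : G) (R : ℕ) : 0 ≤ S.gradAt f x R :=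
  sum_nonneg fun _ _ => sum_nonneg fun _ _ => sq_nonneg _

theorem gradAt_mono (f : G → ℝ) (x : G) {R R' : ℕ} (h : R ≤ R') :
    S.gradAt f x R ≤ S.gradAt f x R' :=
  sum_le_sum_of_subset_of_nonneg (S.ball_mono h) fun _ _ _ => sum_nonneg fun _ _ => sq_nonneg _

theorem sqAt_mono (f : G → ℝ) (x : G) {R R' : ℕ} (h : R ≤ R') : S.sqAt f x R ≤ S.sqAt f x R' :=
  sum_le_sum_of_subset_of_nonneg (S.ball_mono h) fun _ _ _ => sq_nonneg _

theorem sum_shift_sq_le (f : G → ℝ) (x : G) (R : ℕ) : ∀ (n : ℕ) (g : G), g ∈ S.ball n →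
    ∑ y ∈ S.ball R, (f (x * y * g) - f (x * y)) ^ 2 ≤ (n : ℝ) ^ 2 * S.gradAt f x (R + n) := by
  intro n
  induction n with
  | zero =>
    intro g hg
    rw [ball_zero, mem_singleton] at hg
    simp [hg]
  | succ n ih =>
    intro g hg
    rw [ball, pow_succ] at hg
    obtain ⟨a, ha, b, hb, rfl⟩ := Finset.mem_mul.1 hg
    have hb' : ∑ y ∈ S.ball R, (f (x * y * a * b) - f (x * y * a)) ^ 2 ≤
        S.gradAt f x (R + (n + 1)) := by
      calc ∑ y ∈ S.ball R, (f (x * y * a * b) - f (x * y * a)) ^ 2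
          ≤ ∑ y ∈ S.ball R, ∑ s ∈ S.set, (f (x * (y * a) * s) - f (x * (y * a))) ^ 2 :=
            sum_le_sum fun y _ => by
              simp only [← mul_assoc]
              exact single_le_sum (f := fun s => (f (x * y * a * s) - f (x * y * a)) ^ 2)
                (fun s _ => sq_nonneg _) hb
        _ = ∑ z ∈ (S.ball R).image (· * a), ∑ s ∈ S.set, (f (x * z * s) - f (x * z)) ^ 2 := by
            rw [sum_image fun y _ z _ h => mul_right_cancel h]
        _ ≤ _ := by
            refine sum_le_sum_of_subset_of_nonneg ?_ fun _ _ _ => sum_nonneg fun _ _ => sq_nonneg _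
            intro z hz
            obtain ⟨y, hy, rfl⟩ := Finset.mem_image.1 hz
            exact S.ball_mono (by omega) (S.mul_mem_ball hy ha)
    rcases Nat.eq_zero_or_pos n with rfl | hn
    · rw [show S.set ^ 0 = S.ball 0 from rfl, ball_zero, mem_singleton] at ha
      subst ha
      simpa using hb'
    · have hnR : (0 : ℝ) < n := by exact_mod_cast hn
      have hpt : ∀ y, (f (x * y * (a * b)) - f (x * y)) ^ 2 ≤
          (1 + 1 / (n : ℝ)) * (f (x * y * a) - f (x * y)) ^ 2 +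
            (1 + n) * (f (x * y * a * b) - f (x * y * a)) ^ 2 := fun y => by
        rw [← mul_assoc]
        set u := f (x * y * a) - f (x * y)
        set v := f (x * y * a * b) - f (x * y * a)
        rw [show f (x * y * a * b) - f (x * y) = u + v by simp only [u, v]; ring]
        have h : 0 ≤ (u - n * v) ^ 2 / n := div_nonneg (sq_nonneg _) hnR.le
        have e : (u - n * v) ^ 2 / n = u ^ 2 / n - 2 * u * v + n * v ^ 2 := by
          field_simp
          ring
        have e' : (1 + 1 / (n : ℝ)) * u ^ 2 = u ^ 2 + u ^ 2 / n := by ring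
        rw [e']
        nlinarith
      have ha' := (ih a ha).trans (mul_le_mul_of_nonneg_left
        (S.gradAt_mono f x (show R + n ≤ R + (n + 1) by omega)) (by positivity))
      refine (sum_le_sum fun y _ => hpt y).trans ?_
      rw [sum_add_distrib, ← mul_sum, ← mul_sum]
      refine (add_le_add (mul_le_mul_of_nonneg_left ha' (by positivity))
        (mul_le_mul_of_nonneg_left hb' (by positivity))).trans (le_of_eq ?_)
      push_cast
      field_simp
      ring

/-- **Poincaré's inequality.** -/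
theorem poincare {f : G → ℝ} {x : G} {R : ℕ} (hmean : ∑ y ∈ S.ball R, f (x * y) = 0) :
    ((S.ball R).card : ℝ) * S.sqAt f x R ≤
      2 * (R : ℝ) ^ 2 * (S.ball (2 * R)).card * S.gradAt f x (3 * R) := by
  have h1 : ∑ y ∈ S.ball R, ∑ z ∈ S.ball R, (f (x * z) - f (x * y)) ^ 2 =
      2 * ((S.ball R).card : ℝ) * S.sqAt f x R := by
    simp only [sub_sq, sum_add_distrib, sum_sub_distrib, sum_const, nsmul_eq_mul, ← mul_sum,
      ← sum_mul, mul_assoc, hmean, mul_zero, sub_zero, sqAt]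
    ring
  have h2 : ∀ y ∈ S.ball R, ∑ z ∈ S.ball R, (f (x * z) - f (x * y)) ^ 2 ≤
      ∑ g ∈ S.ball (2 * R), (f (x * y * g) - f (x * y)) ^ 2 := fun y hy => by
    calc ∑ z ∈ S.ball R, (f (x * z) - f (x * y)) ^ 2
        = ∑ g ∈ (S.ball R).image (y⁻¹ * ·), (f (x * y * g) - f (x * y)) ^ 2 := by
          rw [sum_image fun a _ b _ h => mul_left_cancel h]
          simp [mul_assoc]
      _ ≤ _ := by
          refine sum_le_sum_of_subset_of_nonneg ?_ fun _ _ _ => sq_nonneg _
          intro g hg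
          obtain ⟨z, hz, rfl⟩ := Finset.mem_image.1 hg
          rw [two_mul]
          exact S.mul_mem_ball (S.inv_mem_ball hy) hz
  have h3 := (sum_le_sum h2).trans_eq sum_comm
  rw [h1] at h3
  have h4 := h3.trans (sum_le_sum fun g hg => S.sum_shift_sq_le f x R (2 * R) g hg)
  rw [sum_const, nsmul_eq_mul, show R + 2 * R = 3 * R by ring] at h4
  push_cast at h4
  linarith

/-- The cutoff of Caccioppoli's inequality. -/
def cutoff (R : ℕ) (x : G) : ℝ := max 0 (min 1 ((2 * (R : ℝ) + 1 - S.len x) / R))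

theorem cutoff_eq_zero {R : ℕ} {x : G} (h : x ∉ S.ball (2 * R)) : S.cutoff R x = 0 := by
  rw [mem_ball_iff, not_le] at h
  have h' : 2 * (R : ℝ) + 1 ≤ S.len x := by exact_mod_cast h
  exact max_eq_left ((min_le_right _ _).trans
    (div_nonpos_of_nonpos_of_nonneg (by linarith) (Nat.cast_nonneg R)))

theorem cutoff_eq_one {R : ℕ} (hR : 0 < R) {x : G} (h : x ∈ S.ball (R + 1)) :
    S.cutoff R x = 1 := by
  rw [mem_ball_iff] at h
  have hR' : (0 : ℝ) < R := by exact_mod_cast hR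
  have h' : (S.len x : ℝ) ≤ R + 1 := by exact_mod_cast h
  have : 1 ≤ (2 * (R : ℝ) + 1 - S.len x) / R := by rw [le_div_iff₀ hR']; linarith
  rw [cutoff, min_eq_left this, max_eq_right zero_le_one]

theorem cutoff_lip (R : ℕ) (x : G) {s : G} (hs : s ∈ S.set) :
    |S.cutoff R x - S.cutoff R (x * s)| ≤ 1 / (R : ℝ) := by
  refine (abs_max_sub_max_le_max _ _ _ _).trans (max_le (by simp) ?_)
  refine (abs_min_sub_min_le_max _ _ _ _).trans (max_le (by simp) ?_)
  rw [← sub_div, abs_div, Nat.abs_cast]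
  refine div_le_div_of_nonneg_right ?_ (Nat.cast_nonneg R)
  rw [show 2 * (R : ℝ) + 1 - S.len x - (2 * (R : ℝ) + 1 - S.len (x * s)) =
    (S.len (x * s) : ℝ) - S.len x by ring]
  exact S.abs_len_sub_le hs

/-- **Caccioppoli's inequality.** -/
theorem caccioppoli {f : G → ℝ} (hf : S.Harmonic f) {R : ℕ} (hR : 0 < R) :
    S.gradAt f 1 R ≤ (S.set.card : ℝ) / (R : ℝ) ^ 2 * S.sqAt f 1 (2 * R + 3) := by
  set φ := S.cutoff R with hφ
  set T := S.ball (2 * R + 2) with hT
  set F : G × G → ℝ := fun p => (f p.1 - f (p.1 * p.2)) * (φ p.1 ^ 2 * f p.1) with hF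
  set H : G × G → ℝ := fun p => (f (p.1 * p.2) - f p.1) * (φ (p.1 * p.2) ^ 2 * f (p.1 * p.2))
    with hH
  have hF0 : ∑ p ∈ T ×ˢ S.set, F p = 0 := by
    rw [sum_product]
    refine sum_eq_zero fun x _ => ?_
    simp only [hF, ← sum_mul]
    have := hf x
    rw [show ∑ s ∈ S.set, (f x - f (x * s)) = -∑ s ∈ S.set, (f (x * s) - f x) by
      rw [← sum_neg_distrib]; simp, this, neg_zero, zero_mul]
  have hFH : ∑ p ∈ T ×ˢ S.set, F p = ∑ p ∈ T ×ˢ S.set, H p := by
    refine sum_bij_ne_zero (fun p _ _ => (p.1 * p.2, p.2⁻¹)) (fun p hp hne => ?_)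
      (fun p _ _ q _ _ h => ?_) (fun p hp hne => ⟨(p.1 * p.2, p.2⁻¹), ?_, ?_, ?_⟩) fun p _ _ => ?_
    · rw [mem_product] at hp ⊢
      have hx : p.1 ∈ S.ball (2 * R) := by
        by_contra hc
        exact hne (by simp [hF, hφ, S.cutoff_eq_zero hc])
      exact ⟨S.ball_mono (by omega) (S.mul_mem_ball hx (S.mem_ball_one hp.2)), S.inv_mem _ hp.2⟩
    · simp only [Prod.mk.injEq, inv_inj] at h
      exact Prod.ext (by rw [h.2] at h; exact mul_right_cancel h.1) h.2
    · rw [mem_product] at hp ⊢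
      have hx : p.1 * p.2 ∈ S.ball (2 * R) := by
        by_contra hc
        exact hne (by simp [hH, hφ, S.cutoff_eq_zero hc])
      exact ⟨S.ball_mono (by omega) hx, S.inv_mem _ hp.2⟩
    · simpa [hF, hH] using hne
    · simp
    · simp [hF, hH]
  have hsum : ∑ p ∈ T ×ˢ S.set, (φ p.1 * f p.1 - φ (p.1 * p.2) * f (p.1 * p.2)) ^ 2 =
      ∑ p ∈ T ×ˢ S.set, (φ p.1 - φ (p.1 * p.2)) ^ 2 * (f p.1 * f (p.1 * p.2)) := by
    have : ∑ p ∈ T ×ˢ S.set, ((φ p.1 * f p.1 - φ (p.1 * p.2) * f (p.1 * p.2)) ^ 2 -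
        (φ p.1 - φ (p.1 * p.2)) ^ 2 * (f p.1 * f (p.1 * p.2))) =
        ∑ p ∈ T ×ˢ S.set, (F p + H p) := sum_congr rfl fun p _ => by simp only [hF, hH]; ring
    rw [sum_sub_distrib, sum_add_distrib, ← hFH, hF0, add_zero] at this
    linarith
  have hup : ∀ p ∈ T ×ˢ S.set, (φ p.1 - φ (p.1 * p.2)) ^ 2 * (f p.1 * f (p.1 * p.2)) ≤
      1 / (R : ℝ) ^ 2 * ((f p.1 ^ 2 + f (p.1 * p.2) ^ 2) / 2) := fun p hp => by
    rw [mem_product] at hp
    have h1 : (φ p.1 - φ (p.1 * p.2)) ^ 2 ≤ 1 / (R : ℝ) ^ 2 := by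
      rw [← sq_abs, ← one_div_pow]
      exact pow_le_pow_left₀ (abs_nonneg _) (S.cutoff_lip R p.1 hp.2) 2
    have h2 : f p.1 * f (p.1 * p.2) ≤ (f p.1 ^ 2 + f (p.1 * p.2) ^ 2) / 2 := by
      nlinarith [sq_nonneg (f p.1 - f (p.1 * p.2))]
    calc _ ≤ (φ p.1 - φ (p.1 * p.2)) ^ 2 * ((f p.1 ^ 2 + f (p.1 * p.2) ^ 2) / 2) :=
          mul_le_mul_of_nonneg_left h2 (sq_nonneg _)
      _ ≤ _ := mul_le_mul_of_nonneg_right h1 (by positivity)
  have hQ : ∑ p ∈ T ×ˢ S.set, (f p.1 ^ 2 + f (p.1 * p.2) ^ 2) / 2 ≤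
      (S.set.card : ℝ) * S.sqAt f 1 (2 * R + 3) := by
    rw [← sum_div, sum_product]
    have hh : ∀ s ∈ S.set, ∑ x ∈ T, (f x ^ 2 + f (x * s) ^ 2) ≤ 2 * S.sqAt f 1 (2 * R + 3) :=
      fun s hs => by
        rw [sum_add_distrib, two_mul]
        simp only [sqAt, one_mul]
        refine add_le_add (sum_le_sum_of_subset_of_nonneg (S.ball_mono (by omega))
          fun _ _ _ => sq_nonneg _) ?_
        rw [← sum_image (f := fun z => f z ^ 2) (g := (· * s)) fun a _ b _ h => mul_right_cancel h]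
        refine sum_le_sum_of_subset_of_nonneg ?_ fun _ _ _ => sq_nonneg _
        intro z hz
        obtain ⟨y, hy, rfl⟩ := Finset.mem_image.1 hz
        exact S.ball_mono (by omega) (S.mul_mem_ball hy (S.mem_ball_one hs))
    rw [sum_comm]
    have := sum_le_sum hh
    rw [sum_const, nsmul_eq_mul] at this
    linarith
  have hlow : S.gradAt f 1 R ≤
      ∑ p ∈ T ×ˢ S.set, (φ p.1 * f p.1 - φ (p.1 * p.2) * f (p.1 * p.2)) ^ 2 := by
    rw [sum_product, gradAt]
    refine le_trans (le_of_eq ?_) (sum_le_sum_of_subset_of_nonneg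
      (S.ball_mono (show R ≤ 2 * R + 2 by omega)) fun _ _ _ => sum_nonneg fun _ _ => sq_nonneg _)
    refine sum_congr rfl fun x hx => sum_congr rfl fun s hs => ?_
    rw [one_mul, hφ, S.cutoff_eq_one hR (S.ball_mono (show R ≤ R + 1 by omega) hx),
      S.cutoff_eq_one hR (S.mul_mem_ball hx (S.mem_ball_one hs)), one_mul, one_mul]
    ring
  refine hlow.trans ?_
  rw [hsum]
  refine (sum_le_sum hup).trans ?_
  rw [← mul_sum]
  exact (mul_le_mul_of_nonneg_left hQ (by positivity)).trans (le_of_eq (by ring))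

/-- **Kleiner's step.** -/
theorem kleiner_step {r R : ℕ} (hr : 0 < r) (hrR : 7 * r ≤ R) {K₀ N : ℕ}
    (hK : (S.ball (7 * r)).card ≤ K₀ * (S.ball r).card)
    (hN : (S.ball (R + r)).card ≤ N * (S.ball r).card) :
    ∃ X : Finset G, X.card ≤ N ∧ ∀ f : G → ℝ, S.Harmonic f →
      (∀ x ∈ X, ∑ y ∈ S.ball (2 * r), f (x * y) = 0) →
      S.sqAt f 1 R ≤ 2 * (K₀ : ℝ) ^ 2 * S.set.card * ((r : ℝ) / R) ^ 2 * S.sqAt f 1 (8 * R) := by
  set Sep : Finset G → Prop := fun X => ∀ x ∈ X, ∀ y ∈ X, ∀ u ∈ S.ball r, ∀ v ∈ S.ball r,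
    x * u = y * v → x = y with hSep
  obtain ⟨X, hX, hmax⟩ := Finset.exists_max_image
    ((S.ball R).powerset.filter Sep) card ⟨∅, by simp [hSep]⟩
  simp only [mem_filter, mem_powerset] at hX hmax
  obtain ⟨hXR, hXsep⟩ := hX
  have hcover : ∀ y ∈ S.ball R, ∃ x ∈ X, x⁻¹ * y ∈ S.ball (2 * r) := by
    intro y hy
    by_contra hcon
    simp only [not_exists, not_and] at hcon
    have hyX : y ∉ X := fun h => hcon y h (by simpa using S.one_mem_ball (2 * r))
    have key : ∀ x ∈ X, ∀ u ∈ S.ball r, ∀ v ∈ S.ball r, x * u ≠ y * v := by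
      intro x hx u hu v hv h
      refine hcon x hx ?_
      rw [show x⁻¹ * y = u * v⁻¹ by rw [eq_mul_inv_iff_mul_eq, mul_assoc, ← h, inv_mul_cancel_left],
        two_mul]
      exact S.mul_mem_ball hu (S.inv_mem_ball hv)
    have := hmax (insert y X) ⟨insert_subset hy hXR, fun a ha b hb u hu v hv h => ?_⟩
    · rw [card_insert_of_notMem hyX] at this
      omega
    · rcases mem_insert.1 ha with ha' | ha' <;> rcases mem_insert.1 hb with hb' | hb'
      · rw [ha', hb']
      · exact absurd (ha' ▸ h.symm) (key b hb' v hv u hu)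
      · exact absurd (hb' ▸ h) (key a ha' u hu v hv)
      · exact hXsep a ha' b hb' u hu v hv h
  have hpack : ∀ Y ⊆ X, (Y.card : ℕ) * (S.ball r).card = (Y * S.ball r).card := fun Y hY => by
    rw [Finset.card_mul_iff.2]
    rintro ⟨x, u⟩ hxu ⟨y, v⟩ hyv h
    simp only [Set.mem_prod, mem_coe] at hxu hyv
    have := hXsep x (hY hxu.1) y (hY hyv.1) u hxu.2 v hyv.2 h
    subst this
    exact Prod.ext rfl (mul_left_cancel h)
  have hpos : 0 < (S.ball r).card := S.card_ball_pos r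
  refine ⟨X, ?_, fun f hf hmean => ?_⟩
  · refine le_of_mul_le_mul_right ?_ hpos
    rw [hpack X (Finset.Subset.refl X)]
    refine (card_le_card ?_).trans hN
    intro z hz
    obtain ⟨x, hx, u, hu, rfl⟩ := Finset.mem_mul.1 hz
    exact S.mul_mem_ball (hXR hx) hu
  have hmult : ∀ w, (X.filter fun x => x⁻¹ * w ∈ S.ball (6 * r)).card ≤ K₀ := fun w => by
    refine le_of_mul_le_mul_right ?_ hpos
    rw [hpack _ (filter_subset _ _)]
    refine le_trans ?_ hK
    rw [← card_image_of_injective (S.ball (7 * r)) (mul_right_injective w)]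
    refine card_le_card fun z hz => ?_
    obtain ⟨x, hx, u, hu, rfl⟩ := Finset.mem_mul.1 hz
    rw [mem_filter] at hx
    refine Finset.mem_image.2 ⟨(x⁻¹ * w)⁻¹ * u, ?_, by simp [← mul_assoc]⟩
    rw [show 7 * r = 6 * r + r by ring]
    exact S.mul_mem_ball (S.inv_mem_ball hx.2) hu
  have hgrad : ∑ x ∈ X, S.gradAt f x (6 * r) ≤ (K₀ : ℝ) * S.gradAt f 1 (2 * R) := by
    set g : G → ℝ := fun w => ∑ s ∈ S.set, (f (w * s) - f w) ^ 2 with hg
    have e : ∀ x ∈ X, S.gradAt f x (6 * r) =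
        ∑ w ∈ S.ball (2 * R), if x⁻¹ * w ∈ S.ball (6 * r) then g w else 0 := fun x hx => by
      rw [← sum_filter, gradAt]
      refine sum_nbij' (fun y => x * y) (fun w => x⁻¹ * w) (fun y hy => ?_) (fun w hw => ?_)
        (fun y _ => inv_mul_cancel_left x y) (fun w _ => mul_inv_cancel_left x w) fun y _ => rfl
      · rw [mem_filter, inv_mul_cancel_left]
        exact ⟨S.ball_mono (by omega) (S.mul_mem_ball (hXR hx) hy), hy⟩
      · exact (mem_filter.1 hw).2
    rw [sum_congr rfl e, sum_comm, gradAt, mul_sum]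
    refine sum_le_sum fun w _ => ?_
    rw [← sum_filter, sum_const, nsmul_eq_mul, one_mul]
    exact mul_le_mul_of_nonneg_right (by exact_mod_cast hmult w)
      (sum_nonneg fun _ _ => sq_nonneg _)
  have hball : ∀ x ∈ X, S.sqAt f x (2 * r) ≤ 8 * (r : ℝ) ^ 2 * K₀ * S.gradAt f x (6 * r) :=
    fun x hx => by
      have h := S.poincare (hmean x hx)
      rw [show 2 * (2 * r) = 4 * r by ring, show 3 * (2 * r) = 6 * r by ring] at h
      push_cast at h
      have h2 : ((S.ball (4 * r)).card : ℝ) ≤ K₀ * (S.ball (2 * r)).card := by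
        exact_mod_cast (card_le_card (S.ball_mono (by omega))).trans
          (hK.trans (Nat.mul_le_mul_left _ (card_le_card (S.ball_mono (by omega)))))
      refine le_of_mul_le_mul_left (h.trans ?_)
        (show (0 : ℝ) < (S.ball (2 * r)).card by exact_mod_cast S.card_ball_pos _)
      have := mul_le_mul_of_nonneg_left h2
        (mul_nonneg (by positivity : (0 : ℝ) ≤ 8 * (r : ℝ) ^ 2) (S.gradAt_nonneg f x (6 * r)))
      linarith
  have hsq : S.sqAt f 1 R ≤ ∑ x ∈ X, S.sqAt f x (2 * r) := by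
    have : ∀ y ∈ S.ball R, f y ^ 2 ≤
        ∑ x ∈ X, if x⁻¹ * y ∈ S.ball (2 * r) then f y ^ 2 else 0 := fun y hy => by
      obtain ⟨x, hx, hxy⟩ := hcover y hy
      refine le_trans (le_of_eq (if_pos hxy).symm)
        (single_le_sum (f := fun x => if x⁻¹ * y ∈ S.ball (2 * r) then f y ^ 2 else 0)
          (fun x _ => by split_ifs <;> positivity) hx)
    simp only [sqAt, one_mul]
    refine (sum_le_sum this).trans ?_
    rw [sum_comm]
    refine sum_le_sum fun x _ => ?_
    rw [← sum_filter, ← sum_image (f := fun z => f z ^ 2) (g := (x * ·))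
      fun a _ b _ h => mul_left_cancel h]
    refine sum_le_sum_of_subset_of_nonneg (fun y hy => ?_) fun _ _ _ => sq_nonneg _
    exact Finset.mem_image.2 ⟨x⁻¹ * y, (mem_filter.1 hy).2, mul_inv_cancel_left x y⟩
  have hRpos : 0 < R := by omega
  have hcac := (S.caccioppoli hf (R := 2 * R) (by omega)).trans (mul_le_mul_of_nonneg_left
    (S.sqAt_mono f 1 (show 2 * (2 * R) + 3 ≤ 8 * R by omega)) (by positivity))
  calc S.sqAt f 1 R ≤ ∑ x ∈ X, 8 * (r : ℝ) ^ 2 * K₀ * S.gradAt f x (6 * r) :=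
        hsq.trans (sum_le_sum hball)
    _ ≤ 8 * (r : ℝ) ^ 2 * K₀ * (K₀ * S.gradAt f 1 (2 * R)) := by
        rw [← mul_sum]
        exact mul_le_mul_of_nonneg_left hgrad (by positivity)
    _ ≤ 8 * (r : ℝ) ^ 2 * K₀ *
        (K₀ * ((S.set.card : ℝ) / ((2 * R : ℕ) : ℝ) ^ 2 * S.sqAt f 1 (8 * R))) := by gcongr
    _ = _ := by
        have : (R : ℝ) ≠ 0 := by exact_mod_cast hRpos.ne'
        push_cast
        field_simp
        ring

end Gen

end FA.Gromov
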