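import Fermat.Agent.Gromov.Kleiner
import Fermat.Agent.Root.SummaryLinearGrowth
import Mathlib.GroupTheory.FiniteAbelian.Basic
import Mathlib.GroupTheory.Schreier

/-!
# A finite-index subgroup with an infinite cyclic quotient

An infinite finitely generated group of polynomial growth acts on the finite-dimensional space of
Lipschitz harmonic functions with infinite image. The linear case of Gromov's theorem makes the
image virtually nilpotent, and an infinite nilpotent group maps onto `ℤ` after finite index.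
-/

set_option autoImplicit false

noncomputable section

open Finset Filter
open scoped Pointwise Classical Topology DirectSum commutatorElement

namespace FA.Gromov

/-- Linear groups of polynomial growth. -/
theorem linear_case {H : Type*} [Group H] {n : ℕ} (ρ : H →* Matrix.GeneralLinearGroup (Fin n) ℝ)
    (hH : Group.FG H) {d : ℕ} (hd : WeakLE H d) : Group.IsVirtuallyNilpotent ρ.range := by
  have := hH
  have hR : Group.FG ρ.range := Group.fg_range ρ
  obtain ⟨S⟩ := exists_gen hR
  by_contra hv
  obtain ⟨c, hc, hexp⟩ := (FA.Summary.linear_exponential_growth_iff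
    ((Group.fg_iff_subgroup_fg _).1 hR) S.set.finite_toSet S.one_mem S.closure_eq).2 hv
  obtain ⟨C, hC⟩ := hd.of_surjective ρ.rangeRestrict ρ.rangeRestrict_surjective S.set
  have hz := (tendsto_pow_const_mul_const_pow_of_abs_lt_one d
    (show |c⁻¹| < 1 by
      rw [abs_of_pos (inv_pos.2 (lt_trans one_pos hc))]
      exact inv_lt_one_of_one_lt₀ hc)).comp (tendsto_add_atTop_nat 1)
  have hz' := (hz.const_mul ((C : ℝ) * c)).eventually (gt_mem_nhds (by simp : (C : ℝ) * c * 0 < 1))
  obtain ⟨m₀, hm₀⟩ := eventually_atTop.1 hz'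
  obtain ⟨m, hm, hm'⟩ := hC m₀
  have h1 : c ^ m ≤ (C : ℝ) * ((m : ℝ) + 1) ^ d := by
    refine (hexp m).trans ?_
    rw [← Finset.coe_pow, Set.ncard_coe_finset]
    exact_mod_cast (by convert hm'; rfl)
  have h2 := hm₀ m hm
  simp only [Function.comp_apply] at h2
  push_cast at h2
  have hc0 : (0 : ℝ) < c := lt_trans one_pos hc
  rw [pow_succ c⁻¹, inv_pow] at h2
  field_simp at h2
  linarith

variable {G : Type*} [Group G]

namespace Gen

variable (S : Gen G)

/-- The space of Lipschitz harmonic functions. -/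
def lipHarm : Submodule ℝ (G → ℝ) where
  carrier := {f | S.Harmonic f ∧ ∃ L, S.LipWith f L}
  add_mem' := by
    rintro f g ⟨hf, L, hL⟩ ⟨hg, M, hM⟩
    refine ⟨fun x => ?_, L + M, fun x s hs => ?_⟩
    · have := congrArg₂ (· + ·) (hf x) (hg x)
      simp only [← sum_add_distrib, add_zero] at this
      simp only [Pi.add_apply]
      rw [← this]
      exact sum_congr rfl fun s _ => by ring
    · simp only [Pi.add_apply]
      have h1 := abs_le.1 (hL x s hs)
      have h2 := abs_le.1 (hM x s hs)
      rw [abs_le]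
      constructor <;> linarith
  zero_mem' := ⟨fun x => by simp, 0, fun x s _ => by simp⟩
  smul_mem' := by
    rintro c f ⟨hf, L, hL⟩
    refine ⟨fun x => ?_, |c| * L, fun x s hs => ?_⟩
    · simp only [Pi.smul_apply, smul_eq_mul, ← mul_sub, ← mul_sum, hf x, mul_zero]
    · simp only [Pi.smul_apply, smul_eq_mul, ← mul_sub, abs_mul]
      exact mul_le_mul_of_nonneg_left (hL x s hs) (abs_nonneg c)

theorem shift_mem {f : G → ℝ} (hf : f ∈ S.lipHarm) (g : G) :
    (fun x => f (g⁻¹ * x)) ∈ S.lipHarm := by
  obtain ⟨hf, L, hL⟩ := hf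
  refine ⟨fun x => ?_, L, fun x s hs => ?_⟩
  · simpa [mul_assoc] using hf (g⁻¹ * x)
  · simpa [mul_assoc] using hL (g⁻¹ * x) s hs

/-- The action on Lipschitz harmonic functions. -/
def action : G →* Module.End ℝ S.lipHarm where
  toFun g :=
    { toFun := fun f => ⟨fun x => (f : G → ℝ) (g⁻¹ * x), S.shift_mem f.2 g⟩
      map_add' := fun _ _ => rfl
      map_smul' := fun _ _ => rfl }
  map_one' := by
    ext f x
    simp
  map_mul' g h := by
    ext f x
    simp [mul_assoc]

theorem finite_lipHarm {d : ℕ} (hd : WeakLE G d) : Module.Finite ℝ S.lipHarm := by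
  obtain ⟨K, hK⟩ := S.exists_dimension_bound hd
  have hr : Module.rank ℝ S.lipHarm ≤ K := rank_le fun s hs => by
    set e := s.equivFin.symm with he
    have := hK s.card (fun i => ((e i : S.lipHarm) : G → ℝ))
      ((hs.comp e e.injective).map' S.lipHarm.subtype (Submodule.ker_subtype _))
      (fun i => (e i : S.lipHarm).2.1) (fun i => (e i : S.lipHarm).2.2)
    exact this
  exact Module.rank_lt_aleph0_iff.1 (lt_of_le_of_lt hr Cardinal.natCast_lt_aleph0)

end Gen

/-- **A virtually nilpotent infinite linear image.** -/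
theorem exists_infinite_image [Infinite G] (hG : Group.FG G) {d : ℕ} (hd : WeakLE G d) :
    ∃ (n : ℕ) (ρ : G →* Matrix.GeneralLinearGroup (Fin n) ℝ),
      Infinite ρ.range ∧ Group.IsVirtuallyNilpotent ρ.range := by
  obtain ⟨S⟩ := exists_gen hG
  obtain ⟨f, L, hf, hL, x₁, hx₁⟩ := S.exists_harmonic hd
  have := S.finite_lipHarm hd
  set b := Module.finBasis ℝ S.lipHarm with hb
  set toM : Module.End ℝ S.lipHarm →* Matrix _ _ ℝ :=
    (LinearMap.toMatrixAlgEquiv b).toAlgHom.toRingHom.toMonoidHom with htoM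
  set ρ : G →* Matrix.GeneralLinearGroup (Fin (Module.finrank ℝ S.lipHarm)) ℝ :=
    (Units.map toM).comp S.action.toHomUnits with hρ
  refine ⟨_, ρ, not_finite_iff_infinite.1 fun hfin => ?_, linear_case ρ hG hd⟩
  have := hfin
  have : Finite (G ⧸ ρ.ker) :=
    Finite.of_equiv _ (QuotientGroup.quotientKerEquivRange ρ).symm.toEquiv
  have hker : ∀ h ∈ ρ.ker, ∀ y, f (h * y) = f y := fun h hh y => by
    have h1 : S.action h⁻¹ = 1 := by
      have h2 := (ρ.ker.inv_mem hh)
      rw [MonoidHom.mem_ker] at h2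
      have h3 := congrArg (fun u : Matrix.GeneralLinearGroup _ ℝ => Units.val u) h2
      simp only [hρ, MonoidHom.comp_apply, Units.coe_map, MonoidHom.coe_toHomUnits,
        Units.val_one] at h3
      exact (LinearMap.toMatrixAlgEquiv b).injective (h3.trans (map_one _).symm)
    have h4 := congrFun (congrArg Subtype.val (LinearMap.congr_fun h1 ⟨f, hf, L, hL⟩)) y
    simpa [Gen.action] using h4
  have hfac : ∀ x y : G, (x⁻¹ : G ⧸ ρ.ker) = (y⁻¹ : G ⧸ ρ.ker) → f x = f y := fun x y h => by
    rw [← QuotientGroup.mk_inv, ← QuotientGroup.mk_inv, QuotientGroup.eq, inv_inv] at h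
    have := hker _ h y
    simpa using this
  have hrange : (Set.range f).Finite := by
    refine (Set.finite_range fun q : G ⧸ ρ.ker => f q.out⁻¹).subset ?_
    rintro _ ⟨x, rfl⟩
    exact ⟨(x⁻¹ : G), hfac _ _ (by simp)⟩
  obtain ⟨v, ⟨x₀, rfl⟩, hmax⟩ := hrange.toFinset.exists_max_image id ⟨f 1, by simp⟩ |>
    fun ⟨v, hv, hm⟩ => (⟨v, hrange.mem_toFinset.1 hv, hm⟩ : ∃ v, v ∈ Set.range f ∧
      ∀ w ∈ hrange.toFinset, id w ≤ id v)
  have hconst := S.eq_of_max hf (x₀ := x₀) fun x => hmax (f x) (by simp)
  exact hx₁ ((hconst x₁).trans (hconst 1).symm)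

theorem abelianization_of_surjective {N : Type*} [Group N] :
    Function.Surjective (Abelianization.of : N →* Abelianization N) :=
  QuotientGroup.mk_surjective

theorem finite_of_abelianization {N : Type*} [Group N] [Group.IsNilpotent N] :
    Group.FG N → Finite (Abelianization N) → Finite N := by
  refine Group.nilpotent_center_quotient_ind
    (P := fun N _ _ => Group.FG N → Finite (Abelianization N) → Finite N) N
    (fun N _ _ _ _ => inferInstance) ?_
  intro N _ _ ih hN hab
  have := hN
  have hfgq : Group.FG (N ⧸ Subgroup.center N) :=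
    Group.fg_of_surjective (QuotientGroup.mk'_surjective _)
  have habq : Finite (Abelianization (N ⧸ Subgroup.center N)) := by
    refine Finite.of_surjective (Abelianization.map (QuotientGroup.mk' (Subgroup.center N))) ?_
    intro y
    obtain ⟨z, rfl⟩ := QuotientGroup.mk_surjective y
    obtain ⟨w, rfl⟩ := QuotientGroup.mk_surjective z
    exact ⟨Abelianization.of w, rfl⟩
  have hq := ih hfgq habq
  have : Finite (commutatorSet N) := by
    refine ((Set.finite_range fun p : (N ⧸ Subgroup.center N) × (N ⧸ Subgroup.center N) =>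
      ⁅p.1.out, p.2.out⁆).subset ?_).to_subtype
    rintro _ ⟨a, b, rfl⟩
    refine ⟨(QuotientGroup.mk a, QuotientGroup.mk b), ?_⟩
    obtain ⟨⟨u, hu⟩, e1⟩ := QuotientGroup.mk_out_eq_mul (Subgroup.center N) a
    obtain ⟨⟨w, hw⟩, e2⟩ := QuotientGroup.mk_out_eq_mul (Subgroup.center N) b
    simp only [e1, e2]
    rw [Subgroup.mem_center_iff] at hu hw
    simp only [commutatorElement_def, mul_inv_rev]
    calc a * u * (b * w) * (u⁻¹ * a⁻¹) * (w⁻¹ * b⁻¹)
        = a * (u * (b * w)) * u⁻¹ * a⁻¹ * w⁻¹ * b⁻¹ := by group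
      _ = a * ((b * w) * u) * u⁻¹ * a⁻¹ * w⁻¹ * b⁻¹ := by rw [← hu (b * w)]
      _ = a * b * (w * a⁻¹) * w⁻¹ * b⁻¹ := by group
      _ = a * b * (a⁻¹ * w) * w⁻¹ * b⁻¹ := by rw [← hw a⁻¹]
      _ = a * b * a⁻¹ * b⁻¹ := by group
  have : Finite (N ⧸ commutator N) := hab
  exact Finite.of_subgroup_quotient (commutator N)

/-- An infinite finitely generated commutative group maps onto `ℤ`. -/
theorem exists_surjective_int {A : Type*} [CommGroup A] [Group.FG A] [Infinite A] :
    ∃ χ : A →* Multiplicative ℤ, Function.Surjective χ := by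
  obtain ⟨n, ι, hι, p, hp, e, ⟨E⟩⟩ :=
    AddCommGroup.equiv_free_prod_directSum_zmod (Additive A)
  rcases Nat.eq_zero_or_pos n with rfl | hn
  · exfalso
    have : ∀ i, NeZero (p i ^ e i) := fun i => ⟨pow_ne_zero _ (hp i).ne_zero⟩
    have : Finite (⨁ i : ι, ZMod (p i ^ e i)) :=
      Finite.of_injective (fun x i => x i) fun _ _ h => DFinsupp.ext (congrFun h)
    have := Finite.of_equiv _ E.toEquiv.symm
    have := Finite.of_equiv (Additive A) Additive.toMul
    exact not_finite A
  · set χ : Additive A →+ ℤ :=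
      ((Finsupp.applyAddHom (⟨0, hn⟩ : Fin n)).comp (AddMonoidHom.fst _ _)).comp E.toAddMonoidHom
      with hχ
    refine ⟨AddMonoidHom.toMultiplicativeRight χ, fun z => ?_⟩
    refine ⟨Additive.toMul (E.symm (Finsupp.single ⟨0, hn⟩ (Multiplicative.toAdd z), 0)), ?_⟩
    apply Multiplicative.toAdd.injective
    simp [hχ]

/-- **A finite-index subgroup onto `ℤ`.** -/
theorem exists_hom_int [Infinite G] (hG : Group.FG G) {d : ℕ} (hd : WeakLE G d) :
    ∃ H : Subgroup G, H.FiniteIndex ∧ ∃ χ : H →* Multiplicative ℤ, Function.Surjective χ := by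
  obtain ⟨n, ρ, hinf, M, hM, hMi⟩ := exists_infinite_image hG hd
  have := hG
  have := hMi
  have := hM
  set H := M.comap ρ.rangeRestrict with hH
  have hHi : H.FiniteIndex :=
    ⟨by rw [hH, Subgroup.index_comap_of_surjective _ ρ.rangeRestrict_surjective]
        exact hMi.index_ne_zero⟩
  have : Group.FG ρ.range := Group.fg_range ρ
  have : Group.FG M := Subgroup.fg_of_index_ne_zero _
  have : Infinite M := not_finite_iff_infinite.1 fun hf => by
    have := hf
    have := Subgroup.finite_quotient_of_finiteIndex (H := M)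
    exact (not_finite_iff_infinite.2 hinf) (Finite.of_subgroup_quotient M)
  have : Infinite (Abelianization M) := not_finite_iff_infinite.1 fun hf =>
    (not_finite_iff_infinite.2 inferInstance) (finite_of_abelianization inferInstance hf)
  have : Group.FG (Abelianization M) := Group.fg_of_surjective abelianization_of_surjective
  obtain ⟨χ, hχ⟩ := exists_surjective_int (A := Abelianization M)
  refine ⟨H, hHi, χ.comp (Abelianization.of.comp (ρ.rangeRestrict.subgroupComap M)), ?_⟩
  refine hχ.comp (abelianization_of_surjective.comp ?_)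
  rintro ⟨y, hy⟩
  obtain ⟨x, rfl⟩ := ρ.rangeRestrict_surjective y
  exact ⟨⟨x, hy⟩, rfl⟩

end FA.Gromov
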