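import Fermat.Agent.Gromov.Splitting
import Fermat.Agent.Gromov.Kernel
import Fermat.Agent.Gromov.Criterion
import Mathlib.GroupTheory.Abelianization.Defs
import Mathlib.GroupTheory.Perm.Finite
import Mathlib.Algebra.Ring.GeomSum
import Mathlib.LinearAlgebra.StdBasis

/-!
# The semidirect step

If the kernel of a map of a group of polynomial growth onto `ℤ` is finitely generated and virtually
nilpotent, so is the group: by the linear case a power of the splitting element acts unipotently on
the abelianisation of a characteristic nilpotent subgroup of finite index in the kernel.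
-/

set_option autoImplicit false

noncomputable section

open Finset
open scoped Pointwise Classical DirectSum commutatorElement

namespace FA.Gromov

variable {H : Type*} [Group H] (K : Subgroup H) [K.Normal]

/-- Conjugation on the abelianisation of a normal subgroup. -/
def conjAb : H →* AddMonoid.End (Additive (Abelianization K)) where
  toFun h := MonoidHom.toAdditive (Abelianization.map (MulAut.conjNormal h).toMonoidHom)
  map_one' := by
    ext a
    obtain ⟨x, hx⟩ := abelianization_of_surjective (Additive.toMul a)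
    apply Additive.toMul.injective
    change Abelianization.map _ (Additive.toMul a) = Additive.toMul a
    rw [← hx]
    simp
  map_mul' g h := by
    ext a
    obtain ⟨x, hx⟩ := abelianization_of_surjective (Additive.toMul a)
    apply Additive.toMul.injective
    change Abelianization.map _ (Additive.toMul a) =
      Abelianization.map _ (Abelianization.map _ (Additive.toMul a))
    rw [← hx]
    simp

/-- The class in the abelianisation. -/
def cls (x : K) : Additive (Abelianization K) := Additive.ofMul (Abelianization.of x)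

omit [K.Normal] in
theorem cls_surjective : Function.Surjective (cls K) := fun a => by
  obtain ⟨x, hx⟩ := abelianization_of_surjective (Additive.toMul a)
  exact ⟨x, by rw [cls, hx]; rfl⟩

omit [K.Normal] in
theorem cls_mul (x y : K) : cls K (x * y) = cls K x + cls K y := by simp [cls]

omit [K.Normal] in
theorem cls_inv (x : K) : cls K x⁻¹ = - cls K x := by simp [cls]

omit [K.Normal] in
theorem cls_pow (x : K) (n : ℕ) : cls K (x ^ n) = n • cls K x := by simp [cls]

theorem conjAb_cls (h : H) (x : K) : conjAb K h (cls K x) = cls K (MulAut.conjNormal h x) := by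
  change Additive.ofMul (Abelianization.map _ (Abelianization.of x)) = _
  rw [Abelianization.map_of]
  rfl

theorem conjAb_mem (x : K) (a : Additive (Abelianization K)) : conjAb K (x : H) a = a := by
  obtain ⟨y, rfl⟩ := cls_surjective K a
  have h : (MulAut.conjNormal (x : H) y : K) = x * y * x⁻¹ := Subtype.ext (by simp)
  rw [conjAb_cls, h, cls_mul, cls_mul, cls_inv, add_neg_cancel_comm]

/-- The commutator map with a fixed element. -/
def comMap (s : H) (x : K) : K := MulAut.conjNormal s x * x⁻¹

theorem coe_comMap (s : H) (x : K) : (comMap K s x : H) = s * x * s⁻¹ * (x : H)⁻¹ := by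
  simp [comMap]

theorem cls_comMap (s : H) (m : ℕ) (x : K) :
    cls K ((comMap K s)^[m] x) = ((conjAb K s - 1) ^ m) (cls K x) := by
  induction m with
  | zero => simp
  | succ m ih =>
    rw [Function.iterate_succ_apply', comMap, cls_mul, cls_inv, ← conjAb_cls, pow_succ',
      AddMonoid.End.coe_mul, Function.comp_apply, ← ih, ← sub_eq_add_neg]
    rfl

/-- The abelianisation modulo torsion, as a lattice. -/
theorem exists_lattice (hK : Group.FG K) :
    ∃ (r : ℕ) (π : Additive (Abelianization K) →+ (Fin r → ℝ))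
      (ψ : H →* Module.End ℝ (Fin r → ℝ)),
      (π.ker : Set (Additive (Abelianization K))).Finite ∧
        ∀ h a, π (conjAb K h a) = ψ h (π a) := by
  have := hK
  have : Group.FG (Abelianization K) := Group.fg_of_surjective abelianization_of_surjective
  obtain ⟨n, ι, hι, p, hp, e, ⟨E⟩⟩ :=
    AddCommGroup.equiv_free_prod_directSum_zmod (Additive (Abelianization K))
  set π : Additive (Abelianization K) →+ (Fin n → ℝ) :=
    { toFun := fun a i => (((E a).1 i : ℤ) : ℝ)
      map_zero' := by ext; simp
      map_add' := fun a b => by ext; simp } with hπ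
  have hker : (π.ker : Set (Additive (Abelianization K))).Finite := by
    have : ∀ i, NeZero (p i ^ e i) := fun i => ⟨pow_ne_zero _ (hp i).ne_zero⟩
    have : Finite (⨁ i : ι, ZMod (p i ^ e i)) :=
      Finite.of_injective (fun x i => x i) fun _ _ h => DFinsupp.ext (congrFun h)
    refine Set.Finite.of_finite_image (f := fun a => (E a).2) (Set.toFinite _) ?_
    intro a ha b hb hab
    have h1 : (E a).1 = (E b).1 := Finsupp.ext fun i => by
      have ha' := congrFun ha i
      have hb' := congrFun hb i
      simp [hπ] at ha' hb'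
      rw [ha', hb']
    exact E.injective (Prod.ext h1 hab)
  set gen : Fin n → Additive (Abelianization K) := fun i => E.symm (Finsupp.single i 1, 0)
    with hgen
  have hπgen : ∀ i, π (gen i) = Pi.single i 1 := fun i => by
    ext j
    simp [hπ, hgen, Finsupp.single_apply, Pi.single_apply, eq_comm]
  have htor : ∀ (b : Additive (Abelianization K)), π b = 0 → ∀ h, π (conjAb K h b) = 0 := by
    intro b hb h
    have : Finite π.ker := hker.to_subtype
    have h1 : IsOfFinAddOrder (⟨b, hb⟩ : π.ker) := isOfFinAddOrder_of_finite _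
    obtain ⟨k, hk, hkb⟩ := isOfFinAddOrder_iff_nsmul_eq_zero.1 h1
    have h2 : k • π (conjAb K h b) = 0 := by
      rw [← map_nsmul, ← map_nsmul, show k • b = 0 from congrArg Subtype.val hkb, map_zero,
        map_zero]
    funext i
    simpa [hk.ne'] using congrFun h2 i
  set ψ : H → Module.End ℝ (Fin n → ℝ) :=
    fun h => (Pi.basisFun ℝ (Fin n)).constr ℝ (fun i => π (conjAb K h (gen i))) with hψ
  have hψgen : ∀ h i, ψ h (Pi.single i 1) = π (conjAb K h (gen i)) := fun h i => by
    rw [hψ, ← Pi.basisFun_apply, Module.Basis.constr_basis]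
  have heq : ∀ h a, π (conjAb K h a) = ψ h (π a) := by
    intro h a
    set a' := a - ∑ i, (E a).1 i • gen i with ha'
    have h1 : π a' = 0 := by
      rw [ha', map_sub, map_sum]
      simp only [map_zsmul, hπgen]
      funext j
      simp [hπ, Finset.sum_apply, Pi.single_apply]
    have h2 := htor a' h1 h
    rw [ha', map_sub, map_sum] at h1
    rw [ha', map_sub, map_sub, map_sum, map_sum, sub_eq_zero] at h2
    rw [sub_eq_zero] at h1
    rw [h1, h2, map_sum]
    exact sum_congr rfl fun i _ => by simp only [map_zsmul, hπgen, hψgen]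
  have hext : ∀ f g : Module.End ℝ (Fin n → ℝ),
      (∀ i, f (Pi.single i 1) = g (Pi.single i 1)) → f = g := fun f g hfg =>
    (Pi.basisFun ℝ (Fin n)).ext fun i => by simpa using hfg i
  have hone : ψ 1 = 1 := hext _ _ fun i => by simp [hψgen, hπgen]
  have hmul : ∀ g h, ψ (g * h) = ψ g * ψ h := fun g h => hext _ _ fun i => ?_
  · exact ⟨n, π, MonoidHom.mk ⟨ψ, hone⟩ hmul, hker, heq⟩
  · rw [hψgen, map_mul, AddMonoid.End.coe_mul, Function.comp_apply, heq, heq, hπgen]
    rfl

variable {χ : H →* Multiplicative ℤ} {t : H}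

theorem kerPart_sup_mem (hK : K ≤ χ.ker) (ht : χ t = Multiplicative.ofAdd 1) {h : H}
    (hh : h ∈ K ⊔ Subgroup.zpowers t) : kerPart χ t h ∈ K := by
  obtain ⟨x, hx, _, ⟨i, rfl⟩, rfl⟩ := Subgroup.mem_sup_of_normal_left.1 hh
  have h1 : χ x = 1 := hK hx
  simpa [kerPart, map_mul, h1, chi_zpow ht] using hx

/-- **A power of the splitting element acts unipotently on the abelianisation.** -/
theorem exists_unipotent_power (hKfg : Group.FG K) (hK : K ≤ χ.ker)
    (ht : χ t = Multiplicative.ofAdd 1) {d : ℕ} (hd : WeakLE H d) :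
    ∃ e : ℕ, 0 < e ∧ ∃ c : ℕ, (conjAb K (t ^ e) - 1) ^ c = 0 := by
  obtain ⟨r, π, ψ, hker, hπψ⟩ := exists_lattice K hKfg
  set H0 := K ⊔ Subgroup.zpowers t with hH0
  have hmem : ∀ g : H0, kerPart χ t g ∈ K := fun g => kerPart_sup_mem K hK ht g.2
  set tr : H0 → Fin r → ℝ := fun g => π (cls K ⟨kerPart χ t g, hmem g⟩) with htr
  set ex : H0 → ℤ := fun g => Multiplicative.toAdd (χ g) with hex
  have hmul : ∀ g g' : H0, tr (g * g') = tr g + ψ (t ^ ex g) (tr g') := by
    intro g g'
    have h1 : (⟨kerPart χ t ↑(g * g'), hmem _⟩ : K) = ⟨kerPart χ t g, hmem g⟩ *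
        MulAut.conjNormal (t ^ ex g) ⟨kerPart χ t g', hmem g'⟩ := Subtype.ext (by
      simp only [Subgroup.coe_mul, MulAut.conjNormal_apply]
      exact kerPart_mul _ _)
    simp only [htr]
    rw [h1, cls_mul, map_add, ← hπψ, conjAb_cls]
  let aff : H0 →* Module.End ℝ ((Fin r → ℝ) × ℝ) :=
    { toFun := fun g =>
        { toFun := fun p => (ψ (t ^ ex g) p.1 + p.2 • tr g, p.2)
          map_add' := fun p q => Prod.ext (by simp [add_smul]; abel) rfl
          map_smul' := fun a p => Prod.ext (by simp [mul_smul]) rfl }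
      map_one' := by
        have h1 : tr 1 = 0 := by
          have := hmul 1 1
          simp [hex] at this
          exact this
        refine LinearMap.ext fun p => Prod.ext ?_ rfl
        simp [h1, hex]
      map_mul' := fun g g' => by
        refine LinearMap.ext fun p => Prod.ext ?_ rfl
        have h1 : ex (g * g') = ex g + ex g' := by simp [hex]
        simp [h1, hmul, zpow_add]
        abel }
  set toM : Module.End ℝ ((Fin r → ℝ) × ℝ) →* Matrix _ _ ℝ :=
    (LinearMap.toMatrixAlgEquiv
      (Module.finBasis ℝ ((Fin r → ℝ) × ℝ))).toAlgHom.toRingHom.toMonoidHom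
    with htoM
  set ρ := (Units.map toM).comp aff.toHomUnits with hρ
  have hρker : ∀ g, ρ g = 1 → aff g = 1 := fun g hg => by
    have h1 : toM (aff g) = 1 := congrArg Units.val hg
    exact (LinearMap.toMatrixAlgEquiv _).injective (h1.trans (map_one _).symm)
  have hH0fg : Group.FG H0 := by
    obtain ⟨T, hT⟩ := (Group.fg_iff_subgroup_fg K).1 hKfg
    refine (Group.fg_iff_subgroup_fg _).2 ⟨T ∪ {t}, ?_⟩
    rw [coe_union, coe_singleton, Subgroup.closure_union, hT, ← Subgroup.zpowers_eq_closure]
  obtain ⟨M, hM, hMi⟩ := linear_case ρ hH0fg (hd.of_injective H0.subtype Subtype.val_injective)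
  have := hMi
  have := hM
  set M' : Subgroup H0 := M.comap ρ.rangeRestrict with hM'
  have : M'.FiniteIndex :=
    ⟨by rw [hM', Subgroup.index_comap_of_surjective _ ρ.rangeRestrict_surjective]
        exact hMi.index_ne_zero⟩
  set k := M'.normalCore.index with hk
  have hk0 : 0 < k := Nat.pos_of_ne_zero Subgroup.FiniteIndex.index_ne_zero
  have hpow : ∀ g : H0, g ^ k ∈ M' := fun g =>
    M'.normalCore_le (M'.normalCore.pow_index_mem g)
  set q := ρ.rangeRestrict.subgroupComap M with hq
  set u : M' := ⟨(⟨t, Subgroup.mem_sup_right (Subgroup.mem_zpowers t)⟩ : H0) ^ k, hpow _⟩ with hu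
  obtain ⟨c, hc⟩ := Subgroup.nilpotent_iff_lowerCentralSeries.1 hM
  have hkey : ∀ x : K, π (((conjAb K (t ^ k) - 1) ^ c) (cls K x)) = 0 := by
    intro x
    have hstep : ∀ m, ∃ w : M', ((w : H0) : H) = ((comMap K (t ^ k))^[m] (x ^ k) : K) ∧
        q w ∈ (⊤ : Subgroup M).lowerCentralSeries m := by
      intro m
      induction m with
      | zero =>
        exact ⟨⟨(⟨x, Subgroup.mem_sup_left x.2⟩ : H0) ^ k, hpow _⟩, by simp, trivial⟩
      | succ m ih =>
        obtain ⟨w, hw, hwm⟩ := ih
        refine ⟨⁅u, w⁆, ?_, ?_⟩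
        · rw [Function.iterate_succ_apply', coe_comMap, ← hw]
          simp [commutatorElement_def, hu]
        · rw [map_commutatorElement, Subgroup.lowerCentralSeries_succ, Subgroup.commutator_comm]
          exact Subgroup.commutator_mem_commutator trivial hwm
    obtain ⟨w, hw, hwc⟩ := hstep c
    rw [hc, Subgroup.mem_bot] at hwc
    have h1 : ρ (w : H0) = 1 := congrArg Subtype.val (congrArg Subtype.val hwc)
    have h2 := congrArg Prod.fst (LinearMap.congr_fun (hρker _ h1) (0, 1))
    simp only [aff, MonoidHom.coe_mk, OneHom.coe_mk, LinearMap.coe_mk, AddHom.coe_mk,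
      map_zero, zero_add, one_smul, Module.End.one_apply] at h2
    have h3 : (⟨kerPart χ t (w : H0), hmem _⟩ : K) = (comMap K (t ^ k))^[c] (x ^ k) :=
      Subtype.ext ((kerPart_eq_self (hw ▸ hK (SetLike.coe_mem _))).trans hw)
    simp only [htr, h3, cls_comMap, cls_pow, map_nsmul] at h2
    funext i
    simpa [hk0.ne'] using congrFun h2 i
  have : Finite π.ker := hker.to_subtype
  have hstab : ∀ h : H, ∀ b ∈ π.ker, conjAb K h b ∈ π.ker := fun h b hb => by
    rw [AddMonoidHom.mem_ker] at hb ⊢
    rw [hπψ, hb, map_zero]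
  obtain ⟨i, j, hij, hfix⟩ := Finite.exists_ne_map_eq_of_infinite
    fun (m : ℕ) (b : π.ker) => (⟨conjAb K ((t ^ k) ^ m) b, hstab _ b b.2⟩ : π.ker)
  wlog hlt : i < j generalizing i j
  · exact this j i hij.symm hfix.symm (lt_of_le_of_ne (not_lt.1 hlt) hij.symm)
  set p := j - i with hp
  have hfix' : ∀ b, π b = 0 → conjAb K ((t ^ k) ^ p) b = b := fun b hb => by
    have h1 := congrArg (conjAb K (((t ^ k) ^ i)⁻¹))
      (congrArg Subtype.val (congrFun hfix ⟨b, hb⟩))
    simp only at h1
    have h0 : ∀ x y a, conjAb K x (conjAb K y a) = conjAb K (x * y) a := fun x y a => by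
      rw [map_mul]
      rfl
    rw [h0, h0, inv_mul_cancel, map_one, AddMonoid.End.coe_one, id] at h1
    rw [hp, pow_sub _ hlt.le, (Commute.inv_right (Commute.pow_pow_self (t ^ k) j i)).eq]
    exact h1.symm
  refine ⟨k * p, Nat.mul_pos hk0 (by omega), c + 1, ?_⟩
  ext a
  obtain ⟨x, rfl⟩ := cls_surjective K a
  set f := conjAb K (t ^ k) with hf
  have h1 : conjAb K (t ^ (k * p)) - 1 = (∑ i ∈ range p, f ^ i) * (f - 1) := by
    rw [geom_sum_mul, pow_mul, map_pow]
  have hcomm : Commute (∑ i ∈ range p, f ^ i) (f - 1) :=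
    (Commute.sum_left _ _ _ fun i _ => ((Commute.pow_self f i).sub_right (Commute.one_right _)))
  have h2 : π (((conjAb K (t ^ (k * p)) - 1) ^ c) (cls K x)) = 0 := by
    rw [h1, hcomm.mul_pow, AddMonoid.End.coe_mul, Function.comp_apply]
    generalize hb : ((f - 1) ^ c) (cls K x) = b
    have hb0 : π b = 0 := hb ▸ hkey x
    have hg : ∀ (g : AddMonoid.End (Additive (Abelianization K))), (∀ b, π b = 0 → π (g b) = 0) →
        ∀ n b, π b = 0 → π ((g ^ n) b) = 0 := fun g hg n => by
      induction n with
      | zero => exact fun b hb => hb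
      | succ n ih => exact fun b hb => by rw [pow_succ]; exact ih _ (hg b hb)
    refine hg _ (fun b hb => ?_) c b hb0
    erw [AddMonoidHom.finsetSum_apply, map_sum]
    refine sum_eq_zero fun i _ => ?_
    rw [hf, ← map_pow]
    exact hstab _ b hb
  rw [pow_succ', AddMonoid.End.coe_mul, Function.comp_apply, pow_mul]
  rw [pow_mul] at h2
  exact sub_eq_zero.2 (hfix' _ h2)

end FA.Gromov
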