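import Fermat.Agent.Gromov.Growth
import Mathlib.Analysis.SpecificLimits.Normed
import Mathlib.LinearAlgebra.Finsupp.LinearCombination
import Mathlib.Algebra.Order.BigOperators.Ring.Finset
import Mathlib.Order.Filter.Ultrafilter.Defs
import Mathlib.Analysis.Real.Sqrt
import Mathlib.Topology.Order.Compact

/-!
# Lipschitz harmonic functions

An infinite group of polynomial growth has a nonconstant Lipschitz harmonic function. It is a limit
of matrix coefficients of the normalised differences of translates of the random walk; the method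
is that of Shalom and Ozawa, with power iteration in place of spectral calculus.
-/

set_option autoImplicit false

noncomputable section

open Finset Filter
open scoped Pointwise Classical Topology

namespace FA.Gromov

variable {G : Type*} [Group G]

namespace Gen

variable (S : Gen G)

/-- The mean over neighbours is the value. -/
def Harmonic (f : G → ℝ) : Prop := ∀ x, ∑ s ∈ S.set, (f (x * s) - f x) = 0

/-- Neighbours differ by at most `L`. -/
def LipWith (f : G → ℝ) (L : ℝ) : Prop := ∀ x, ∀ s ∈ S.set, |f (x * s) - f x| ≤ L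

theorem set_card_pos : 0 < (S.set.card : ℝ) := by exact_mod_cast card_pos.2 ⟨1, S.one_mem⟩

theorem sum_inv {M : Type*} [AddCommMonoid M] (F : G → M) :
    ∑ s ∈ S.set, F s⁻¹ = ∑ s ∈ S.set, F s :=
  Finset.sum_nbij' (fun s => s⁻¹) (fun s => s⁻¹) S.inv_mem S.inv_mem (fun _ _ => inv_inv _)
    (fun _ _ => inv_inv _) fun _ _ => rfl

/-- A harmonic function with a maximum is constant. -/
theorem eq_of_max {f : G → ℝ} (hf : S.Harmonic f) {x₀ : G} (hmax : ∀ x, f x ≤ f x₀) (x : G) :
    f x = f x₀ := by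
  have key : ∀ (n : ℕ) y, y ∈ S.ball n → f (x₀ * y) = f x₀ := by
    intro n
    induction n with
    | zero =>
      intro y hy
      rw [ball_zero, mem_singleton] at hy
      rw [hy, mul_one]
    | succ n ih =>
      intro y hy
      rw [ball, pow_succ] at hy
      obtain ⟨a, ha, b, hb, rfl⟩ := Finset.mem_mul.1 hy
      have hx := ih a ha
      have h0 := (Finset.sum_eq_zero_iff_of_nonpos fun s _ => ?_).1 (hf (x₀ * a)) b hb
      · rw [← mul_assoc]
        linarith
      · linarith [hmax (x₀ * a * s)]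
  obtain ⟨n, hn⟩ := S.exists_mem_ball (x₀⁻¹ * x)
  simpa using key n _ hn

theorem abs_sub_le_len {f : G → ℝ} {L : ℝ} (hf : S.LipWith f L) (x y : G) :
    |f (x * y) - f x| ≤ L * S.len y := by
  have key : ∀ (n : ℕ) y, y ∈ S.ball n → |f (x * y) - f x| ≤ L * n := by
    intro n
    induction n with
    | zero =>
      intro y hy
      rw [ball_zero, mem_singleton] at hy
      simp [hy]
    | succ n ih =>
      intro y hy
      rw [ball, pow_succ] at hy
      obtain ⟨a, ha, b, hb, rfl⟩ := Finset.mem_mul.1 hy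
      have h1 := ih a ha
      have h2 := hf (x * a) b hb
      rw [← mul_assoc]
      push_cast
      linarith [abs_sub_le (f (x * a * b)) (f (x * a)) (f x)]
  exact key _ y (S.mem_ball_iff.2 le_rfl)

end Gen

/-! ### Finitely supported functions -/

/-- Translation: the value at `z` becomes the one at `a * z`. -/
def tr (a : G) : (G →₀ ℝ) →ₗ[ℝ] (G →₀ ℝ) := Finsupp.lmapDomain ℝ ℝ (fun z => a⁻¹ * z)

theorem tr_apply (a : G) (f : G →₀ ℝ) (z : G) : tr a f z = f (a * z) := by
  have h : Function.Injective fun z => a⁻¹ * z := mul_right_injective _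
  have := Finsupp.mapDomain_apply h f (a * z)
  simpa [tr] using this

theorem tr_one (f : G →₀ ℝ) : tr (1 : G) f = f := Finsupp.ext fun z => by simp [tr_apply]

theorem tr_tr (a b : G) (f : G →₀ ℝ) : tr a (tr b f) = tr (b * a) f :=
  Finsupp.ext fun z => by simp [tr_apply, mul_assoc]

/-- The inner product. -/
def ip (f g : G →₀ ℝ) : ℝ := Finsupp.linearCombination ℝ (⇑g) f

omit [Group G] in
theorem ip_eq_sum (f g : G →₀ ℝ) {T : Finset G} (h : f.support ⊆ T) :
    ip f g = ∑ x ∈ T, f x * g x := by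
  rw [ip, Finsupp.linearCombination_apply, Finsupp.sum_of_support_subset f h _ (by simp)]
  rfl

omit [Group G] in
theorem ip_comm (f g : G →₀ ℝ) : ip f g = ip g f := by
  rw [ip_eq_sum f g (subset_union_left (s₂ := g.support)),
    ip_eq_sum g f (subset_union_right (s₁ := f.support))]
  exact sum_congr rfl fun x _ => mul_comm _ _

omit [Group G] in
theorem ip_add_left (f f' g : G →₀ ℝ) : ip (f + f') g = ip f g + ip f' g := map_add _ _ _

omit [Group G] in
theorem ip_sub_left (f f' g : G →₀ ℝ) : ip (f - f') g = ip f g - ip f' g := map_sub _ _ _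

omit [Group G] in
theorem ip_smul_left (c : ℝ) (f g : G →₀ ℝ) : ip (c • f) g = c * ip f g := by
  simp [ip, map_smul]

omit [Group G] in
theorem ip_sum_left {ι : Type*} (T : Finset ι) (F : ι → G →₀ ℝ) (g : G →₀ ℝ) :
    ip (∑ i ∈ T, F i) g = ∑ i ∈ T, ip (F i) g := map_sum _ _ _

omit [Group G] in
theorem ip_sub_right (f g g' : G →₀ ℝ) : ip f (g - g') = ip f g - ip f g' := by
  rw [ip_comm, ip_sub_left, ip_comm g f, ip_comm g' f]

omit [Group G] in
theorem ip_smul_right (c : ℝ) (f g : G →₀ ℝ) : ip f (c • g) = c * ip f g := by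
  rw [ip_comm, ip_smul_left, ip_comm]

omit [Group G] in
theorem ip_self_nonneg (f : G →₀ ℝ) : 0 ≤ ip f f := by
  rw [ip_eq_sum f f (Finset.Subset.refl _)]
  exact sum_nonneg fun x _ => mul_self_nonneg _

theorem ip_tr (a : G) (f g : G →₀ ℝ) : ip (tr a f) (tr a g) = ip f g := by
  have h : (tr a f).support ⊆ f.support.image fun z => a⁻¹ * z := Finsupp.mapDomain_support
  rw [ip_eq_sum _ _ h, ip_eq_sum f g (Finset.Subset.refl _),
    sum_image fun x _ y _ hxy => mul_left_cancel hxy]
  simp [tr_apply]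

theorem ip_tr_left (a : G) (f g : G →₀ ℝ) : ip (tr a f) g = ip f (tr a⁻¹ g) := by
  conv_lhs => rw [show g = tr a (tr a⁻¹ g) by rw [tr_tr, inv_mul_cancel, tr_one]]
  rw [ip_tr]

omit [Group G] in
theorem ip_sq_le (f g : G →₀ ℝ) : ip f g ^ 2 ≤ ip f f * ip g g := by
  rw [ip_eq_sum f g (subset_union_left (s₂ := g.support)),
    ip_eq_sum f f (subset_union_left (s₂ := g.support)),
    ip_eq_sum g g (subset_union_right (s₁ := f.support))]
  simpa [pow_two] using sum_mul_sq_le_sq_mul_sq (f.support ∪ g.support) (⇑f) (⇑g)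

omit [Group G] in
theorem two_mul_ip_le (f g : G →₀ ℝ) : 2 * ip f g ≤ ip f f + ip g g := by
  have h := ip_self_nonneg (f - g)
  rw [ip_sub_left, ip_sub_right, ip_sub_right, ip_comm g f] at h
  linarith

omit [Group G] in
theorem sq_apply_le (f : G →₀ ℝ) (x : G) : f x ^ 2 ≤ ip f f := by
  by_cases hx : x ∈ f.support
  · rw [ip_eq_sum f f (Finset.Subset.refl _), pow_two]
    exact single_le_sum (f := fun y => f y * f y) (fun y _ => mul_self_nonneg _) hx
  · rw [Finsupp.notMem_support_iff.1 hx]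
    simpa using ip_self_nonneg f

/-! ### The random walk -/

namespace Gen

variable (S : Gen G)

/-- The mean of the translates. -/
def avg : (G →₀ ℝ) →ₗ[ℝ] (G →₀ ℝ) := (S.set.card : ℝ)⁻¹ • ∑ s ∈ S.set, tr s

theorem avg_eq (f : G →₀ ℝ) : S.avg f = (S.set.card : ℝ)⁻¹ • ∑ s ∈ S.set, tr s f := by
  simp [avg, LinearMap.sum_apply]

theorem avg_apply (f : G →₀ ℝ) (z : G) :
    S.avg f z = (S.set.card : ℝ)⁻¹ * ∑ s ∈ S.set, f (s * z) := by
  simp [avg_eq, tr_apply]

theorem ip_avg_left (f g : G →₀ ℝ) :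
    ip (S.avg f) g = (S.set.card : ℝ)⁻¹ * ∑ s ∈ S.set, ip (tr s f) g := by
  rw [avg_eq, ip_smul_left, ip_sum_left]

theorem ip_avg_comm (f g : G →₀ ℝ) : ip (S.avg f) g = ip f (S.avg g) := by
  rw [ip_avg_left, ip_comm f, ip_avg_left, ← S.sum_inv fun s => ip (tr s g) f]
  congr 1
  exact sum_congr rfl fun s _ => by rw [ip_tr_left, ip_comm]

/-- The Dirichlet form. -/
def energy (f : G →₀ ℝ) : ℝ := ip f f - ip (S.avg f) f

theorem sum_ip_diff (f : G →₀ ℝ) :
    ∑ s ∈ S.set, ip (tr s f - f) (tr s f - f) = 2 * S.set.card * S.energy f := by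
  have h : ∀ s, ip (tr s f - f) (tr s f - f) = 2 * ip f f - 2 * ip (tr s f) f := fun s => by
    rw [ip_sub_left, ip_sub_right, ip_sub_right, ip_tr, ip_comm f (tr s f)]
    ring
  rw [sum_congr rfl fun s _ => h s, sum_sub_distrib, sum_const, nsmul_eq_mul, ← mul_sum, energy,
    ip_avg_left]
  have := S.set_card_pos.ne'
  field_simp

theorem energy_nonneg (f : G →₀ ℝ) : 0 ≤ S.energy f := by
  have h : 0 ≤ 2 * (S.set.card : ℝ) * S.energy f := by
    rw [← sum_ip_diff]
    exact sum_nonneg fun s _ => ip_self_nonneg _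
  exact nonneg_of_mul_nonneg_right h (by have := S.set_card_pos; positivity)

theorem avg_lower (g : G →₀ ℝ) :
    2 / (S.set.card : ℝ) * ip g g ≤ ip g g + ip (S.avg g) g := by
  have hN := S.set_card_pos
  rw [ip_avg_left, ← add_sum_erase _ _ S.one_mem, tr_one]
  have h1 : ∀ s ∈ S.set.erase 1, -ip g g ≤ ip (tr s g) g := fun s _ => by
    have h := ip_self_nonneg (tr s g + g)
    rw [ip_add_left, ip_comm _ (tr s g + g), ip_add_left, ip_comm g (tr s g + g), ip_add_left,
      ip_tr, ip_comm g (tr s g)] at h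
    linarith
  have h2 := sum_le_sum h1
  rw [sum_const, nsmul_eq_mul, card_erase_of_mem S.one_mem,
    Nat.cast_sub (card_pos.2 ⟨1, S.one_mem⟩)] at h2
  rw [div_mul_eq_mul_div, div_le_iff₀ hN, add_mul, mul_comm (S.set.card : ℝ)⁻¹, mul_assoc,
    inv_mul_cancel₀ hN.ne', mul_one]
  push_cast at h2
  linarith

theorem energy_drop (f : G →₀ ℝ) : 2 / (S.set.card : ℝ) * ip (f - S.avg f) (f - S.avg f) ≤
    S.energy f - S.energy (S.avg f) := by
  refine (S.avg_lower _).trans (le_of_eq ?_)
  simp only [energy, map_sub, ip_sub_left, ip_sub_right, ip_comm f (S.avg f)]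
  rw [S.ip_avg_comm (S.avg f) f]
  ring

theorem norm_drop (f : G →₀ ℝ) : ip f f - ip (S.avg f) (S.avg f) =
    2 * S.energy f - ip (f - S.avg f) (f - S.avg f) := by
  simp only [energy, ip_sub_left, ip_sub_right, ip_comm f (S.avg f)]
  ring

theorem ip_avg_self_le (f : G →₀ ℝ) : ip (S.avg f) (S.avg f) ≤ ip f f := by
  have hN := S.set_card_pos
  have h : ∑ s ∈ S.set, ip (tr s f) (S.avg f) ≤
      ∑ _s ∈ S.set, (ip f f + ip (S.avg f) (S.avg f)) / 2 :=
    sum_le_sum fun s _ => by
      have := two_mul_ip_le (tr s f) (S.avg f)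
      rw [ip_tr] at this
      linarith
  rw [sum_const, nsmul_eq_mul] at h
  have h' := mul_le_mul_of_nonneg_left h (inv_nonneg.2 hN.le)
  rw [← ip_avg_left, ← mul_assoc, inv_mul_cancel₀ hN.ne', one_mul] at h'
  linarith

/-- The walk. -/
def walk : ℕ → G →₀ ℝ
  | 0 => Finsupp.single 1 1
  | k + 1 => S.avg (walk k)

theorem walk_support : ∀ k, (S.walk k).support ⊆ S.ball k
  | 0 => by
    rw [walk, ball_zero]
    exact Finsupp.support_single_subset
  | k + 1 => fun z hz => by
    rw [Finsupp.mem_support_iff, walk, avg_apply] at hz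
    obtain ⟨s, hs, hne⟩ := exists_ne_zero_of_sum_ne_zero (right_ne_zero_of_mul hz)
    have h := S.mul_mem_ball (S.mem_ball_one (S.inv_mem s hs))
      (walk_support k (Finsupp.mem_support_iff.2 hne))
    rw [inv_mul_cancel_left, add_comm] at h
    exact h

theorem walk_sum : ∀ k, Finsupp.linearCombination ℝ (fun _ : G => (1 : ℝ)) (S.walk k) = 1
  | 0 => by simp [walk]
  | k + 1 => by
    have h : ∀ s : G, Finsupp.linearCombination ℝ (fun _ : G => (1 : ℝ)) (tr s (S.walk k)) =
        Finsupp.linearCombination ℝ (fun _ : G => (1 : ℝ)) (S.walk k) := fun s => by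
      rw [tr, Finsupp.lmapDomain_apply, Finsupp.linearCombination_mapDomain]
      rfl
    rw [walk, avg_eq, map_smul, map_sum, sum_congr rfl fun s _ => h s, sum_const, walk_sum k,
      nsmul_eq_mul, mul_one, smul_eq_mul, inv_mul_cancel₀ S.set_card_pos.ne']

theorem one_le_card_mul_ip (k : ℕ) : 1 ≤ ((S.ball k).card : ℝ) * ip (S.walk k) (S.walk k) := by
  have h := S.walk_sum k
  rw [Finsupp.linearCombination_apply,
    Finsupp.sum_of_support_subset _ (S.walk_support k) _ (by simp)] at h
  simp only [smul_eq_mul, mul_one] at h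
  rw [ip_eq_sum _ _ (S.walk_support k)]
  have := sum_mul_sq_le_sq_mul_sq (S.ball k) (fun _ => (1 : ℝ)) (⇑(S.walk k))
  simp only [one_mul, sum_const, nsmul_eq_mul, mul_one, h, pow_two] at this
  exact this

theorem ip_walk (i : ℕ) : ∀ j, ip (S.walk i) (S.walk j) = ip (S.walk (i + j)) (S.walk 0) := by
  intro j
  induction j generalizing i with
  | zero => rfl
  | succ j ih =>
    show ip (S.walk i) (S.avg (S.walk j)) = _
    rw [← S.ip_avg_comm]
    refine (ih (i + 1)).trans ?_
    rw [Nat.add_right_comm, Nat.add_assoc]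

theorem energy_pos [Infinite G] (k : ℕ) : 0 < S.energy (S.walk k) := by
  refine lt_of_le_of_ne (S.energy_nonneg _) fun h0 => ?_
  set f := S.walk k
  have h := S.sum_ip_diff f
  rw [← h0, mul_zero, sum_eq_zero_iff_of_nonneg fun s _ => ip_self_nonneg _] at h
  have hinv : ∀ s ∈ S.set, ∀ z, f (s * z) = f z := fun s hs z => by
    have h2 := sq_apply_le (tr s f - f) z
    rw [h s hs, Finsupp.sub_apply, tr_apply] at h2
    exact sub_eq_zero.1 (pow_eq_zero_iff two_ne_zero |>.1 (le_antisymm h2 (sq_nonneg _)))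
  have hall : ∀ x, f x = f 1 := fun x => by
    have hx : x ∈ Submonoid.closure (↑S.set : Set G) := by rw [S.closure_eq]; trivial
    have key : ∀ z, f (x * z) = f z := by
      induction hx using Submonoid.closure_induction with
      | mem y hy => exact hinv y hy
      | one => simp
      | mul a b _ _ iha ihb => exact fun z => by rw [mul_assoc, iha, ihb]
    simpa using key 1
  obtain ⟨z, hz⟩ := Infinite.exists_notMem_finset f.support
  rw [Finsupp.notMem_support_iff, hall] at hz
  have := S.walk_sum k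
  rw [show S.walk k = 0 from Finsupp.ext fun x => (hall x).trans hz, map_zero] at this
  exact zero_ne_one this

/-- Along some times the Laplacian is small against the energy. -/
theorem frequently_small [Infinite G] {d : ℕ} (hd : WeakLE G d) {ε : ℝ} (hε : 0 < ε) :
    ∃ k, ip (S.walk k - S.avg (S.walk k)) (S.walk k - S.avg (S.walk k)) ≤
      ε * S.energy (S.walk k) := by
  by_contra hno
  simp only [not_exists, not_le] at hno
  set D : ℕ → ℝ := fun k => S.energy (S.walk k) with hD
  set a : ℕ → ℝ := fun k => ip (S.walk k) (S.walk k) with ha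
  have hN := S.set_card_pos
  set ρ : ℝ := max (1 - 2 / (S.set.card : ℝ) * ε) (1 / 2) with hρ
  have hρ0 : 0 < ρ := lt_of_lt_of_le (by norm_num) (le_max_right _ _)
  have hρ1 : ρ < 1 := max_lt (by linarith [mul_pos (div_pos two_pos hN) hε]) (by norm_num)
  have hstep : ∀ k, D (k + 1) ≤ ρ * D k := fun k => by
    have h1 := S.energy_drop (S.walk k)
    have h2 := mul_le_mul_of_nonneg_left (hno k).le (div_pos two_pos hN).le
    have h3 : (1 - 2 / (S.set.card : ℝ) * ε) * D k ≤ ρ * D k :=
      mul_le_mul_of_nonneg_right (le_max_left _ _) (S.energy_nonneg _)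
    simp only [hD, walk] at *
    linarith
  have hgeo : ∀ k, D k ≤ D 0 * ρ ^ k := fun k => by
    induction k with
    | zero => simp
    | succ k ih =>
      refine (hstep k).trans ((mul_le_mul_of_nonneg_left ih hρ0.le).trans (le_of_eq ?_))
      ring
  have hdiff : ∀ k x, (S.walk k x - S.walk (k + 1) x) ^ 2 ≤ (S.set.card : ℝ) / 2 * D k :=
    fun k x => by
    have h1 := sq_apply_le (S.walk k - S.avg (S.walk k)) x
    rw [Finsupp.sub_apply] at h1
    have h2 := S.energy_drop (S.walk k)
    rw [div_mul_eq_mul_div, div_le_iff₀ hN] at h2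
    have h3 := mul_nonneg (S.energy_nonneg (S.avg (S.walk k))) hN.le
    rw [show S.walk (k + 1) x = S.avg (S.walk k) x from rfl]
    simp only [hD]
    linarith
  have hc : ∀ x, ∃ l, Tendsto (fun k => S.walk k x) atTop (𝓝 l) := fun x => by
    refine cauchySeq_tendsto_of_complete (cauchySeq_of_le_geometric (Real.sqrt ρ)
      (Real.sqrt ((S.set.card : ℝ) / 2 * D 0)) ((Real.sqrt_lt' one_pos).2 (by simpa using hρ1))
      fun k => ?_)
    rw [Real.dist_eq, ← Real.sqrt_sq_eq_abs]
    refine (Real.sqrt_le_sqrt (hdiff k x)).trans ?_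
    have hroot : Real.sqrt ρ ^ k = Real.sqrt (ρ ^ k) := by
      rw [eq_comm, Real.sqrt_eq_iff_mul_self_eq (pow_nonneg hρ0.le k) (by positivity), ← mul_pow,
        Real.mul_self_sqrt hρ0.le]
    rw [hroot, ← Real.sqrt_mul (mul_nonneg (by positivity) (S.energy_nonneg _))]
    refine Real.sqrt_le_sqrt ?_
    rw [mul_assoc]
    exact mul_le_mul_of_nonneg_left (hgeo k) (by positivity)
  choose h hh using hc
  have ha1 : ∀ k, a k ≤ 1 := fun k => by
    induction k with
    | zero => simp [ha, walk, ip]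
    | succ k ih => exact (S.ip_avg_self_le _).trans ih
  have hharm : ∀ x, h x = (S.set.card : ℝ)⁻¹ * ∑ s ∈ S.set, h (s * x) := fun x =>
    tendsto_nhds_unique ((hh x).comp (tendsto_add_atTop_nat 1))
      (((tendsto_finsetSum _ fun s _ => hh (s * x)).const_mul _).congr fun k => by
        simp [walk, avg_apply])
  have hsum : ∀ T : Finset G, ∑ x ∈ T, h x ^ 2 ≤ 1 := fun T => by
    refine le_of_tendsto' (tendsto_finsetSum _ fun x _ => (hh x).pow 2) fun k => ?_
    refine le_trans ?_ (ha1 k)
    rw [ha]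
    simp only
    rw [ip_eq_sum _ _ (subset_union_right (s₁ := T))]
    simp only [← pow_two]
    exact sum_le_sum_of_subset_of_nonneg subset_union_left fun x _ _ => sq_nonneg _
  have hzero : ∀ x, h x ≤ 0 := by
    by_contra hcon
    simp only [not_forall, not_le] at hcon
    obtain ⟨x₁, hx₁⟩ := hcon
    have hfin : Set.Finite {x | h x₁ ≤ h x} := by
      by_contra hinf
      obtain ⟨m, hm⟩ := exists_nat_gt (1 / h x₁ ^ 2)
      obtain ⟨T, hTsub, hT⟩ := (Set.not_finite.1 hinf).exists_subset_card_eq m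
      have h1 := hsum T
      have h2 : ∑ _x ∈ T, h x₁ ^ 2 ≤ ∑ x ∈ T, h x ^ 2 :=
        sum_le_sum fun x hx => pow_le_pow_left₀ hx₁.le (hTsub hx) 2
      rw [sum_const, nsmul_eq_mul, hT] at h2
      rw [div_lt_iff₀ (by positivity)] at hm
      linarith
    obtain ⟨x₀, hx₀, hmax⟩ := hfin.toFinset.exists_max_image h
      ⟨x₁, hfin.mem_toFinset.2 (le_refl (h x₁))⟩
    have hx₀' : h x₁ ≤ h x₀ := hfin.mem_toFinset.1 hx₀
    have hgl : ∀ x, h x ≤ h x₀ := fun x => by
      rcases le_or_gt (h x₁) (h x) with h1 | h1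
      · exact hmax x (hfin.mem_toFinset.2 h1)
      · linarith
    have hrev : S.Harmonic fun x => h x⁻¹ := fun x => by
      simp only [mul_inv_rev]
      rw [S.sum_inv fun s => h (s * x⁻¹) - h x⁻¹, sum_sub_distrib, sum_const, nsmul_eq_mul,
        sub_eq_zero]
      conv_rhs => rw [hharm x⁻¹, ← mul_assoc, mul_inv_cancel₀ hN.ne', one_mul]
    obtain ⟨z, hz⟩ := Infinite.exists_notMem_finset hfin.toFinset
    rw [hfin.mem_toFinset] at hz
    have := S.eq_of_max hrev (x₀ := x₀⁻¹) (fun x => by simpa using hgl x⁻¹) z⁻¹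
    simp only [inv_inv] at this
    exact hz (by simp only [Set.mem_ofPred_eq, this]; exact hx₀')
  have halim : ∀ k, a k ≤ 2 * D 0 / (1 - ρ) * ρ ^ k := fun k => by
    have hind : ∀ m, a k ≤ a (k + m) + 2 * D 0 / (1 - ρ) * (ρ ^ k - ρ ^ (k + m)) := fun m => by
      induction m with
      | zero => simp
      | succ m ih =>
        have h1 := S.norm_drop (S.walk (k + m))
        have h2 := ip_self_nonneg (S.walk (k + m) - S.avg (S.walk (k + m)))
        have h3 := hgeo (k + m)
        have e : 2 * D 0 / (1 - ρ) * (ρ ^ (k + m) - ρ ^ (k + (m + 1))) =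
            2 * (D 0 * ρ ^ (k + m)) := by
          rw [← add_assoc, pow_succ]
          field_simp [(sub_pos.2 hρ1).ne']
        have h4 : a (k + m) - a (k + (m + 1)) ≤ 2 * (D 0 * ρ ^ (k + m)) := by
          simp only [ha, hD, ← add_assoc, walk] at *
          linarith
        linarith
    have hlim : Tendsto (fun m => a (k + m)) atTop (𝓝 (h 1)) := by
      refine ((hh 1).comp (tendsto_atTop_mono (fun m => ?_) tendsto_id :
        Tendsto (fun m => (k + m) + (k + m)) atTop atTop)).congr fun m => ?_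
      · simp only [id]; omega
      · simp only [ha, Function.comp_apply]
        rw [S.ip_walk (k + m) (k + m), walk, ip_comm]
        simp [ip]
    refine ge_of_tendsto ((hlim.add_const (2 * D 0 / (1 - ρ) * ρ ^ k))) (Eventually.of_forall
      fun m => (hind m).trans ?_) |>.trans (by linarith [hzero 1])
    have : 0 ≤ 2 * D 0 / (1 - ρ) * ρ ^ (k + m) :=
      mul_nonneg (div_nonneg (mul_nonneg two_pos.le (S.energy_nonneg _)) (by linarith))
        (pow_nonneg hρ0.le _)
    linarith
  obtain ⟨C, hC⟩ := hd S.set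
  have hpos : ∀ k : ℕ, (S.set ^ k).card ≤ C * (k + 1) ^ d →
      1 ≤ (C : ℝ) * (2 * D 0 / (1 - ρ)) * (((k : ℝ) + 1) ^ d * ρ ^ k) := fun k hk => by
    have h1 : ((S.ball k).card : ℝ) ≤ (C : ℝ) * ((k : ℝ) + 1) ^ d := by exact_mod_cast hk
    refine (S.one_le_card_mul_ip k).trans (le_trans (mul_le_mul h1 (halim k) (ip_self_nonneg _)
      (by positivity)) (le_of_eq ?_))
    ring
  have hz : Tendsto (fun k : ℕ => (C : ℝ) * (2 * D 0 / (1 - ρ)) * (((k : ℝ) + 1) ^ d * ρ ^ k))
      atTop (𝓝 0) := by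
    have h1 := ((tendsto_pow_const_mul_const_pow_of_abs_lt_one d
      (abs_lt.2 ⟨by linarith, hρ1⟩ : |ρ| < 1)).comp (tendsto_add_atTop_nat 1)).const_mul
      ((C : ℝ) * (2 * D 0 / (1 - ρ)) / ρ)
    rw [mul_zero] at h1
    refine h1.congr fun k => ?_
    simp only [Function.comp_apply, pow_succ]
    push_cast
    field_simp
  obtain ⟨k₀, hk₀⟩ := eventually_atTop.1 (hz.eventually (gt_mem_nhds one_pos))
  obtain ⟨k, hk, hk'⟩ := hC k₀
  exact absurd (hpos k hk') (not_le.2 (hk₀ k hk))

/-- **A nonconstant Lipschitz harmonic function.** -/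
theorem exists_harmonic [Infinite G] {d : ℕ} (hd : WeakLE G d) :
    ∃ (f : G → ℝ) (L : ℝ), S.Harmonic f ∧ S.LipWith f L ∧ ∃ x, f x ≠ f 1 := by
  have hN := S.set_card_pos
  choose k hk using fun n : ℕ => S.frequently_small hd (by positivity : (0 : ℝ) < 1 / (n + 1))
  set L : ℝ := Real.sqrt (2 * S.set.card) with hL
  have key : ∀ n : ℕ, ∃ g : G → ℝ, g 1 = 0 ∧ S.LipWith g L ∧
      (∀ x, |∑ s ∈ S.set, (g (x * s) - g x)| ≤ S.set.card * Real.sqrt (1 / (n + 1))) ∧
      1 ≤ ∑ s ∈ S.set, |g s| := fun n => by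
    set f := S.walk (k n) with hf
    set E := S.energy f with hE
    have hE0 : 0 < E := S.energy_pos _
    obtain ⟨s₀, hs₀, hbig⟩ : ∃ s ∈ S.set, 2 * E ≤ ip (tr s⁻¹ f - f) (tr s⁻¹ f - f) := by
      by_contra hcon
      simp only [not_exists, not_and, not_le] at hcon
      have h1 := Finset.sum_lt_sum_of_nonempty ⟨1, S.one_mem⟩ hcon
      rw [S.sum_inv fun s => ip (tr s f - f) (tr s f - f), sum_ip_diff, sum_const,
        nsmul_eq_mul] at h1
      linarith
    set w := tr s₀⁻¹ f - f with hw
    have hw0 : 0 < ip w w := by linarith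
    set c : ℝ := (Real.sqrt E * Real.sqrt (ip w w))⁻¹ with hc
    have hc0 : 0 < c := by positivity
    refine ⟨fun x => c * ip (tr x⁻¹ f - f) w, by simp [tr_one, ip], ?_, ?_, ?_⟩
    · intro x s hs
      have e : c * ip (tr (x * s)⁻¹ f - f) w - c * ip (tr x⁻¹ f - f) w =
          c * ip (tr x⁻¹ (tr s⁻¹ f - f)) w := by
        rw [map_sub, tr_tr, ← mul_inv_rev, ip_sub_left, ip_sub_left, ip_sub_left]
        ring
      rw [e, abs_mul, abs_of_pos hc0]
      have h1 : ip (tr s⁻¹ f - f) (tr s⁻¹ f - f) ≤ 2 * S.set.card * E := by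
        rw [hE, ← sum_ip_diff]
        exact single_le_sum (f := fun s => ip (tr s f - f) (tr s f - f))
          (fun s _ => ip_self_nonneg _) (S.inv_mem s hs)
      have h2 : |ip (tr x⁻¹ (tr s⁻¹ f - f)) w| ≤
          Real.sqrt (2 * S.set.card * E) * Real.sqrt (ip w w) := by
        rw [← Real.sqrt_mul (by positivity), ← Real.sqrt_sq_eq_abs]
        refine Real.sqrt_le_sqrt ((ip_sq_le _ _).trans (mul_le_mul_of_nonneg_right ?_ hw0.le))
        rw [ip_tr]
        exact h1
      refine (mul_le_mul_of_nonneg_left h2 hc0.le).trans (le_of_eq ?_)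
      rw [hc, hL, Real.sqrt_mul (by positivity) E]
      field_simp
    · intro x
      have e : ∑ s ∈ S.set, (c * ip (tr (x * s)⁻¹ f - f) w - c * ip (tr x⁻¹ f - f) w) =
          c * (S.set.card : ℝ) * ip (tr x⁻¹ (S.avg f - f)) w := by
        simp only [map_sub, avg_eq, map_smul, map_sum, ip_sub_left, ip_smul_left, ip_sum_left]
        rw [← S.sum_inv fun s => ip (tr x⁻¹ (tr s f)) w]
        simp only [tr_tr, mul_inv_rev]
        rw [sum_sub_distrib, sum_const, nsmul_eq_mul, ← mul_sum, sum_sub_distrib, sum_const,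
          nsmul_eq_mul]
        field_simp
        ring
      rw [e, abs_mul, abs_mul, abs_of_pos hc0, abs_of_pos hN]
      have h2 : |ip (tr x⁻¹ (S.avg f - f)) w| ≤
          Real.sqrt (1 / (n + 1)) * Real.sqrt E * Real.sqrt (ip w w) := by
        rw [← Real.sqrt_mul (by positivity), ← Real.sqrt_mul (by positivity),
          ← Real.sqrt_sq_eq_abs]
        refine Real.sqrt_le_sqrt ((ip_sq_le _ _).trans (mul_le_mul_of_nonneg_right ?_ hw0.le))
        rw [ip_tr]
        refine le_of_eq_of_le ?_ (hk n)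
        rw [← hf, ip_sub_left, ip_sub_right, ip_sub_right, ip_sub_left, ip_sub_right, ip_sub_right]
        ring
      refine (mul_le_mul_of_nonneg_left h2 (by positivity)).trans (le_of_eq ?_)
      rw [hc]
      field_simp
    · refine le_trans ?_ (single_le_sum (f := fun s => |c * ip (tr s⁻¹ f - f) w|)
        (fun s _ => abs_nonneg _) hs₀)
      rw [← hw, abs_of_nonneg (mul_nonneg hc0.le hw0.le), hc]
      rw [inv_mul_eq_div, le_div_iff₀ (by positivity), one_mul]
      calc Real.sqrt E * Real.sqrt (ip w w) ≤ Real.sqrt (ip w w) * Real.sqrt (ip w w) := by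
            gcongr; linarith
        _ = ip w w := Real.mul_self_sqrt hw0.le
  choose g hg1 hg2 hg3 hg4 using key
  set U : Ultrafilter ℕ := Ultrafilter.of atTop with hU
  have hlim : ∀ x, ∃ l, Tendsto (fun n => g n x) (U : Filter ℕ) (𝓝 l) := fun x => by
    have hmem : ∀ n, g n x ∈ Set.Icc (-(L * S.len x)) (L * S.len x) := fun n => by
      have := S.abs_sub_le_len (hg2 n) 1 x
      rw [one_mul, hg1, sub_zero] at this
      exact abs_le.1 this
    obtain ⟨l, -, hl⟩ := (isCompact_Icc.ultrafilter_le_nhds (U.map fun n => g n x) (by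
      rw [Ultrafilter.coe_map, le_principal_iff]
      exact mem_map.2 (univ_mem' hmem)))
    exact ⟨l, hl⟩
  choose f hfl using hlim
  have hUle : (U : Filter ℕ) ≤ atTop := Ultrafilter.of_le _
  have hone : f 1 = 0 :=
    tendsto_nhds_unique (hfl 1) (tendsto_const_nhds.congr fun n => (hg1 n).symm)
  refine ⟨f, L, fun x => ?_, fun x s hs => ?_, ?_⟩
  · refine abs_eq_zero.1 (le_antisymm ?_ (abs_nonneg _))
    have h1 := (tendsto_finsetSum S.set fun s _ => (hfl (x * s)).sub (hfl x)).abs
    refine le_of_tendsto_of_tendsto' h1 ?_ fun n => hg3 n x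
    have h2 : Tendsto (fun n : ℕ => (S.set.card : ℝ) * Real.sqrt (1 / ((n : ℝ) + 1))) atTop
        (𝓝 0) := by
      have := ((tendsto_one_div_add_atTop_nhds_zero_nat (𝕜 := ℝ)).sqrt).const_mul (S.set.card : ℝ)
      rwa [Real.sqrt_zero, mul_zero] at this
    exact h2.mono_left hUle
  · exact le_of_tendsto' ((hfl (x * s)).sub (hfl x)).abs fun n => hg2 n x s hs
  · by_contra hcon
    simp only [not_exists, ne_eq, not_not] at hcon
    have h1 := le_of_tendsto_of_tendsto' tendsto_const_nhds
      (tendsto_finsetSum S.set fun s _ => (hfl s).abs) hg4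
    rw [sum_congr rfl fun s _ => by rw [hcon s, hone, abs_zero], sum_const_zero] at h1
    linarith

end Gen

end FA.Gromov
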